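import Fermat.Agent.Frostman.Kakeya
import Mathlib.Analysis.Complex.Isometry
import Mathlib.MeasureTheory.Measure.Haar.InnerProductSpace
import Mathlib.Topology.Baire.CompleteMetrizable
import Mathlib.Topology.MetricSpace.Closeds

/-!
# Besicovitch's null Kakeya sets

There is a compact plane set of measure zero with a unit segment in every direction (Besicovitch
1928), by Körner's category argument. Compact sets of lines `y = a x + b` with all slopes in
`[0, 1]` form a complete space; short segments of intercepts centred on a fixed abscissa show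
that a generic one has sections of length `O(1 / N)` on every window of width `1 / N`, so null.
-/

set_option autoImplicit false

noncomputable section

open MeasureTheory Filter Topology Metric TopologicalSpace
open scoped ENNReal Real

namespace FA.Frostman

/-- The ordinates over `x` of the lines of `E`. -/
def lineSection (E : Set ℂ) (x : ℝ) : Set ℝ := (fun w : ℂ => w.re * x + w.im) '' E

/-- The compact sets of lines with slopes exactly `[0, 1]`. -/
def fullSlopeSets : Set (NonemptyCompacts ℂ) :=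
  {E | Complex.re '' (E : Set ℂ) = Set.Icc 0 1}

theorem exists_dist_lt {E F : NonemptyCompacts ℂ} {η : ℝ} (h : dist E F < η) {w : ℂ}
    (hw : w ∈ (E : Set ℂ)) : ∃ v ∈ (F : Set ℂ), dist w v < η :=
  exists_dist_lt_of_hausdorffDist_lt hw (by rwa [← NonemptyCompacts.dist_eq])
    (hausdorffEDist_ne_top_of_nonempty_of_bounded E.nonempty F.nonempty E.isCompact.isBounded
      F.isCompact.isBounded)

theorem isClosed_fullSlopeSets : IsClosed fullSlopeSets := by
  refine isClosed_of_closure_subset fun E hE => ?_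
  have hcl : IsClosed (Complex.re '' (E : Set ℂ)) :=
    (E.isCompact.image Complex.continuous_re).isClosed
  refine Set.Subset.antisymm ?_ fun a ha => hcl.closure_subset (Metric.mem_closure_iff.2 ?_)
  · rintro _ ⟨w, hw, rfl⟩
    refine isClosed_Icc.closure_subset (Metric.mem_closure_iff.2 fun η hη => ?_)
    obtain ⟨F, hF, hd⟩ := Metric.mem_closure_iff.1 hE η hη
    obtain ⟨v, hv, hvd⟩ := exists_dist_lt hd hw
    refine ⟨v.re, hF ▸ ⟨v, hv, rfl⟩, lt_of_le_of_lt ?_ hvd⟩
    rw [Real.dist_eq, dist_eq_norm, ← Complex.sub_re]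
    exact Complex.abs_re_le_norm _
  · intro η hη
    obtain ⟨F, hF, hd⟩ := Metric.mem_closure_iff.1 hE η hη
    obtain ⟨v, hv, rfl⟩ : a ∈ Complex.re '' (F : Set ℂ) := hF.symm ▸ ha
    obtain ⟨w, hw, hwd⟩ := exists_dist_lt (dist_comm E F ▸ hd) hv
    refine ⟨w.re, ⟨w, hw, rfl⟩, lt_of_le_of_lt ?_ hwd⟩
    rw [Real.dist_eq, dist_eq_norm, ← Complex.sub_re]
    exact Complex.abs_re_le_norm _

/-- The sets whose sections over a window have length less than `c`. -/
def smallSections (p q : ℝ) (c : ℝ≥0∞) : Set fullSlopeSets :=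
  {E | ∀ x ∈ Set.Icc p q, volume (lineSection (E : NonemptyCompacts ℂ) x) < c}

theorem eventually_volume_lineSection_lt (E : fullSlopeSets) {x : ℝ} {c : ℝ≥0∞}
    (h : volume (lineSection (E : NonemptyCompacts ℂ) x) < c) :
    ∀ᶠ z : fullSlopeSets × ℝ in 𝓝 (E, x),
      volume (lineSection (z.1 : NonemptyCompacts ℂ) z.2) < c := by
  obtain ⟨U, hSU, hU, hUc⟩ :=
    (lineSection (E : NonemptyCompacts ℂ) x).exists_isOpen_lt_of_lt c h
  obtain ⟨η, hη, hthick⟩ := (show IsCompact (lineSection (E : NonemptyCompacts ℂ) x) from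
    (E : NonemptyCompacts ℂ).isCompact.image (by fun_prop)).exists_thickening_subset_open hU hSU
  set R := |x| + 2 with hR
  refine Metric.eventually_nhds_iff.2 ⟨η / (2 * R), by positivity, fun z hz => ?_⟩
  refine (measure_mono fun y hy => hthick ?_).trans_lt hUc
  obtain ⟨w, hw, rfl⟩ := hy
  obtain ⟨hz1, hz2⟩ := max_lt_iff.1 (Prod.dist_eq (x := z) (y := (E, x)) ▸ hz)
  obtain ⟨v, hv, hvd⟩ := exists_dist_lt (show dist (z.1 : NonemptyCompacts ℂ) E < η / (2 * R) from
    hz1) hw
  refine mem_thickening_iff.2 ⟨v.re * x + v.im, ⟨v, hv, rfl⟩, ?_⟩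
  have hre : |w.re - v.re| ≤ dist w v := by
    rw [dist_eq_norm, ← Complex.sub_re]; exact Complex.abs_re_le_norm _
  have him : |w.im - v.im| ≤ dist w v := by
    rw [dist_eq_norm, ← Complex.sub_im]; exact Complex.abs_im_le_norm _
  have hw01 : w.re ∈ Set.Icc (0 : ℝ) 1 := z.1.2.subset ⟨w, hw, rfl⟩
  rw [Real.dist_eq] at hz2 ⊢
  have hz2' : |w.re * (z.2 - x)| ≤ |z.2 - x| := by
    rw [abs_mul, abs_of_nonneg hw01.1]
    exact mul_le_of_le_one_left (abs_nonneg _) hw01.2
  have hxw : |x * (w.re - v.re)| ≤ |x| * dist w v := by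
    rw [abs_mul]; exact mul_le_mul_of_nonneg_left hre (abs_nonneg x)
  calc |w.re * z.2 + w.im - (v.re * x + v.im)|
      = |w.re * (z.2 - x) + (x * (w.re - v.re) + (w.im - v.im))| := by ring_nf
    _ ≤ |z.2 - x| + (|x| * dist w v + dist w v) :=
        (abs_add_le _ _).trans (add_le_add hz2' ((abs_add_le _ _).trans (add_le_add hxw him)))
    _ < η / (2 * R) + (|x| + 1) * (η / (2 * R)) := by
        rw [show |x| * dist w v + dist w v = (|x| + 1) * dist w v by ring]
        gcongr
    _ = η / 2 := by rw [hR]; field_simp; ring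
    _ ≤ η := by linarith

theorem isOpen_smallSections (p q : ℝ) (c : ℝ≥0∞) : IsOpen (smallSections p q c) :=
  isOpen_iff_mem_nhds.2 fun E hE => isCompact_Icc.eventually_forall_of_forall_eventually
    fun x hx => eventually_volume_lineSection_lt E (hE x hx)

theorem dense_smallSections {p q : ℝ} {c : ℝ} (hqc : q - p < c) :
    Dense (smallSections p q (ENNReal.ofReal c)) := by
  refine Metric.dense_iff.2 fun E η hη => ?_
  obtain ⟨t, htE, htf, htcov⟩ :=
    finite_cover_balls_of_compact (E : NonemptyCompacts ℂ).isCompact (half_pos hη)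
  obtain ⟨m, hm⟩ := exists_nat_gt ((2 + 2 * |p|) / η)
  have hm0 : 0 < m := Nat.cast_pos.1 ((show (0 : ℝ) ≤ _ by positivity).trans_lt hm)
  have hm' : (1 + |p|) / m < η / 2 := by
    rw [div_lt_iff₀ hη] at hm
    rw [div_lt_iff₀ (Nat.cast_pos.2 hm0)]
    linarith
  have hslopes := E.2
  choose w hwE hwre using fun k : Fin m =>
    show ((k : ℕ) : ℝ) / m ∈ Complex.re '' ((E : NonemptyCompacts ℂ) : Set ℂ) from hslopes.symm ▸
      ⟨by positivity, (div_le_one (Nat.cast_pos.2 hm0)).2 (Nat.cast_le.2 k.2.le)⟩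
  set piece : Fin m → Set ℂ := fun k => (fun u : ℝ => (⟨(w k).re + u, (w k).im - p * u⟩ : ℂ)) ''
    Set.Icc 0 (1 / (m : ℝ))
  set S : Set ℂ := t ∪ ⋃ k, piece k with hS
  have hpiece : ∀ k, IsCompact (piece k) := fun k => isCompact_Icc.image
    (Complex.equivRealProdCLM.symm.continuous.comp
      ((by fun_prop : Continuous fun u : ℝ => (w k).re + u).prodMk (by fun_prop)))
  have hSc : IsCompact S := htf.isCompact.union (isCompact_iUnion hpiece)
  have hSne : S.Nonempty := ⟨_, Or.inr (Set.mem_iUnion.2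
    ⟨⟨0, hm0⟩, 0, ⟨le_rfl, by positivity⟩, rfl⟩)⟩
  set F : NonemptyCompacts ℂ := ⟨⟨S, hSc⟩, hSne⟩
  have hslope : Complex.re '' S = Set.Icc (0 : ℝ) 1 := by
    refine Set.Subset.antisymm ?_ fun a ha => ?_
    · rintro _ ⟨v, hv | hv, rfl⟩
      · exact hslopes.subset ⟨v, htE hv, rfl⟩
      · obtain ⟨k, u, hu, rfl⟩ := Set.mem_iUnion.1 hv
        show (w k).re + u ∈ _
        rw [hwre]
        refine ⟨add_nonneg (by positivity) hu.1, (add_le_add le_rfl hu.2).trans ?_⟩
        rw [← add_div, div_le_one (Nat.cast_pos.2 hm0)]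
        exact_mod_cast k.2
    · obtain ⟨k, hk1, hk2⟩ : ∃ k : Fin m, ((k : ℕ) : ℝ) ≤ a * m ∧ a * m ≤ (k : ℕ) + 1 := by
        rcases lt_or_ge (⌊a * m⌋₊) m with hlt | hge
        · exact ⟨⟨_, hlt⟩, Nat.floor_le (mul_nonneg ha.1 m.cast_nonneg),
            (Nat.lt_floor_add_one _).le⟩
        · have h1 : (m : ℝ) ≤ a * m :=
            (Nat.cast_le.2 hge).trans (Nat.floor_le (mul_nonneg ha.1 m.cast_nonneg))
          have h2 : a * m ≤ m := mul_le_of_le_one_left m.cast_nonneg ha.2
          refine ⟨⟨m - 1, by omega⟩, ?_, ?_⟩ <;>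
            · rw [Nat.cast_sub hm0]; push_cast; linarith
      refine ⟨⟨(w k).re + (a - (w k).re), (w k).im - p * (a - (w k).re)⟩,
        Or.inr (Set.mem_iUnion.2 ⟨k, a - (w k).re, ⟨?_, ?_⟩, rfl⟩), add_sub_cancel _ _⟩
      · rw [hwre, sub_nonneg, div_le_iff₀ (Nat.cast_pos.2 hm0)]
        exact hk1
      · rw [hwre, sub_le_iff_le_add', ← add_div, le_div_iff₀ (Nat.cast_pos.2 hm0)]
        exact hk2
  refine ⟨⟨F, hslope⟩, ?_, fun x hx => ?_⟩
  · rw [Metric.mem_ball, Subtype.dist_eq, NonemptyCompacts.dist_eq]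
    refine (hausdorffDist_le_of_mem_dist (half_pos hη).le (fun v hv => ?_) fun v hv => ?_).trans_lt
      (half_lt_self hη)
    · rcases hv with hv | hv
      · exact ⟨v, htE hv, by rw [dist_self]; linarith⟩
      · obtain ⟨k, u, hu, rfl⟩ := Set.mem_iUnion.1 hv
        refine ⟨w k, hwE k, ?_⟩
        rw [dist_eq_norm]
        refine (Complex.norm_le_abs_re_add_abs_im _).trans ?_
        simp only [Complex.sub_re, Complex.sub_im, add_sub_cancel_left, sub_sub_cancel_left,
          abs_neg, abs_mul, abs_of_nonneg hu.1]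
        have h1 : u + |p| * u ≤ (1 + |p|) / m := by
          rw [show u + |p| * u = (1 + |p|) * u by ring, div_eq_mul_one_div _ (m : ℝ)]
          exact mul_le_mul_of_nonneg_left hu.2 (by positivity)
        linarith
    · obtain ⟨s, hs, hvs⟩ := Set.mem_iUnion₂.1 (htcov hv)
      exact ⟨s, Or.inl hs, (mem_ball.1 hvs).le⟩
  · have hsub : lineSection S x ⊆ lineSection t x ∪ ⋃ k,
        Set.Icc ((w k).re * x + (w k).im) ((w k).re * x + (w k).im + (x - p) / m) := by
      rintro _ ⟨v, hv | hv, rfl⟩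
      · exact Or.inl ⟨v, hv, rfl⟩
      · obtain ⟨k, u, hu, rfl⟩ := Set.mem_iUnion.1 hv
        refine Or.inr (Set.mem_iUnion.2 ⟨k, ?_, ?_⟩)
        · nlinarith [mul_nonneg hu.1 (sub_nonneg.2 hx.1)]
        · rw [div_eq_mul_one_div _ (m : ℝ)]
          nlinarith [mul_le_mul_of_nonneg_left hu.2 (sub_nonneg.2 hx.1)]
    refine lt_of_le_of_lt (b := ENNReal.ofReal (q - p)) ?_
      ((ENNReal.ofReal_lt_ofReal_iff (by linarith [hx.1, hx.2])).2 hqc)
    refine (measure_mono hsub).trans ((measure_union_le _ _).trans ?_)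
    rw [lineSection, (htf.image _).measure_zero volume, zero_add]
    refine (measure_iUnion_le _).trans ?_
    simp only [Real.volume_Icc, add_sub_cancel_left, tsum_fintype, Finset.sum_const,
      Finset.card_univ, Fintype.card_fin, nsmul_eq_mul]
    rw [← ENNReal.ofReal_natCast, ← ENNReal.ofReal_mul m.cast_nonneg,
      mul_div_cancel₀ _ (Nat.cast_pos.2 hm0).ne']
    exact ENNReal.ofReal_le_ofReal (by linarith [hx.2])

/-- **A generic set of lines** has null sections over `[0, 1]`. -/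
theorem exists_null_lineSections : ∃ E : Set ℂ, IsCompact E ∧
    Complex.re '' E = Set.Icc 0 1 ∧ ∀ x ∈ Set.Icc (0 : ℝ) 1, volume (lineSection E x) = 0 := by
  have : CompleteSpace fullSlopeSets := isClosed_fullSlopeSets.completeSpace_coe
  have hne : Nonempty fullSlopeSets := by
    refine ⟨⟨⟨⟨Complex.ofReal '' Set.Icc 0 1, isCompact_Icc.image Complex.continuous_ofReal⟩,
      (Set.nonempty_Icc.2 zero_le_one).image _⟩, ?_⟩⟩
    show Complex.re '' (Complex.ofReal '' Set.Icc 0 1) = _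
    simp [Set.image_image]
  set U : ℕ × ℕ → Set fullSlopeSets := fun z => smallSections ((z.2 : ℝ) / (z.1 + 1))
    (((z.2 : ℝ) + 1) / (z.1 + 1)) (ENNReal.ofReal (2 / ((z.1 : ℝ) + 1))) with hU
  obtain ⟨E, hE⟩ := (dense_iInter_of_isOpen (f := U) (fun z => isOpen_smallSections _ _ _) fun z =>
    dense_smallSections (by
      rw [← sub_div, add_sub_cancel_left]
      gcongr
      norm_num)).nonempty
  rw [Set.mem_iInter] at hE
  refine ⟨_, E.1.isCompact, E.2, fun x hx => le_antisymm ?_ zero_le⟩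
  refine ge_of_tendsto' (x := atTop) (f := fun N : ℕ => ENNReal.ofReal (2 / ((N : ℝ) + 1))) ?_
    fun N => (hE (N, ⌊x * ((N : ℝ) + 1)⌋₊) x ⟨?_, ?_⟩).le
  · rw [← ENNReal.ofReal_zero]
    refine ENNReal.tendsto_ofReal ?_
    simpa [div_eq_mul_inv] using
      (tendsto_one_div_add_atTop_nhds_zero_nat (𝕜 := ℝ)).const_mul (2 : ℝ)
  · rw [div_le_iff₀ (by positivity)]
    exact Nat.floor_le (mul_nonneg hx.1 (by positivity))
  · rw [le_div_iff₀ (by positivity)]
    exact (Nat.lt_floor_add_one _).le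

/-- The direction `e ^ (i k π / 4)`. -/
def eighthTurn (k : ℕ) : ℂ ≃ₗᵢ[ℝ] ℂ := rotation (Circle.exp (k * (π / 4)))

theorem eighthTurn_apply (k : ℕ) (z : ℂ) :
    eighthTurn k z = Complex.exp (((k : ℝ) * (π / 4) : ℝ) * Complex.I) * z := by
  rw [eighthTurn, rotation_apply, Circle.coe_exp]

/-- **Besicovitch's theorem.** -/
theorem exists_null_kakeya : ∃ K : Set ℂ, IsCompact K ∧ IsKakeyaSet K ∧ volume K = 0 := by
  obtain ⟨E, hEc, hEre, hEnull⟩ := exists_null_lineSections
  set K₀ := (fun z : ℂ × ℝ => (⟨z.2, z.1.re * z.2 + z.1.im⟩ : ℂ)) '' (E ×ˢ Set.Icc (0 : ℝ) 1)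
  have hK₀c : IsCompact K₀ := (hEc.prod isCompact_Icc).image
    (Complex.equivRealProdCLM.symm.continuous.comp (continuous_snd.prodMk (by fun_prop)))
  have hK₀ : volume K₀ = 0 := by
    have hm := Complex.measurableEquivRealProd.symm.measurable hK₀c.measurableSet
    rw [← (Complex.volume_preserving_equiv_real_prod.symm _).measure_preimage
      hK₀c.measurableSet.nullMeasurableSet, Measure.volume_eq_prod, Measure.prod_apply hm,
      lintegral_eq_zero_iff (measurable_measure_prodMk_left hm)]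
    refine Eventually.of_forall fun x => ?_
    simp only [Pi.zero_apply]
    by_cases hx : x ∈ Set.Icc (0 : ℝ) 1
    · refine measure_mono_null (fun y hy => ?_) (hEnull x hx)
      obtain ⟨⟨w, x'⟩, ⟨hw, -⟩, he⟩ := hy
      obtain ⟨he1, he2⟩ := Complex.ext_iff.1 he
      simp only [Complex.measurableEquivRealProd_symm_apply] at he1 he2
      exact ⟨w, hw, by rw [← he2, ← he1]⟩
    · convert measure_empty (μ := (volume : Measure ℝ))
      refine Set.eq_empty_of_forall_notMem fun y hy => hx ?_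
      obtain ⟨⟨w, x'⟩, ⟨-, hx'⟩, he⟩ := hy
      have he1 := congrArg Complex.re he
      simp only [Complex.measurableEquivRealProd_symm_apply] at he1
      rwa [← he1]
  refine ⟨⋃ k : Fin 8, eighthTurn k '' K₀,
    isCompact_iUnion fun k => hK₀c.image (eighthTurn k).continuous, fun θ => ?_,
    measure_iUnion_null fun k => ?_⟩
  swap
  · rw [LinearIsometryEquiv.image_eq_preimage_symm]
    exact (eighthTurn k).symm.measurePreserving.quasiMeasurePreserving.preimage_null hK₀
  set j := ⌊θ / (π / 4)⌋ with hj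
  set φ := θ - j * (π / 4) with hφ
  have hφ0 : 0 ≤ φ := by
    rw [hφ, hj]
    linarith [(le_div_iff₀ (by positivity : (0 : ℝ) < π / 4)).1 (Int.floor_le (θ / (π / 4)))]
  have hφ1 : φ < π / 4 := by
    rw [hφ, hj]
    linarith [(div_lt_iff₀ (by positivity : (0 : ℝ) < π / 4)).1
      (Int.lt_floor_add_one (θ / (π / 4)))]
  have hc : 0 < Real.cos φ := Real.cos_pos_of_mem_Ioo ⟨by linarith, by linarith [Real.pi_pos]⟩
  have hslope : Real.tan φ ∈ Set.Icc (0 : ℝ) 1 :=
    ⟨Real.tan_nonneg_of_nonneg_of_le_pi_div_two hφ0 (by linarith [Real.pi_pos]), by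
      have hsc : Real.sin φ ≤ Real.cos φ := by
        have h := Real.sin_le_sin_of_le_of_le_pi_div_two
          (by linarith [Real.pi_pos] : -(π / 2) ≤ φ)
          (by linarith [Real.pi_pos] : π / 2 - φ ≤ π / 2) (by linarith)
        rwa [Real.sin_pi_div_two_sub] at h
      rwa [Real.tan_eq_sin_div_cos, div_le_one hc]⟩
  rw [← hEre] at hslope
  obtain ⟨w, hw, hwre⟩ := hslope
  obtain ⟨n, hn, hn8⟩ : ∃ n : ℕ, j % 8 = n ∧ n < 8 := ⟨(j % 8).toNat, by omega, by omega⟩
  refine ⟨eighthTurn n ⟨0, w.im⟩, fun t ht => Set.mem_iUnion.2 ⟨⟨n, hn8⟩, ?_⟩⟩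
  refine ⟨⟨t * Real.cos φ, w.re * (t * Real.cos φ) + w.im⟩, ⟨(w, t * Real.cos φ), ⟨hw,
    mul_nonneg ht.1 hc.le, mul_le_one₀ ht.2 hc.le (Real.cos_le_one φ)⟩, rfl⟩, ?_⟩
  have hsin : w.re * (t * Real.cos φ) = t * Real.sin φ := by
    rw [hwre, ← Real.tan_mul_cos hc.ne']
    ring
  have hθ : θ = n * (π / 4) + φ + (j / 8 : ℤ) * (2 * π) := by
    have : (j : ℝ) = (j / 8 : ℤ) * 8 + n := by
      rw [← Int.cast_natCast n, ← hn]
      exact_mod_cast (by omega : j = j / 8 * 8 + j % 8)
    rw [hφ, this]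
    ring
  rw [hsin, hθ, Real.cos_add_int_mul_two_pi, Real.sin_add_int_mul_two_pi, Real.cos_add,
    Real.sin_add]
  simp only [eighthTurn_apply, Complex.ext_iff, Complex.mul_re, Complex.mul_im,
    Complex.exp_ofReal_mul_I_re, Complex.exp_ofReal_mul_I_im]
  constructor <;> ring

end FA.Frostman

end
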