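import Fermat.Agent.Frostman.FourierDimension
import Mathlib.Analysis.Fourier.AddCircle
import Mathlib.Topology.Instances.CantorSet

/-!
# The Cantor set carries no Rajchman measure

If the transform of a probability measure `μ` tends to `0`, then the images of `μ` under
`x ↦ 3 ^ n x mod 1` tend to Lebesgue measure on the circle. On the Cantor set these images avoid
the middle third, so the transform of a measure on the Cantor set does not tend to `0`: the Cantor
set is a set of extended uniqueness, and its Fourier dimension is `0`.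
-/

set_option autoImplicit false

noncomputable section

open MeasureTheory Filter Topology Metric
open scoped ENNReal NNReal Real

namespace FA.Frostman

theorem exists_int_mul_pow_sub_mem_cantorSet (n : ℕ) {x : ℝ} (hx : x ∈ cantorSet) :
    ∃ m : ℤ, 3 ^ n * x - m ∈ cantorSet := by
  induction n with
  | zero => exact ⟨0, by simpa using hx⟩
  | succ n ih =>
    obtain ⟨m, hm⟩ := ih
    rw [cantorSet_eq_union_halves] at hm
    rcases hm with ⟨y, hy, hye⟩ | ⟨y, hy, hye⟩
    · refine ⟨3 * m, ?_⟩
      have e : (3 : ℝ) ^ (n + 1) * x - ((3 * m : ℤ) : ℝ) = y := by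
        push_cast
        rw [pow_succ]
        linarith [hye]
      rwa [e]
    · refine ⟨3 * m + 2, ?_⟩
      have e : (3 : ℝ) ^ (n + 1) * x - ((3 * m + 2 : ℤ) : ℝ) = y := by
        push_cast
        rw [pow_succ]
        linarith [hye]
      rwa [e]

theorem not_mem_middle_of_mem_cantorSet {x : ℝ} (hx : x ∈ cantorSet) :
    x ≤ 1 / 3 ∨ 2 / 3 ≤ x := by
  rw [cantorSet_eq_union_halves] at hx
  rcases hx with ⟨y, hy, rfl⟩ | ⟨y, hy, rfl⟩
  · exact Or.inl (by linarith [(cantorSet_subset_unitInterval hy).2])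
  · exact Or.inr (by linarith [(cantorSet_subset_unitInterval hy).1])

theorem norm_integral_comp_le (μ : Measure ℝ) [IsProbabilityMeasure μ] (f : ℝ → ℝ)
    (g : C(AddCircle (1 : ℝ), ℂ)) : ‖∫ x, g (f x : AddCircle (1 : ℝ)) ∂μ‖ ≤ ‖g‖ := by
  simpa using norm_integral_le_of_norm_le_const (μ := μ)
    (Eventually.of_forall fun x => g.norm_coe_le_norm ((f x : ℝ) : AddCircle (1 : ℝ)))

/-- Weyl's criterion for the images of `μ` under multiplication by `3 ^ n` on the circle. -/
theorem tendsto_integral_pow_three (μ : Measure ℝ) [IsProbabilityMeasure μ]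
    (h : Tendsto (charFun μ) atTop (𝓝 0)) (g : C(AddCircle (1 : ℝ), ℂ)) :
    Tendsto (fun n : ℕ => ∫ x, g ((3 ^ n * x : ℝ) : AddCircle (1 : ℝ)) ∂μ) atTop
      (𝓝 (∫ y in (0 : ℝ)..1, g (y : AddCircle (1 : ℝ)))) := by
  set L : ℕ → C(AddCircle (1 : ℝ), ℂ) → ℂ :=
    fun n g => ∫ x, g ((3 ^ n * x : ℝ) : AddCircle (1 : ℝ)) ∂μ with hL
  set M : C(AddCircle (1 : ℝ), ℂ) → ℂ :=
    fun g => ∫ y in (0 : ℝ)..1, g (y : AddCircle (1 : ℝ)) with hM
  have hc : ∀ g : C(AddCircle (1 : ℝ), ℂ), Continuous fun x : ℝ => g (x : AddCircle (1 : ℝ)) :=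
    fun g => g.continuous.comp (AddCircle.continuous_mk' 1)
  have hLi : ∀ (n : ℕ) (g : C(AddCircle (1 : ℝ), ℂ)),
      Integrable (fun x => g ((3 ^ n * x : ℝ) : AddCircle (1 : ℝ))) μ := fun n g =>
    Integrable.of_bound ((hc g).comp (continuous_const.mul continuous_id)).aestronglyMeasurable
      ‖g‖ (Eventually.of_forall fun x => g.norm_coe_le_norm _)
  have hLsub : ∀ n g₁ g₂, ‖L n g₁ - L n g₂‖ ≤ ‖g₁ - g₂‖ := fun n g₁ g₂ => by
    simp only [hL]
    rw [← integral_sub (hLi n g₁) (hLi n g₂)]
    simpa only [ContinuousMap.sub_apply] using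
      norm_integral_comp_le μ (fun x => 3 ^ n * x) (g₁ - g₂)
  have hMsub : ∀ g₁ g₂, ‖M g₁ - M g₂‖ ≤ ‖g₁ - g₂‖ := fun g₁ g₂ => by
    simp only [hM]
    rw [← intervalIntegral.integral_sub ((hc g₁).intervalIntegrable 0 1)
      ((hc g₂).intervalIntegrable 0 1)]
    simpa using intervalIntegral.norm_integral_le_of_norm_le_const (C := ‖g₁ - g₂‖) (a := 0)
      (b := 1) (fun y _ => (g₁ - g₂).norm_coe_le_norm (y : AddCircle (1 : ℝ)))
  have hspan : ∀ g ∈ Submodule.span ℂ (Set.range (@fourier (1 : ℝ))),
      Tendsto (fun n => L n g) atTop (𝓝 (M g)) := fun g hg => by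
    induction hg using Submodule.span_induction with
    | mem g hg =>
      obtain ⟨k, rfl⟩ := hg
      simp only [hL, hM, fourier_coe_apply, Complex.ofReal_one, div_one]
      rcases eq_or_ne k 0 with rfl | hk
      · simp
      have hzero : ∫ y in (0 : ℝ)..1, Complex.exp (2 * π * Complex.I * k * (y : ℂ)) = 0 := by
        have hne : 2 * (π : ℂ) * Complex.I * k ≠ 0 := by simp [Real.pi_ne_zero, hk]
        rw [integral_exp_mul_complex hne, Complex.ofReal_one, Complex.ofReal_zero, mul_one,
          mul_zero, Complex.exp_zero, show 2 * (π : ℂ) * Complex.I * k =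
            (k : ℂ) * (2 * π * Complex.I) by ring, Complex.exp_int_mul_two_pi_mul_I, sub_self,
          zero_div]
      rw [hzero]
      have e : ∀ n : ℕ, ∫ x, Complex.exp (2 * π * Complex.I * k * ((3 ^ n * x : ℝ) : ℂ)) ∂μ =
          charFun μ (2 * π * k * 3 ^ n) := fun n => by
        rw [charFun_apply_real]
        refine integral_congr_ae (Eventually.of_forall fun x => ?_)
        simp only
        push_cast
        ring_nf
      simp_rw [e]
      have h3 : Tendsto (fun n : ℕ => (3 : ℝ) ^ n) atTop atTop :=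
        tendsto_pow_atTop_atTop_of_one_lt (by norm_num)
      rcases hk.lt_or_gt with hk' | hk'
      · have hneg : 0 < 2 * π * (-k : ℝ) :=
          mul_pos Real.two_pi_pos (by exact_mod_cast neg_pos.2 hk')
        have h2 := (Complex.continuous_conj.tendsto 0).comp
          (h.comp (h3.const_mul_atTop hneg))
        simp only [map_zero] at h2
        refine h2.congr fun n => ?_
        simp only [Function.comp_apply]
        rw [← charFun_neg]
        congr 1
        ring
      · exact h.comp (h3.const_mul_atTop (mul_pos Real.two_pi_pos (Int.cast_pos.2 hk')))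
    | zero => simp [hL, hM]
    | add g₁ g₂ _ _ h₁ h₂ =>
      have eM : M (g₁ + g₂) = M g₁ + M g₂ := by
        simp only [hM, ContinuousMap.add_apply]
        exact intervalIntegral.integral_add ((hc g₁).intervalIntegrable 0 1)
          ((hc g₂).intervalIntegrable 0 1)
      rw [eM]
      refine (h₁.add h₂).congr fun n => ?_
      simp only [hL, ContinuousMap.add_apply]
      exact (integral_add (hLi n g₁) (hLi n g₂)).symm
    | smul c g _ hg =>
      have eM : M (c • g) = c • M g := by
        simp only [hM, ContinuousMap.smul_apply]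
        exact intervalIntegral.integral_smul c _
      rw [eM]
      refine (hg.const_smul c).congr fun n => ?_
      simp only [hL, ContinuousMap.smul_apply]
      exact (integral_smul c _).symm
  rw [Metric.tendsto_atTop]
  intro ε hε
  have hg : g ∈ closure (Submodule.span ℂ (Set.range (@fourier (1 : ℝ))) : Set _) := by
    rw [← Submodule.topologicalClosure_coe, span_fourier_closure_eq_top]
    trivial
  obtain ⟨g', hg', hd⟩ := Metric.mem_closure_iff.1 hg (ε / 3) (by positivity)
  obtain ⟨N, hN⟩ := Metric.tendsto_atTop.1 (hspan g' hg') (ε / 3) (by positivity)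
  refine ⟨N, fun n hn => ?_⟩
  rw [dist_eq_norm] at hd
  change dist (L n g) (M g) < ε
  calc dist (L n g) (M g)
      ≤ dist (L n g) (L n g') + dist (L n g') (M g') + dist (M g') (M g) :=
        dist_triangle4 _ _ _ _
    _ < ε / 3 + ε / 3 + ε / 3 := by
        refine add_lt_add (add_lt_add ?_ (hN n hn)) ?_
        · rw [dist_eq_norm]; exact (hLsub n g g').trans_lt hd
        · rw [dist_eq_norm]; exact (hMsub g' g).trans_lt (by rwa [norm_sub_rev])
    _ = ε := by ring

/-- **The Cantor set carries no measure with transform tending to `0`.** -/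
theorem not_tendsto_charFun_cantorSet (μ : Measure ℝ) [IsProbabilityMeasure μ]
    (hμ : μ cantorSetᶜ = 0) : ¬ Tendsto (charFun μ) atTop (𝓝 0) := by
  intro h
  set t : ℝ → ℝ := fun y => max 0 (1 / 6 - |y - 1 / 2|) with ht
  have htc : Continuous t := by fun_prop
  have ht0 : ∀ y, 2 / 3 ≤ y ∨ y ≤ 1 / 3 → t y = 0 := fun y hy => by
    refine max_eq_left ?_
    rcases hy with hy | hy
    · linarith [le_abs_self (y - 1 / 2)]
    · linarith [neg_abs_le (y - 1 / 2)]
  set F : C(AddCircle (1 : ℝ), ℂ) := ⟨AddCircle.liftIco 1 0 fun y => ((t y : ℝ) : ℂ),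
    AddCircle.liftIco_zero_continuous
      (by rw [ht0 0 (Or.inr (by norm_num)), ht0 1 (Or.inl (by norm_num))])
      (Complex.continuous_ofReal.comp htc).continuousOn⟩ with hF
  have hFt : ∀ y ∈ Set.Icc (0 : ℝ) 1, F (y : AddCircle (1 : ℝ)) = (t y : ℂ) := fun y hy => by
    rcases hy.2.eq_or_lt with rfl | hy1
    · rw [AddCircle.coe_period, ← QuotientAddGroup.mk_zero]
      simp only [hF, ContinuousMap.coe_mk]
      rw [AddCircle.liftIco_zero_coe_apply (Set.left_mem_Ico.2 one_pos),
        ht0 0 (Or.inr (by norm_num)), ht0 1 (Or.inl (by norm_num))]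
    · exact AddCircle.liftIco_zero_coe_apply (f := fun y => ((t y : ℝ) : ℂ)) ⟨hy.1, hy1⟩
  have hzero : ∀ n : ℕ, ∫ x, F ((3 ^ n * x : ℝ) : AddCircle (1 : ℝ)) ∂μ = 0 := fun n => by
    refine integral_eq_zero_of_ae ?_
    filter_upwards [measure_eq_zero_iff_ae_notMem.1 hμ] with x hx
    obtain ⟨m, hm⟩ := exists_int_mul_pow_sub_mem_cantorSet n (not_not.1 hx)
    have e : ((3 ^ n * x : ℝ) : AddCircle (1 : ℝ)) = ((3 ^ n * x - m : ℝ) : AddCircle (1 : ℝ)) := by
      rw [AddCircle.coe_sub, (AddCircle.coe_eq_zero_iff (1 : ℝ)).2 ⟨m, zsmul_one _⟩, sub_zero]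
    rw [e, hFt _ (cantorSet_subset_unitInterval hm),
      ht0 _ (not_mem_middle_of_mem_cantorSet hm).symm]
    simp
  have hlim := tendsto_integral_pow_three μ h F
  simp only [hzero] at hlim
  have hM := tendsto_nhds_unique hlim tendsto_const_nhds
  rw [intervalIntegral.integral_congr (g := fun y => (t y : ℂ)) fun y hy => by
      rw [Set.uIcc_of_le zero_le_one] at hy; exact hFt y hy,
    intervalIntegral.integral_ofReal, Complex.ofReal_eq_zero] at hM
  have hpos : 0 < ∫ y in (0 : ℝ)..1, t y :=
    intervalIntegral.integral_pos one_pos htc.continuousOn (fun y _ => le_max_left _ _)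
      ⟨1 / 2, ⟨by norm_num, by norm_num⟩, lt_max_of_lt_right (by norm_num)⟩
  exact hpos.ne' hM

/-- The Cantor set has Fourier dimension `0`. -/
theorem fourierDim_cantorSet : fourierDim cantorSet = 0 := by
  refine le_antisymm (iSup₂_le fun β hβ => ?_) zero_le
  rw [nonpos_iff_eq_zero, ENNReal.coe_eq_zero]
  obtain ⟨-, μ, hμ, hμK, C, hC⟩ := hβ
  by_contra hb
  have hβ0 : (0 : ℝ) < β := NNReal.coe_pos.2 (pos_of_ne_zero hb)
  refine not_tendsto_charFun_cantorSet μ hμK ?_
  have hlim : Tendsto (fun R : ℝ => C * R ^ (-(β : ℝ) / 2)) atTop (𝓝 0) := by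
    have := (tendsto_rpow_neg_atTop (y := (β : ℝ) / 2) (by positivity)).const_mul C
    simpa [neg_div] using this
  refine squeeze_zero_norm' ?_ hlim
  filter_upwards [eventually_gt_atTop 0] with R hR
  simpa [abs_of_pos hR] using hC R hR.ne'

end FA.Frostman
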