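import Fermat.Agent.Frostman.Projection
import Mathlib.Analysis.SpecialFunctions.Trigonometric.Deriv
import Mathlib.MeasureTheory.Integral.IntervalIntegral.FundThmCalculus
import Mathlib.MeasureTheory.Integral.IntervalIntegral.Periodic

/-!
# The Fourier transform of the circle

The integral of `cos (r cos u)` over a period is `O(r ^ (-1/2))`: away from the stationary points
an integration by parts gains `1 / (r sin u)`, and the stationary points cost `r ^ (-1/2)`. Hence
the Fourier transform of arc length on a circle of radius `t` is `O((t ‖ξ‖) ^ (-1/2))` at `ξ`.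
-/

set_option autoImplicit false

noncomputable section

open MeasureTheory Set
open scoped Real

namespace FA.Frostman

theorem abs_integral_cos_mul_cos_le {r : ℝ} (hr : 0 < r) :
    |∫ u in (0 : ℝ)..π / 2, Real.cos (r * Real.cos u)| ≤ (1 + π) / √r := by
  have hπ := Real.pi_pos
  have hsr : 0 < √r := Real.sqrt_pos.2 hr
  have hc : Continuous fun u => Real.cos (r * Real.cos u) := by fun_prop
  have hone : ∀ a b : ℝ, |∫ u in a..b, Real.cos (r * Real.cos u)| ≤ 1 * |b - a| := fun a b =>
    intervalIntegral.norm_integral_le_of_norm_le_const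
      (f := fun u => Real.cos (r * Real.cos u)) (C := 1) fun u _ => Real.abs_cos_le_one _
  rcases lt_or_ge r 1 with h1 | h1
  · refine (hone 0 (π / 2)).trans ?_
    rw [sub_zero, one_mul, abs_of_pos (by positivity), le_div_iff₀ hsr]
    nlinarith [(Real.sqrt_le_one).2 h1.le]
  set δ : ℝ := 1 / √r with hδ
  have hδ0 : 0 < δ := by positivity
  have hδ1 : δ ≤ π / 2 := by
    have : δ ≤ 1 := div_le_one_of_le₀ (Real.one_le_sqrt.2 h1) hsr.le
    linarith [Real.two_le_pi]
  have hsin : ∀ u ∈ Icc δ (π / 2), 0 < Real.sin u := fun u hu =>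
    Real.sin_pos_of_pos_of_lt_pi (hδ0.trans_le hu.1) (by linarith [hu.2])
  set g : ℝ → ℝ := fun u => Real.sin (r * Real.cos u) * Real.cos u / (r * Real.sin u ^ 2) with hg
  set m : ℝ → ℝ := fun u => Real.cos u / (r * Real.sin u ^ 2) with hm
  have hne : ∀ u ∈ uIcc δ (π / 2), r * Real.sin u ^ 2 ≠ 0 := fun u hu => by
    rw [uIcc_of_le hδ1] at hu
    have := hsin u hu
    positivity
  have hgi : IntervalIntegrable g volume δ (π / 2) :=
    ((by fun_prop : Continuous fun u => Real.sin (r * Real.cos u) * Real.cos u).continuousOn.div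
      (by fun_prop : Continuous fun u => r * Real.sin u ^ 2).continuousOn hne).intervalIntegrable
  have hmi : IntervalIntegrable m volume δ (π / 2) :=
    (Real.continuous_cos.continuousOn.div
      (by fun_prop : Continuous fun u => r * Real.sin u ^ 2).continuousOn hne).intervalIntegrable
  have hH : ∫ u in δ..π / 2, (Real.cos (r * Real.cos u) + g u) =
      (-Real.sin (r * Real.cos (π / 2)) / (r * Real.sin (π / 2))) -
        (-Real.sin (r * Real.cos δ) / (r * Real.sin δ)) := by
    refine intervalIntegral.integral_eq_sub_of_hasDerivAt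
      (f := fun u => -Real.sin (r * Real.cos u) / (r * Real.sin u))
      (fun u hu => ?_) ((hc.intervalIntegrable _ _).add hgi)
    have hs : Real.sin u ≠ 0 := fun h => hne u hu (by simp [h])
    have hd := (((Real.hasDerivAt_cos u).const_mul r).sin.neg).div
      ((Real.hasDerivAt_sin u).const_mul r) (mul_ne_zero hr.ne' hs)
    refine hd.congr_deriv ?_
    simp only [hg, Pi.neg_apply]
    field_simp
    ring
  have hM : ∫ u in δ..π / 2, m u = -1 / (r * Real.sin (π / 2)) - -1 / (r * Real.sin δ) := by
    refine intervalIntegral.integral_eq_sub_of_hasDerivAt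
      (f := fun u => -1 / (r * Real.sin u)) (fun u hu => ?_) hmi
    have hs : Real.sin u ≠ 0 := fun h => hne u hu (by simp [h])
    have hd := (hasDerivAt_const u (-1 : ℝ)).div
      ((Real.hasDerivAt_sin u).const_mul r) (mul_ne_zero hr.ne' hs)
    refine hd.congr_deriv ?_
    simp only [hm]
    field_simp
    ring
  have hgm : |∫ u in δ..π / 2, g u| ≤ ∫ u in δ..π / 2, m u := by
    exact intervalIntegral.norm_integral_le_of_norm_le (f := g) hδ1
      (Filter.Eventually.of_forall fun u hu => by
        have hu' : u ∈ Icc δ (π / 2) := Ioc_subset_Icc_self hu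
        have hcos : 0 ≤ Real.cos u :=
          Real.cos_nonneg_of_mem_Icc ⟨by linarith [hu'.1], hu'.2⟩
        have hp : 0 < r * Real.sin u ^ 2 := by have := hsin u hu'; positivity
        simp only [hg, hm]
        rw [Real.norm_eq_abs, abs_div, abs_mul, abs_of_nonneg hcos, abs_of_pos hp]
        gcongr
        exact mul_le_of_le_one_left hcos (Real.abs_sin_le_one _)) hmi
  have hmain : |∫ u in δ..π / 2, Real.cos (r * Real.cos u)| ≤ π / √r := by
    have hsd := hsin δ ⟨le_rfl, hδ1⟩
    rw [intervalIntegral.integral_add (hc.intervalIntegrable _ _) hgi, Real.cos_pi_div_two,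
      mul_zero, Real.sin_zero, neg_zero, zero_div, zero_sub] at hH
    rw [Real.sin_pi_div_two, mul_one] at hM
    rw [eq_sub_of_add_eq hH]
    refine (abs_sub _ _).trans ?_
    rw [abs_neg, abs_div, abs_neg, abs_of_pos (by positivity : 0 < r * Real.sin δ)]
    calc |Real.sin (r * Real.cos δ)| / (r * Real.sin δ) + |∫ u in δ..π / 2, g u|
        ≤ 1 / (r * Real.sin δ) + 1 / (r * Real.sin δ) := by
          refine add_le_add (by gcongr; exact Real.abs_sin_le_one _) (hgm.trans ?_)
          rw [hM, neg_div, neg_div]
          linarith [one_div_pos.2 hr]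
      _ = 2 / (r * Real.sin δ) := by ring
      _ ≤ 2 / (r * (2 / π * δ)) := by
          gcongr
          exact Real.mul_le_sin hδ0.le hδ1
      _ = π / √r := by
          rw [hδ]
          field_simp
          rw [Real.sq_sqrt hr.le]
  rw [← intervalIntegral.integral_add_adjacent_intervals (hc.intervalIntegrable 0 δ)
    (hc.intervalIntegrable δ (π / 2)), add_div]
  refine (abs_add_le _ _).trans (add_le_add ((hone 0 δ).trans_eq ?_) hmain)
  rw [sub_zero, one_mul, abs_of_pos hδ0]

theorem abs_integral_cos_planeProj_le {t : ℝ} (ht : 0 < t) {ξ : ℂ} (hξ : ξ ≠ 0) :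
    |∫ θ in -(2 * π)..2 * π, Real.cos (t * planeProj θ ξ)| ≤ 8 * (1 + π) / √(t * ‖ξ‖) := by
  have hr : 0 < t * ‖ξ‖ := mul_pos ht (norm_pos_iff.2 hξ)
  set f : ℝ → ℝ := fun u => Real.cos (t * ‖ξ‖ * Real.cos u) with hf
  have hfc : Continuous f := by fun_prop
  have hper : Function.Periodic f π := fun u => by
    simp only [hf, Real.cos_add_pi, mul_neg, Real.cos_neg]
  have e : ∫ θ in -(2 * π)..2 * π, Real.cos (t * planeProj θ ξ) =
      8 * ∫ u in (0 : ℝ)..π / 2, f u := by
    rw [intervalIntegral.integral_congr (g := fun θ => f (θ - ξ.arg)) fun θ _ => by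
      simp only [hf, planeProj_eq]; ring_nf]
    rw [intervalIntegral.integral_comp_sub_right,
      show 2 * π - ξ.arg = -(2 * π) - ξ.arg + (4 : ℤ) • π by rw [zsmul_eq_mul]; push_cast; ring,
      hper.intervalIntegral_add_zsmul_eq 4 _ fun a b => hfc.intervalIntegrable a b,
      hper.intervalIntegral_add_eq _ 0, zero_add,
      ← intervalIntegral.integral_add_adjacent_intervals (hfc.intervalIntegrable 0 (π / 2))
        (hfc.intervalIntegrable (π / 2) π)]
    have h2 := intervalIntegral.integral_comp_sub_left f π (a := (0 : ℝ)) (b := π / 2)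
    rw [intervalIntegral.integral_congr (g := f) fun u _ => by
      simp only [hf, Real.cos_pi_sub, mul_neg, Real.cos_neg], sub_zero,
      show π - π / 2 = π / 2 by ring] at h2
    rw [← h2, zsmul_eq_mul]
    push_cast
    ring
  rw [e, abs_mul, Nat.abs_ofNat, mul_div_assoc]
  exact mul_le_mul_of_nonneg_left (abs_integral_cos_mul_cos_le hr) (by norm_num)

end FA.Frostman
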