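import Fermat.Agent.Frostman.Projection
import Fermat.Agent.SelfSimilar.Moran

/-!
# The dimension of projections

A compact plane set `K` projects to a set of dimension `min (dimH K) 1` in almost every direction
(Marstrand). Below both bounds the energy of a Frostman measure stays finite after projection in
almost every direction, since `|cos| ^ (-t)` is integrable for `t < 1`; by the mass distribution
principle the projection has positive measure of that dimension.
-/

set_option autoImplicit false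

noncomputable section

open MeasureTheory Filter Topology Metric
open scoped ENNReal NNReal Real

namespace FA.Frostman

theorem inv_edist_planeProj_rpow {t : ℝ} (ht : 0 ≤ t) {z : ℂ} (hz : z ≠ 0) (θ : ℝ) :
    (edist (planeProj θ z) 0)⁻¹ ^ t =
      (edist z 0)⁻¹ ^ t * (edist (Real.cos (θ - z.arg)) 0)⁻¹ ^ t := by
  have hz0 : 0 < ‖z‖ := norm_pos_iff.2 hz
  rw [← ENNReal.mul_rpow_of_nonneg _ _ ht]
  congr 1
  rw [edist_dist, edist_dist, edist_dist, dist_zero_right, dist_zero_right, dist_zero_right,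
    planeProj_eq, norm_mul, norm_norm, ENNReal.ofReal_mul (norm_nonneg z),
    ENNReal.mul_inv (Or.inl (ENNReal.ofReal_pos.2 hz0).ne') (Or.inl ENNReal.ofReal_ne_top)]

theorem exists_lintegral_planeProj_rpow_le {t : ℝ} (ht : 0 < t) (ht1 : t < 1) :
    ∃ c : ℝ, 0 < c ∧ ∀ (a : ℝ) (z : ℂ),
      ∫⁻ θ in Set.Icc a (a + π), (edist (planeProj θ z) 0)⁻¹ ^ t ≤
        ENNReal.ofReal c * (edist z 0)⁻¹ ^ t := by
  have hπ := Real.pi_pos
  have hq : (0 : ℝ) ≤ 2 ^ t / 2 := by positivity
  have hq1 : (2 : ℝ) ^ t / 2 < 1 := by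
    rw [div_lt_one two_pos]
    exact Real.rpow_lt_self_of_one_lt one_lt_two ht1
  have hinv : 0 < (1 - (2 : ℝ) ^ t / 2)⁻¹ := inv_pos.2 (by linarith)
  refine ⟨π + 2 * π * 2 ^ t * (1 - 2 ^ t / 2)⁻¹, by positivity, fun a z => ?_⟩
  rcases eq_or_ne z 0 with rfl | hz
  · rw [edist_self, ENNReal.inv_zero, ENNReal.top_rpow_of_pos ht,
      ENNReal.mul_top (ENNReal.ofReal_pos.2 (by positivity)).ne']
    exact le_top
  have e := inv_edist_planeProj_rpow ht.le hz
  have hmeas : ∀ k : ℕ, MeasurableSet {θ : ℝ | |Real.cos (θ - z.arg)| ≤ (2 : ℝ)⁻¹ ^ k} := fun k =>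
    measurableSet_le (by fun_prop) measurable_const
  simp only [e]
  rw [lintegral_const_mul' _ _ (ENNReal.rpow_ne_top_of_nonneg ht.le
    (ENNReal.inv_ne_top.2 (edist_pos.2 hz).ne')), mul_comm]
  gcongr
  refine (lintegral_mono (g := fun θ => 1 + ∑' k : ℕ,
    {θ : ℝ | |Real.cos (θ - z.arg)| ≤ (2 : ℝ)⁻¹ ^ k}.indicator
      (fun _ => ENNReal.ofReal (((2 : ℝ) ^ t) ^ (k + 1))) θ) fun θ => ?_).trans ?_
  · refine (inv_edist_rpow_le ht _ _).trans (le_of_eq (congrArg (1 + ·) (tsum_congr fun k => ?_)))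
    by_cases hc : |Real.cos (θ - z.arg)| ≤ (2 : ℝ)⁻¹ ^ k
    · rw [Set.indicator_of_mem (by simpa using hc), Set.indicator_of_mem
        (show θ ∈ {u : ℝ | |Real.cos (u - z.arg)| ≤ (2 : ℝ)⁻¹ ^ k} from hc)]
    · rw [Set.indicator_of_notMem (by simpa using hc), Set.indicator_of_notMem
        (show θ ∉ {u : ℝ | |Real.cos (u - z.arg)| ≤ (2 : ℝ)⁻¹ ^ k} from hc)]
  rw [lintegral_add_left measurable_const, lintegral_one, Measure.restrict_apply_univ,
    Real.volume_Icc, add_sub_cancel_left,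
    lintegral_tsum fun k => (measurable_const.indicator (hmeas k)).aemeasurable,
    ENNReal.ofReal_add hπ.le (by positivity)]
  gcongr
  rw [← tsum_geometric_of_lt_one hq hq1, ← tsum_mul_left,
    ENNReal.ofReal_tsum_of_nonneg (fun k => by positivity)
      ((summable_geometric_of_lt_one hq hq1).mul_left _)]
  refine ENNReal.tsum_le_tsum fun k => ?_
  rw [lintegral_indicator_const (hmeas k), Measure.restrict_apply (hmeas k)]
  refine (mul_le_mul_right ((measure_mono fun θ hθ => ?_).trans_eq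
    (measure_preimage_add_right volume (-z.arg) {u ∈ Set.Icc (a - z.arg) (a - z.arg + π) |
      |Real.cos u| ≤ (2 : ℝ)⁻¹ ^ k}) |>.trans (volume_abs_cos_le _ _)) _).trans_eq ?_
  · obtain ⟨h, h1, h2⟩ := hθ
    exact ⟨⟨by linarith, by linarith⟩, by
      simpa only [Set.mem_ofPred_eq, ← sub_eq_add_neg] using h⟩
  rw [← ENNReal.ofReal_mul (by positivity)]
  congr 1
  rw [div_pow, inv_pow, pow_succ]
  field_simp

theorem measurable_planeProj_energy {K : Set ℂ} (t : ℝ) : Measurable fun p : (ℝ × K) × K =>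
    (edist (planeProj p.1.1 p.1.2) (planeProj p.1.1 p.2))⁻¹ ^ t := by
  unfold planeProj
  exact (Continuous.measurable (by fun_prop)).inv.pow_const t

/-- The energy of a projected Frostman measure is finite in almost every direction. -/
theorem ae_energy_planeProj_lt_top {K : Set ℂ} (μ : Measure K) [IsProbabilityMeasure μ]
    {t s C : ℝ} (ht : 0 < t) (ht1 : t < 1) (hts : t < s) (hC : 0 < C)
    (h : ∀ (x : K) (r : ℝ), 0 < r → μ (closedBall x r) ≤ ENNReal.ofReal (C * r ^ s)) :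
    ∀ᵐ θ ∂(volume : Measure ℝ),
      ∫⁻ x, ∫⁻ y, (edist (planeProj θ (x : ℂ)) (planeProj θ (y : ℂ)))⁻¹ ^ t ∂μ ∂μ < ∞ := by
  obtain ⟨c, hc, hcb⟩ := exists_lintegral_planeProj_rpow_le ht ht1
  have hG : Measurable fun θ : ℝ =>
      ∫⁻ x, ∫⁻ y, (edist (planeProj θ (x : ℂ)) (planeProj θ (y : ℂ)))⁻¹ ^ t ∂μ ∂μ :=
    (measurable_planeProj_energy t).lintegral_prod_right'.lintegral_prod_right'
  have hcover : (⋃ n : ℤ, Set.Icc ((n : ℝ) * π) (n * π + π)) = Set.univ :=
    Set.eq_univ_of_forall fun u => Set.mem_iUnion.2 ⟨⌊u / π⌋,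
      (le_div_iff₀ Real.pi_pos).1 (Int.floor_le _),
      by linarith [(div_lt_iff₀ Real.pi_pos).1 (Int.lt_floor_add_one (u / π))]⟩
  suffices hI : ∀ᵐ θ ∂(volume : Measure ℝ).restrict (⋃ n : ℤ, Set.Icc ((n : ℝ) * π) (n * π + π)),
      ∫⁻ x, ∫⁻ y, (edist (planeProj θ (x : ℂ)) (planeProj θ (y : ℂ)))⁻¹ ^ t ∂μ ∂μ < ∞ by
    rwa [hcover, Measure.restrict_univ] at hI
  rw [ae_restrict_iUnion_iff]
  refine fun n => ae_lt_top hG (ne_top_of_le_ne_top (b := ENNReal.ofReal c *
    (1 + ENNReal.ofReal ((2 : ℝ) ^ t * C / (1 - 2 ^ (t - s))))) (ENNReal.mul_ne_top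
      ENNReal.ofReal_ne_top (ENNReal.add_ne_top.2 ⟨ENNReal.one_ne_top, ENNReal.ofReal_ne_top⟩)) ?_)
  rw [lintegral_lintegral_swap (measurable_planeProj_energy t).lintegral_prod_right'.aemeasurable]
  refine (lintegral_mono fun x => ?_).trans_eq (by rw [lintegral_const, measure_univ, mul_one])
  have hx : AEMeasurable (Function.uncurry fun (θ : ℝ) (y : K) =>
      (edist (planeProj θ (x : ℂ)) (planeProj θ (y : ℂ)))⁻¹ ^ t)
      (((volume : Measure ℝ).restrict (Set.Icc ((n : ℝ) * π) (n * π + π))).prod μ) :=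
    ((measurable_planeProj_energy t).comp
      ((measurable_fst.prodMk (measurable_const (a := x))).prodMk measurable_snd)).aemeasurable
  rw [lintegral_lintegral_swap hx]
  refine (lintegral_mono fun y => ?_).trans 
    ((lintegral_const_mul' _ _ ENNReal.ofReal_ne_top).le.trans
    (mul_le_mul_right (lintegral_inv_edist_rpow_le μ ht hts hC h x) _))
  have e : edist ((x : ℂ) - y) 0 = edist x y := by
    rw [Subtype.edist_eq, edist_dist, edist_dist, dist_zero_right, dist_eq_norm]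
  rw [← e]
  refine le_trans (le_of_eq (lintegral_congr fun θ => ?_)) (hcb _ _)
  congr 2
  rw [edist_dist, edist_dist, dist_zero_right, dist_eq_norm]
  congr 2
  simp only [planeProj, Complex.sub_re, Complex.sub_im]
  ring

theorem le_dimH_planeProj_of_energy {K : Set ℂ} (μ : Measure K) [IsProbabilityMeasure μ]
    {t : ℝ≥0} (ht : 0 < t) {θ : ℝ}
    (h : ∫⁻ x, ∫⁻ y, (edist (planeProj θ (x : ℂ)) (planeProj θ (y : ℂ)))⁻¹ ^ (t : ℝ) ∂μ ∂μ < ∞) :
    (t : ℝ≥0∞) ≤ dimH (planeProj θ '' K) := by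
  set g : K → ℝ≥0∞ := fun x =>
    ∫⁻ y, (edist (planeProj θ (x : ℂ)) (planeProj θ (y : ℂ)))⁻¹ ^ (t : ℝ) ∂μ with hg
  have hq : Measurable fun p : K × K =>
      (edist (planeProj θ (p.1 : ℂ)) (planeProj θ (p.2 : ℂ)))⁻¹ ^ (t : ℝ) := by
    unfold planeProj
    exact (Continuous.measurable (by fun_prop)).inv.pow_const _
  have hgm : Measurable g := hq.lintegral_prod_right'
  obtain ⟨M, hM⟩ : ∃ M : ℕ, μ {x | g x ≤ (M : ℝ≥0∞)} ≠ 0 := by
    by_contra! hcon
    have hfin := ae_lt_top hgm h.ne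
    rw [ae_iff] at hfin
    have hle : μ Set.univ ≤ μ {x | ¬ g x < ∞} + ∑' M : ℕ, μ {x | g x ≤ (M : ℝ≥0∞)} := by
      refine (measure_mono fun x _ => ?_).trans
        ((measure_union_le _ _).trans (add_le_add le_rfl (measure_iUnion_le _)))
      by_cases hx : g x < ∞
      · obtain ⟨M, hM⟩ := ENNReal.exists_nat_gt hx.ne
        exact Or.inr (Set.mem_iUnion.2 ⟨M, hM.le⟩)
      · exact Or.inl hx
    simp only [hfin, hcon, tsum_zero, add_zero, measure_univ] at hle
    exact one_ne_zero (le_antisymm hle zero_le)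
  set A := {x | g x ≤ (M : ℝ≥0∞)} with hA
  have hAm : MeasurableSet A := measurableSet_le hgm measurable_const
  refine le_dimH_of_hausdorffMeasure_ne_zero (SelfSimilar.hausdorffMeasure_ne_zero_of_mass
    (μ.restrict A) (fun x : K => planeProj θ x) (C := M + 1) (NNReal.coe_pos.2 ht) (by positivity)
    (by rwa [Measure.restrict_apply_univ]) (fun x => ⟨x, x.2, rfl⟩) fun T δ hδ _ hT => ?_)
  rw [Measure.restrict_apply' hAm]
  rcases ((fun x : K => planeProj θ x) ⁻¹' T ∩ A).eq_empty_or_nonempty with h0 | ⟨x, hxT, hxA⟩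
  · simp [h0]
  have hδt : 0 < δ ^ (t : ℝ) := Real.rpow_pos_of_pos hδ _
  have hmark : ((ENNReal.ofReal δ)⁻¹ ^ (t : ℝ)) *
      μ ((fun x : K => planeProj θ x) ⁻¹' T ∩ A) ≤ M := by
    refine ((mul_le_mul_right (measure_mono fun y hy => ?_) _).trans (mul_meas_ge_le_lintegral₀
      (hq.comp (measurable_prodMk_left (x := x))).aemeasurable _)).trans hxA
    refine ENNReal.rpow_le_rpow (ENNReal.inv_le_inv.2 ?_) t.coe_nonneg
    rw [edist_dist]
    exact ENNReal.ofReal_le_ofReal (hT _ hxT _ hy.1)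
  rw [← ENNReal.ofReal_inv_of_pos hδ, ENNReal.ofReal_rpow_of_nonneg (inv_nonneg.2 hδ.le)
    t.coe_nonneg,
    Real.inv_rpow hδ.le, ENNReal.ofReal_inv_of_pos hδt, mul_comm, ← div_eq_mul_inv,
    ENNReal.div_le_iff (ENNReal.ofReal_pos.2 hδt).ne' ENNReal.ofReal_ne_top] at hmark
  refine hmark.trans ?_
  rw [ENNReal.ofReal_mul (by positivity)]
  gcongr
  rw [← ENNReal.ofReal_natCast]
  exact ENNReal.ofReal_le_ofReal (le_add_of_nonneg_right zero_le_one)

theorem lipschitzWith_planeProj (θ : ℝ) : LipschitzWith 1 (planeProj θ) := by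
  refine LipschitzWith.of_dist_le_mul fun z w => ?_
  rw [NNReal.coe_one, one_mul, dist_eq_norm, dist_eq_norm, Real.norm_eq_abs,
    show planeProj θ z - planeProj θ w = planeProj θ (z - w) by
      simp only [planeProj, Complex.sub_re, Complex.sub_im]; ring,
    planeProj_eq, abs_mul, abs_norm]
  exact mul_le_of_le_one_right (norm_nonneg _) (Real.abs_cos_le_one _)

/-- **Marstrand's theorem on the dimension of projections.** -/
theorem ae_dimH_planeProj {K : Set ℂ} (hK : IsCompact K) :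
    ∀ᵐ θ ∂(volume : Measure ℝ), dimH (planeProj θ '' K) = min (dimH K) 1 := by
  have : CompactSpace K := isCompact_iff_compactSpace.1 hK
  have key : ∀ q : ℚ, ∀ᵐ θ ∂(volume : Measure ℝ),
      (Real.toNNReal q : ℝ≥0∞) < min (dimH K) 1 →
        (Real.toNNReal q : ℝ≥0∞) ≤ dimH (planeProj θ '' K) := fun q => by
    by_cases hq : (Real.toNNReal q : ℝ≥0∞) < min (dimH K) 1
    swap
    · exact Eventually.of_forall fun _ h => absurd h hq
    rcases eq_zero_or_pos (Real.toNNReal q) with h0 | h0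
    · exact Eventually.of_forall fun _ _ => by simp [h0]
    rw [lt_min_iff] at hq
    obtain ⟨s, hqs, hsd⟩ := exists_between hq.1
    lift s to ℝ≥0 using hsd.ne_top
    have hts : ((Real.toNNReal q : ℝ≥0) : ℝ) < s := by exact_mod_cast hqs
    have ht1 : ((Real.toNNReal q : ℝ≥0) : ℝ) < 1 := by exact_mod_cast hq.2
    have hH : μH[(s : ℝ)] (Set.univ : Set K) ≠ 0 := by
      rw [← (isometry_subtype_coe : Isometry ((↑) : K → ℂ)).hausdorffMeasure_image
        (Or.inl (by positivity)), Subtype.coe_image_univ, hausdorffMeasure_of_lt_dimH hsd]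
      exact ENNReal.top_ne_zero
    obtain ⟨μ, hμ, C, hC, hball⟩ := exists_frostman_measure
      ((NNReal.coe_pos.2 h0).trans hts) hH
    filter_upwards [ae_energy_planeProj_lt_top μ (NNReal.coe_pos.2 h0) ht1 hts hC hball]
      with θ hθ _ using le_dimH_planeProj_of_energy μ h0 hθ
  filter_upwards [ae_all_iff.2 key] with θ hθ
  refine le_antisymm (le_min ((lipschitzWith_planeProj θ).dimH_image_le K)
    ((dimH_mono (Set.subset_univ _)).trans_eq Real.dimH_univ)) (le_of_forall_lt fun c hc => ?_)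
  obtain ⟨q, -, hcq, hq⟩ := ENNReal.lt_iff_exists_rat_btwn.1 hc
  exact hcq.trans_le (hθ q hq)

end FA.Frostman

end
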