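import Fermat.Agent.Frostman.Projection
import Fermat.Agent.SelfSimilar.Moran

/-!
# Energy and dimension

A measure with finite energy of order `t` makes the dimension of its support at least `t`, and the
energy is finite when the pairs at distance at most `r` have mass `O(r ^ s)` for some `s > t`.
-/

set_option autoImplicit false

noncomputable section

open MeasureTheory Filter Topology Metric
open scoped ENNReal NNReal

namespace FA.Frostman

variable {X : Type*} [MetricSpace X] [MeasurableSpace X] [BorelSpace X]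
  [SecondCountableTopology X]

theorem lintegral_prod_inv_edist_rpow_le (μ : Measure X) [IsProbabilityMeasure μ] {t s C : ℝ}
    (ht : 0 < t) (hts : t < s) (hC : 0 ≤ C)
    (h : ∀ r : ℝ, 0 < r → μ.prod μ {p | dist p.1 p.2 ≤ r} ≤ ENNReal.ofReal (C * r ^ s)) :
    ∫⁻ x, ∫⁻ y, (edist x y)⁻¹ ^ t ∂μ ∂μ ≤
      1 + ENNReal.ofReal ((2 : ℝ) ^ t * C / (1 - 2 ^ (t - s))) := by
  set S : ℕ → Set (X × X) := fun k => {p | dist p.1 p.2 ≤ (2 : ℝ)⁻¹ ^ k} with hS
  have hSm : ∀ k, MeasurableSet (S k) := fun k =>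
    (isClosed_le (continuous_fst.dist continuous_snd) continuous_const).measurableSet
  have hm : Measurable fun p : X × X => (edist p.1 p.2)⁻¹ ^ t :=
    (continuous_fst.edist continuous_snd).measurable.inv.pow_const t
  rw [← lintegral_prod _ hm.aemeasurable]
  refine (lintegral_mono (g := fun p => 1 + ∑' k, (S k).indicator
    (fun _ => ENNReal.ofReal (((2 : ℝ) ^ t) ^ (k + 1))) p) fun p => ?_).trans ?_
  · refine (inv_edist_rpow_le ht p.1 p.2).trans_eq ?_
    refine congrArg (1 + ·) (tsum_congr fun k => ?_)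
    by_cases hk : p ∈ S k
    · rw [Set.indicator_of_mem hk, Set.indicator_of_mem (by
        rw [mem_closedBall, dist_comm]; exact hk)]
    · rw [Set.indicator_of_notMem hk, Set.indicator_of_notMem (by
        rw [mem_closedBall, dist_comm]; exact hk)]
  rw [lintegral_add_left measurable_const, lintegral_one, measure_univ]
  gcongr
  rw [lintegral_tsum fun k => (measurable_const.indicator (hSm k)).aemeasurable]
  have hq : (0 : ℝ) ≤ 2 ^ (t - s) := Real.rpow_nonneg zero_le_two _
  have hq1 : (2 : ℝ) ^ (t - s) < 1 := Real.rpow_lt_one_of_one_lt_of_neg one_lt_two (by linarith)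
  rw [div_eq_mul_inv, ← tsum_geometric_of_lt_one hq hq1, ← tsum_mul_left,
    ENNReal.ofReal_tsum_of_nonneg (fun k => by positivity)
      ((summable_geometric_of_lt_one hq hq1).mul_left _)]
  refine ENNReal.tsum_le_tsum fun k => ?_
  rw [lintegral_indicator_const (hSm k)]
  refine (mul_le_mul_right (h _ (by positivity)) _).trans_eq ?_
  rw [← ENNReal.ofReal_mul (by positivity)]
  congr 1
  rw [Real.rpow_sub two_pos, div_pow, inv_pow, Real.inv_rpow (by positivity),
    ← Real.rpow_pow_comm zero_le_two s, pow_succ]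
  field_simp

theorem le_dimH_of_energy {K : Set X} (hK : MeasurableSet K) (μ : Measure X)
    [IsProbabilityMeasure μ] (hμK : μ Kᶜ = 0) {t : ℝ≥0} (ht : 0 < t)
    (h : ∫⁻ x, ∫⁻ y, (edist x y)⁻¹ ^ (t : ℝ) ∂μ ∂μ < ∞) :
    (t : ℝ≥0∞) ≤ dimH K := by
  set g : X → ℝ≥0∞ := fun x => ∫⁻ y, (edist x y)⁻¹ ^ (t : ℝ) ∂μ with hg
  have hq : Measurable fun p : X × X => (edist p.1 p.2)⁻¹ ^ (t : ℝ) :=
    (continuous_fst.edist continuous_snd).measurable.inv.pow_const _
  have hgm : Measurable g := hq.lintegral_prod_right'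
  obtain ⟨M, hM⟩ : ∃ M : ℕ, μ ({x | g x ≤ (M : ℝ≥0∞)} ∩ K) ≠ 0 := by
    by_contra! hcon
    have hfin := ae_lt_top hgm h.ne
    rw [ae_iff] at hfin
    have hle : μ Set.univ ≤ μ {x | ¬ g x < ∞} + μ Kᶜ +
        ∑' M : ℕ, μ ({x | g x ≤ (M : ℝ≥0∞)} ∩ K) := by
      refine (measure_mono fun x _ => ?_).trans ((measure_union_le _ _).trans
        (add_le_add (measure_union_le _ _) (measure_iUnion_le _)))
      by_cases hx : g x < ∞
      · by_cases hxK : x ∈ K
        · obtain ⟨M, hM⟩ := ENNReal.exists_nat_gt hx.ne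
          exact Or.inr (Set.mem_iUnion.2 ⟨M, hM.le, hxK⟩)
        · exact Or.inl (Or.inr hxK)
      · exact Or.inl (Or.inl hx)
    simp only [hfin, hcon, hμK, tsum_zero, add_zero, measure_univ] at hle
    exact one_ne_zero (le_antisymm hle zero_le)
  set A := {x | g x ≤ (M : ℝ≥0∞)} ∩ K with hA
  have hAm : MeasurableSet A := (measurableSet_le hgm measurable_const).inter hK
  refine le_dimH_of_hausdorffMeasure_ne_zero (SelfSimilar.hausdorffMeasure_ne_zero_of_mass
    (μ.comap ((↑) : A → X)) (fun x : A => (x : X)) (C := M + 1) (NNReal.coe_pos.2 ht)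
    (by positivity)
    (by rw [comap_subtype_coe_apply hAm, Set.image_univ, Subtype.range_coe]; exact hM)
    (fun x => x.2.2) fun T δ hδ _ hT => ?_)
  rw [comap_subtype_coe_apply hAm, Subtype.image_preimage_coe]
  rcases (A ∩ T).eq_empty_or_nonempty with h0 | ⟨x, hxA, hxT⟩
  · simp [h0]
  have hδt : 0 < δ ^ (t : ℝ) := Real.rpow_pos_of_pos hδ _
  have hmark : ((ENNReal.ofReal δ)⁻¹ ^ (t : ℝ)) * μ (A ∩ T) ≤ M := by
    refine ((mul_le_mul_right (measure_mono fun y hy => ?_) _).trans (mul_meas_ge_le_lintegral₀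
      (hq.comp (measurable_prodMk_left (x := x))).aemeasurable _)).trans hxA.1
    refine ENNReal.rpow_le_rpow (ENNReal.inv_le_inv.2 ?_) t.coe_nonneg
    rw [edist_dist]
    exact ENNReal.ofReal_le_ofReal (hT _ hxT _ hy.2)
  rw [← ENNReal.ofReal_inv_of_pos hδ, ENNReal.ofReal_rpow_of_nonneg (inv_nonneg.2 hδ.le)
    t.coe_nonneg,
    Real.inv_rpow hδ.le, ENNReal.ofReal_inv_of_pos hδt, mul_comm, ← div_eq_mul_inv,
    ENNReal.div_le_iff (ENNReal.ofReal_pos.2 hδt).ne' ENNReal.ofReal_ne_top] at hmark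
  refine hmark.trans ?_
  rw [ENNReal.ofReal_mul (by positivity)]
  gcongr
  rw [← ENNReal.ofReal_natCast]
  exact ENNReal.ofReal_le_ofReal (le_add_of_nonneg_right zero_le_one)

end FA.Frostman
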