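import Fermat.Agent.BernoulliConvolution.Garsia
import Fermat.Agent.Frostman.CircleTransform
import Mathlib.Analysis.SpecialFunctions.Gaussian.FourierTransform
import Mathlib.MeasureTheory.Measure.Lebesgue.VolumeOfBalls

/-!
# Falconer's distance set theorem

A compact plane set of dimension above `3 / 2` spans a set of distances of positive length
(Falconer 1985). If `μ` is a Frostman measure of exponent `s > 3 / 2`, then `|μ̂| ^ 2` has mass
`O(R ^ (2 - s))` on the disc of radius `R`; with the decay `O(|ξ| ^ (-1/2))` of the Fourier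
transform of the circle this bounds the `μ × μ` mass of an annulus of width `ε` and radius `t` by
`O(√t ε)`, so the law of the distance of two random points has bounded density away from `0`.
-/

set_option autoImplicit false

noncomputable section

open MeasureTheory Filter Topology Metric
open scoped ENNReal NNReal Real

namespace FA.Frostman

theorem exists_frostman_map_subtype {E : Type*} [MetricSpace E] [MeasurableSpace E] [BorelSpace E]
    {K : Set E} (hK : IsCompact K) {s : ℝ≥0} (hs : 0 < s) (hsd : (s : ℝ≥0∞) < dimH K) :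
    ∃ μ : Measure E, IsProbabilityMeasure μ ∧ μ Kᶜ = 0 ∧ ∃ C : ℝ, 0 < C ∧
      ∀ (x : E) (r : ℝ), 0 < r → μ (closedBall x r) ≤ ENNReal.ofReal (C * r ^ (s : ℝ)) := by
  have : CompactSpace K := isCompact_iff_compactSpace.1 hK
  have hs' : (0 : ℝ) < s := hs
  have hH : μH[(s : ℝ)] (Set.univ : Set K) ≠ 0 := by
    rw [← (isometry_subtype_coe : Isometry ((↑) : K → E)).hausdorffMeasure_image
      (Or.inl (by positivity)), Subtype.coe_image_univ, hausdorffMeasure_of_lt_dimH hsd]
    exact ENNReal.top_ne_zero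
  obtain ⟨μ, hμ, C, hC, hball⟩ := exists_frostman_measure hs' hH
  have hm : Measurable ((↑) : K → E) := measurable_subtype_coe
  refine ⟨μ.map (↑), Measure.isProbabilityMeasure_map hm.aemeasurable, ?_,
    C * 2 ^ (s : ℝ), by positivity, fun x r hr => ?_⟩
  · rw [Measure.map_apply hm hK.isClosed.measurableSet.compl]
    exact measure_mono_null (fun y hy => (hy y.2).elim) measure_empty
  rw [Measure.map_apply hm isClosed_closedBall.measurableSet]
  rcases Set.eq_empty_or_nonempty (((↑) : K → E) ⁻¹' closedBall x r) with h | ⟨y, hy⟩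
  · rw [h, measure_empty]; exact zero_le
  refine (measure_mono (t := closedBall y (2 * r)) fun z hz => ?_).trans
    ((hball y (2 * r) (by positivity)).trans_eq ?_)
  · simp only [Set.mem_preimage, mem_closedBall] at hz hy ⊢
    rw [Subtype.dist_eq]
    linarith [dist_triangle_right (z : E) y x]
  · rw [Real.mul_rpow zero_le_two hr.le, mul_assoc]

/-- The squared modulus of the Fourier transform of a plane measure. -/
def fourierSq (μ : Measure ℂ) (ξ : ℂ) : ℝ :=
  (∫ x, Real.cos (inner ℝ x ξ) ∂μ) ^ 2 + (∫ x, Real.sin (inner ℝ x ξ) ∂μ) ^ 2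

theorem fourierSq_nonneg (μ : Measure ℂ) (ξ : ℂ) : 0 ≤ fourierSq μ ξ := by
  unfold fourierSq; positivity

theorem fourierSq_le_two (μ : Measure ℂ) [IsProbabilityMeasure μ] (ξ : ℂ) :
    fourierSq μ ξ ≤ 2 := by
  have h : ∀ f : ℂ → ℝ, (∀ x, |f x| ≤ 1) → (∫ x, f x ∂μ) ^ 2 ≤ 1 := fun f hf => by
    refine (sq_le_one_iff_abs_le_one _).2 ?_
    simpa using norm_integral_le_of_norm_le_const (μ := μ) (f := f)
      (Eventually.of_forall fun x => (Real.norm_eq_abs (f x)).trans_le (hf x))
  have := add_le_add (h _ fun x => Real.abs_cos_le_one (inner ℝ x ξ))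
    (h _ fun x => Real.abs_sin_le_one (inner ℝ x ξ))
  rw [fourierSq]
  linarith

theorem continuous_fourierSq (μ : Measure ℂ) [IsFiniteMeasure μ] : Continuous (fourierSq μ) := by
  unfold fourierSq
  refine (continuous_of_dominated (bound := fun _ => 1) (fun ξ => ?_) (fun ξ => ?_)
    (integrable_const _) ?_).pow 2 |>.add ((continuous_of_dominated (bound := fun _ => 1)
    (fun ξ => ?_) (fun ξ => ?_) (integrable_const _) ?_).pow 2)
  · exact (by fun_prop : Continuous fun x : ℂ => Real.cos (inner ℝ x ξ)).aestronglyMeasurable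
  · exact Eventually.of_forall fun x => Real.abs_cos_le_one _
  · exact Eventually.of_forall fun x => by fun_prop
  · exact (by fun_prop : Continuous fun x : ℂ => Real.sin (inner ℝ x ξ)).aestronglyMeasurable
  · exact Eventually.of_forall fun x => Real.abs_sin_le_one _
  · exact Eventually.of_forall fun x => by fun_prop

theorem integral_prod_cos_inner (μ : Measure ℂ) [IsProbabilityMeasure μ] (v ξ : ℂ) :
    ∫ p, Real.cos (inner ℝ (p.1 - p.2 - v) ξ) ∂μ.prod μ =
      fourierSq μ ξ * Real.cos (inner ℝ v ξ) := by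
  set c : ℂ → ℝ := fun x => Real.cos (inner ℝ x ξ) with hc
  set d : ℂ → ℝ := fun x => Real.sin (inner ℝ x ξ) with hd
  have hci : Integrable c μ := Integrable.of_bound
    (by fun_prop : Continuous c).aestronglyMeasurable 1
    (Eventually.of_forall fun x => Real.abs_cos_le_one _)
  have hdi : Integrable d μ := Integrable.of_bound
    (by fun_prop : Continuous d).aestronglyMeasurable 1
    (Eventually.of_forall fun x => Real.abs_sin_le_one _)
  have e : ∀ p : ℂ × ℂ, Real.cos (inner ℝ (p.1 - p.2 - v) ξ) =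
      (c p.1 * c p.2 + d p.1 * d p.2) * Real.cos (inner ℝ v ξ) +
        (d p.1 * c p.2 - c p.1 * d p.2) * Real.sin (inner ℝ v ξ) := fun p => by
    simp only [hc, hd, inner_sub_left, Real.cos_sub, Real.sin_sub]
  simp_rw [e]
  have i1 := ((hci.mul_prod hci).add (hdi.mul_prod hdi)).mul_const (Real.cos (inner ℝ v ξ))
  have i2 := ((hdi.mul_prod hci).sub (hci.mul_prod hdi)).mul_const (Real.sin (inner ℝ v ξ))
  simp only [Pi.add_apply, Pi.sub_apply] at i1 i2
  rw [integral_add i1 i2, integral_mul_const,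
    integral_mul_const, integral_add (hci.mul_prod hci) (hdi.mul_prod hdi),
    integral_sub (hdi.mul_prod hci) (hci.mul_prod hdi), integral_prod_mul, integral_prod_mul,
    integral_prod_mul, integral_prod_mul, fourierSq]
  ring

theorem integrable_exp_neg_sq {ε : ℝ} (hε : 0 < ε) :
    Integrable fun ξ : ℂ => Real.exp (-(ε ^ 2 / 4 * ‖ξ‖ ^ 2)) := by
  have h := (GaussianFourier.integrable_cexp_neg_mul_sq_norm_add
    (b := ((ε ^ 2 / 4 : ℝ) : ℂ)) (by rw [Complex.ofReal_re]; positivity) 0 (0 : ℂ)).norm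
  refine h.congr (Eventually.of_forall fun ξ => ?_)
  simp [Complex.norm_exp, pow_two]

theorem integral_exp_neg_sq_mul_cos {ε : ℝ} (hε : 0 < ε) (u : ℂ) :
    ∫ ξ : ℂ, Real.exp (-(ε ^ 2 / 4 * ‖ξ‖ ^ 2)) * Real.cos (inner ℝ u ξ) =
      4 * π / ε ^ 2 * Real.exp (-(‖u‖ ^ 2 / ε ^ 2)) := by
  have hb : 0 < ((ε ^ 2 / 4 : ℝ) : ℂ).re := by rw [Complex.ofReal_re]; positivity
  have h := congrArg Complex.re
    (GaussianFourier.integral_cexp_neg_mul_sq_norm_add hb Complex.I u)
  rw [← Complex.reCLM_apply, ← Complex.reCLM.integral_comp_comm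
    (GaussianFourier.integrable_cexp_neg_mul_sq_norm_add hb Complex.I u)] at h
  have e : ∀ ξ : ℂ, Complex.reCLM (Complex.exp (-((ε ^ 2 / 4 : ℝ) : ℂ) * (‖ξ‖ : ℂ) ^ 2 +
      Complex.I * (inner ℝ u ξ : ℝ))) =
      Real.exp (-(ε ^ 2 / 4 * ‖ξ‖ ^ 2)) * Real.cos (inner ℝ u ξ) := fun ξ => by
    simp [Complex.exp_re, pow_two]
  simp_rw [e] at h
  have e2 : (π : ℂ) / ((ε ^ 2 / 4 : ℝ) : ℂ) = ((4 * π / ε ^ 2 : ℝ) : ℂ) := by
    have : (ε : ℂ) ≠ 0 := by exact_mod_cast hε.ne'
    push_cast
    field_simp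
  have e3 : Complex.I ^ 2 * (‖u‖ : ℂ) ^ 2 / (4 * ((ε ^ 2 / 4 : ℝ) : ℂ)) =
      ((-(‖u‖ ^ 2 / ε ^ 2) : ℝ) : ℂ) := by
    rw [Complex.I_sq]
    push_cast
    field_simp
  rw [h, Complex.finrank_real_complex, Nat.cast_ofNat, div_self (two_ne_zero' ℂ),
    Complex.cpow_one, e2, e3, ← Complex.ofReal_exp, ← Complex.ofReal_mul, Complex.ofReal_re]

/-- A Gaussian average of the law of a difference, on the Fourier side. -/
theorem integral_exp_neg_sq_sub (μ : Measure ℂ) [IsProbabilityMeasure μ] {ε : ℝ} (hε : 0 < ε)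
    (v : ℂ) : ∫ p, Real.exp (-(‖p.1 - p.2 - v‖ ^ 2 / ε ^ 2)) ∂μ.prod μ =
      ε ^ 2 / (4 * π) * ∫ ξ : ℂ, Real.exp (-(ε ^ 2 / 4 * ‖ξ‖ ^ 2)) *
        (fourierSq μ ξ * Real.cos (inner ℝ v ξ)) := by
  have hint : Integrable (Function.uncurry fun (p : ℂ × ℂ) (ξ : ℂ) =>
      Real.exp (-(ε ^ 2 / 4 * ‖ξ‖ ^ 2)) * Real.cos (inner ℝ (p.1 - p.2 - v) ξ))
      ((μ.prod μ).prod volume) := by
    refine Integrable.mono' ((integrable_exp_neg_sq hε).comp_snd (μ.prod μ))
      (by fun_prop : Continuous _).aestronglyMeasurable (Eventually.of_forall fun q => ?_)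
    rw [Function.uncurry_def, Real.norm_eq_abs, abs_mul, Real.abs_exp]
    exact mul_le_of_le_one_right (Real.exp_nonneg _) (Real.abs_cos_le_one _)
  have h := integral_integral_swap hint
  simp_rw [integral_exp_neg_sq_mul_cos hε, integral_const_mul, integral_prod_cos_inner] at h
  rw [← h]
  field_simp

theorem exp_neg_sq_le_tsum (u : ℝ) : ENNReal.ofReal (Real.exp (-u ^ 2)) ≤
    ∑' k : ℕ, if u ≤ 2 ^ k then ENNReal.ofReal (32 / 16 ^ k) else 0 := by
  rcases le_or_gt u 1 with h | h
  · refine le_trans ?_ (ENNReal.le_tsum 0)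
    rw [if_pos (by simpa using h)]
    exact ENNReal.ofReal_le_ofReal (le_trans (Real.exp_le_one_iff.2 (by nlinarith [sq_nonneg u])) (by norm_num))
  obtain ⟨k, hk1, hk2⟩ := exists_nat_pow_near h.le one_lt_two
  refine le_trans ?_ (ENNReal.le_tsum (k + 1))
  rw [if_pos hk2.le]
  refine ENNReal.ofReal_le_ofReal ?_
  have h4 : ((4 : ℝ) ^ k) ^ 2 = 16 ^ k := by rw [← pow_mul, mul_comm, pow_mul]; norm_num
  have hsq : (4 : ℝ) ^ k ≤ u ^ 2 := by
    rw [show (4 : ℝ) = 2 ^ 2 by norm_num, ← pow_mul, mul_comm, pow_mul]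
    gcongr
  rw [Real.exp_neg, inv_le_comm₀ (Real.exp_pos _) (by positivity), inv_div, pow_succ, ← h4]
  have := Real.quadratic_le_exp_of_nonneg (x := (4 : ℝ) ^ k) (by positivity)
  have := Real.exp_le_exp.2 hsq
  nlinarith [show (0 : ℝ) ≤ 4 ^ k by positivity]

theorem lintegral_exp_neg_sq_sub_le (μ : Measure ℂ) [IsProbabilityMeasure μ] {s C : ℝ}
    (hs4 : s < 4) (hC : 0 < C)
    (h : ∀ (x : ℂ) (r : ℝ), 0 < r → μ (closedBall x r) ≤ ENNReal.ofReal (C * r ^ s))
    {ε : ℝ} (hε : 0 < ε) :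
    ∫⁻ p, ENNReal.ofReal (Real.exp (-(‖p.1 - p.2‖ ^ 2 / ε ^ 2))) ∂μ.prod μ ≤
      ENNReal.ofReal (32 * C / (1 - 2 ^ s / 16) * ε ^ s) := by
  set S : ℕ → Set (ℂ × ℂ) := fun k => {p | dist p.1 p.2 ≤ 2 ^ k * ε} with hS
  have hSm : ∀ k, MeasurableSet (S k) := fun k =>
    (isClosed_le (continuous_fst.dist continuous_snd) continuous_const).measurableSet
  refine (lintegral_mono (g := fun p => ∑' k, (S k).indicator
    (fun _ => ENNReal.ofReal (32 / 16 ^ k)) p) fun p => ?_).trans ?_
  · rw [← div_pow]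
    refine (exp_neg_sq_le_tsum _).trans_eq (tsum_congr fun k => ?_)
    by_cases hk : p ∈ S k
    · rw [Set.indicator_of_mem hk, if_pos (by
        rw [div_le_iff₀ hε, ← dist_eq_norm]; exact hk)]
    · rw [Set.indicator_of_notMem hk, if_neg (by
        rw [div_le_iff₀ hε, ← dist_eq_norm]; exact hk)]
  rw [lintegral_tsum fun k => (measurable_const.indicator (hSm k)).aemeasurable]
  have hq : (0 : ℝ) ≤ 2 ^ s / 16 := by positivity
  have hq1 : (2 : ℝ) ^ s / 16 < 1 := by
    rw [div_lt_one (by norm_num)]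
    calc (2 : ℝ) ^ s < 2 ^ (4 : ℝ) := Real.rpow_lt_rpow_of_exponent_lt one_lt_two hs4
      _ = 16 := by norm_num
  rw [div_eq_mul_inv, ← tsum_geometric_of_lt_one hq hq1, mul_assoc, ← tsum_mul_right,
    ← tsum_mul_left, ENNReal.ofReal_tsum_of_nonneg (fun k => by positivity)
      (((summable_geometric_of_lt_one hq hq1).mul_right _).mul_left _)]
  refine ENNReal.tsum_le_tsum fun k => ?_
  rw [lintegral_indicator_const (hSm k), Measure.prod_apply (hSm k)]
  refine (mul_le_mul_right ((lintegral_mono (g := fun _ => ENNReal.ofReal (C * (2 ^ k * ε) ^ s))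
    fun x => ?_).trans_eq (by rw [lintegral_const, measure_univ, mul_one])) _).trans_eq ?_
  · refine (measure_mono fun y hy => ?_).trans (h x _ (by positivity))
    rw [mem_closedBall, dist_comm]
    exact hy
  rw [← ENNReal.ofReal_mul (by positivity), Real.mul_rpow (by positivity) hε.le,
    ← Real.rpow_pow_comm zero_le_two s, div_pow]
  congr 1
  ring

theorem lintegral_fourierSq_closedBall_le (μ : Measure ℂ) [IsProbabilityMeasure μ] {s C : ℝ}
    (hs4 : s < 4) (hC : 0 < C)
    (h : ∀ (x : ℂ) (r : ℝ), 0 < r → μ (closedBall x r) ≤ ENNReal.ofReal (C * r ^ s))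
    {R : ℝ} (hR : 0 < R) :
    ∫⁻ ξ in closedBall 0 R, ENNReal.ofReal (fourierSq μ ξ) ≤
      ENNReal.ofReal (Real.exp 1 * π * R ^ 2 * (32 * C / (1 - 2 ^ s / 16) * (2 / R) ^ s)) := by
  set ε := 2 / R with hε
  have hε0 : 0 < ε := by positivity
  set F := fun ξ : ℂ => Real.exp (-(ε ^ 2 / 4 * ‖ξ‖ ^ 2)) * fourierSq μ ξ with hF
  have hFi : Integrable F := Integrable.mono' ((integrable_exp_neg_sq hε0).mul_const 2)
    ((by fun_prop : Continuous fun ξ : ℂ => Real.exp (-(ε ^ 2 / 4 * ‖ξ‖ ^ 2))).mul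
      (continuous_fourierSq μ)).aestronglyMeasurable (Eventually.of_forall fun ξ => by
      rw [Real.norm_eq_abs, abs_mul, Real.abs_exp, abs_of_nonneg (fourierSq_nonneg μ ξ)]
      exact mul_le_mul_of_nonneg_left (fourierSq_le_two μ ξ) (Real.exp_nonneg _))
  have hF0 : ∀ ξ, 0 ≤ F ξ := fun ξ => mul_nonneg (Real.exp_nonneg _) (fourierSq_nonneg μ ξ)
  have e := integral_exp_neg_sq_sub μ hε0 0
  simp only [sub_zero, inner_zero_left, Real.cos_zero, mul_one] at e
  have hP : ∫ p, Real.exp (-(‖p.1 - p.2‖ ^ 2 / ε ^ 2)) ∂μ.prod μ ≤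
      32 * C / (1 - 2 ^ s / 16) * ε ^ s := by
    have hq1 : (2 : ℝ) ^ s / 16 < 1 := by
      rw [div_lt_one (by norm_num)]
      calc (2 : ℝ) ^ s < 2 ^ (4 : ℝ) := Real.rpow_lt_rpow_of_exponent_lt one_lt_two hs4
        _ = 16 := by norm_num
    have : 0 ≤ 32 * C / (1 - 2 ^ s / 16) := div_nonneg (by positivity) (by linarith)
    refine (integral_eq_lintegral_of_nonneg_ae (Eventually.of_forall fun p => Real.exp_nonneg _)
      (by fun_prop : Continuous _).aestronglyMeasurable).trans_le ?_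
    exact ENNReal.toReal_le_of_le_ofReal (by positivity)
      (lintegral_exp_neg_sq_sub_le μ hs4 hC h hε0)
  refine (lintegral_mono' le_rfl fun ξ => le_rfl).trans ?_
  refine (setLIntegral_mono (g := fun ξ => ENNReal.ofReal (Real.exp 1 * F ξ))
    (ENNReal.measurable_ofReal.comp ((((by fun_prop : Continuous fun ξ : ℂ =>
      Real.exp (-(ε ^ 2 / 4 * ‖ξ‖ ^ 2))).mul (continuous_fourierSq μ))).measurable.const_mul _))
    fun ξ hξ => ENNReal.ofReal_le_ofReal ?_).trans ((setLIntegral_le_lintegral _ _).trans ?_)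
  · have h1 : 1 ≤ Real.exp (1 - ε ^ 2 / 4 * ‖ξ‖ ^ 2) := by
      refine Real.one_le_exp (sub_nonneg.2 ?_)
      have hn : ‖ξ‖ ≤ R := by simpa [mem_closedBall, dist_zero_right] using hξ
      calc ε ^ 2 / 4 * ‖ξ‖ ^ 2 ≤ ε ^ 2 / 4 * R ^ 2 := by gcongr
        _ = 1 := by rw [hε]; field_simp; norm_num
    rw [sub_eq_add_neg, Real.exp_add] at h1
    rw [hF, ← mul_assoc]
    exact le_mul_of_one_le_left (fourierSq_nonneg μ ξ) h1
  rw [← ofReal_integral_eq_lintegral_ofReal (hFi.const_mul _)
    (Eventually.of_forall fun ξ => mul_nonneg (Real.exp_nonneg _) (hF0 ξ)), integral_const_mul]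
  refine ENNReal.ofReal_le_ofReal ?_
  rw [mul_assoc (Real.exp 1), mul_assoc (Real.exp 1)]
  refine mul_le_mul_of_nonneg_left ?_ (Real.exp_nonneg _)
  calc ∫ ξ, F ξ = 4 * π / ε ^ 2 * ∫ p, Real.exp (-(‖p.1 - p.2‖ ^ 2 / ε ^ 2)) ∂μ.prod μ := by
        rw [e]; simp only [hF]; field_simp
    _ ≤ π * R ^ 2 * (32 * C / (1 - 2 ^ s / 16) * ε ^ s) := by
        rw [show 4 * π / ε ^ 2 = π * R ^ 2 by rw [hε]; field_simp; ring]
        gcongr

/-- The energy of the squared Fourier transform against `‖ξ‖ ^ (-1/2)`. -/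
def circleEnergy (μ : Measure ℂ) : ℝ≥0∞ :=
  ∫⁻ ξ, ENNReal.ofReal (fourierSq μ ξ) * (edist 0 ξ)⁻¹ ^ (1 / 2 : ℝ)

theorem circleEnergy_lt_top (μ : Measure ℂ) [IsProbabilityMeasure μ] {s C : ℝ}
    (hs : 3 / 2 < s) (hs4 : s < 4) (hC : 0 < C)
    (h : ∀ (x : ℂ) (r : ℝ), 0 < r → μ (closedBall x r) ≤ ENNReal.ofReal (C * r ^ s)) :
    circleEnergy μ < ⊤ := by
  set f : ℂ → ℝ≥0∞ := fun ξ => ENNReal.ofReal (fourierSq μ ξ) * (edist 0 ξ)⁻¹ ^ (1 / 2 : ℝ)
    with hf
  set A : ℕ → Set ℂ := fun k => closedBall 0 (2 ^ (k + 1)) \ ball 0 (2 ^ k) with hA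
  have hcover : (Set.univ : Set ℂ) ⊆ closedBall 0 1 ∪ ⋃ k, A k := fun ξ _ => by
    rcases le_or_gt ‖ξ‖ 1 with h1 | h1
    · exact Or.inl (by simpa [mem_closedBall, dist_zero_right] using h1)
    obtain ⟨k, hk1, hk2⟩ := exists_nat_pow_near h1.le one_lt_two
    exact Or.inr (Set.mem_iUnion.2 ⟨k, by simpa [mem_closedBall, dist_zero_right] using hk2.le,
      by simpa [mem_ball, dist_zero_right] using hk1⟩)
  rw [circleEnergy, ← setLIntegral_univ]
  refine ((lintegral_mono_set hcover).trans (lintegral_union_le _ _ _)).trans_lt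
    (ENNReal.add_lt_top.2 ⟨?_, ?_⟩)
  · -- near the origin
    set m : Measure ℂ := (NNReal.pi : ℝ≥0∞)⁻¹ • volume.restrict (closedBall 0 1) with hm
    have hπ : (NNReal.pi : ℝ≥0∞) ≠ 0 := by exact_mod_cast NNReal.pi_pos.ne'
    have hmp : IsProbabilityMeasure m := ⟨by
      rw [hm, Measure.smul_apply, Measure.restrict_apply_univ, Complex.volume_closedBall,
        ENNReal.ofReal_one, one_pow, one_mul, smul_eq_mul,
        ENNReal.inv_mul_cancel hπ ENNReal.coe_ne_top]⟩
    have hmb : ∀ (x : ℂ) (r : ℝ), 0 < r →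
        m (closedBall x r) ≤ ENNReal.ofReal (1 * r ^ (2 : ℝ)) := fun x r hr => by
      rw [hm, Measure.smul_apply, Measure.restrict_apply isClosed_closedBall.measurableSet,
        smul_eq_mul]
      refine (mul_le_mul_right ((measure_mono Set.inter_subset_left).trans_eq
        (Complex.volume_closedBall x r)) _).trans_eq ?_
      rw [mul_left_comm, ENNReal.inv_mul_cancel hπ ENNReal.coe_ne_top, mul_one, one_mul,
        Real.rpow_two, ENNReal.ofReal_pow hr.le]
    have hlt : ∫⁻ ξ, (edist 0 ξ)⁻¹ ^ (1 / 2 : ℝ) ∂m < ⊤ :=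
      (lintegral_inv_edist_rpow_le m (by norm_num) (by norm_num) one_pos hmb 0).trans_lt
        (ENNReal.add_lt_top.2 ⟨ENNReal.one_lt_top, ENNReal.ofReal_lt_top⟩)
    rw [hm, lintegral_smul_measure, smul_eq_mul, ENNReal.mul_lt_top_iff] at hlt
    refine (lintegral_mono fun ξ => mul_le_mul_left
      (ENNReal.ofReal_le_ofReal (fourierSq_le_two μ ξ)) _).trans_lt ?_
    rw [lintegral_const_mul' _ _ ENNReal.ofReal_ne_top]
    refine ENNReal.mul_lt_top ENNReal.ofReal_lt_top ?_
    rcases hlt with h1 | h1 | h1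
    · exact h1.2
    · exact absurd h1 (ENNReal.inv_ne_zero.2 ENNReal.coe_ne_top)
    · exact h1.trans_lt ENNReal.zero_lt_top
  -- the dyadic annuli
  set D := Real.exp 1 * π * (32 * C / (1 - 2 ^ s / 16)) * 2 ^ s with hD
  have hq1 : (2 : ℝ) ^ s / 16 < 1 := by
    rw [div_lt_one (by norm_num)]
    calc (2 : ℝ) ^ s < 2 ^ (4 : ℝ) := Real.rpow_lt_rpow_of_exponent_lt one_lt_two hs4
      _ = 16 := by norm_num
  have hD0 : 0 ≤ D := by
    have : 0 ≤ 32 * C / (1 - 2 ^ s / 16) := div_nonneg (by positivity) (by linarith)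
    positivity
  set q : ℝ := 2 ^ (3 / 2 - s) with hq
  have hq0 : 0 ≤ q := by positivity
  have hq' : q < 1 := Real.rpow_lt_one_of_one_lt_of_neg one_lt_two (by linarith)
  refine (lintegral_iUnion_le _ _).trans_lt ((ENNReal.tsum_le_tsum
    (g := fun k => ENNReal.ofReal (D * 2 ^ (2 - s) * q ^ k)) fun k => ?_).trans_lt ?_)
  · have hR : (0 : ℝ) < 2 ^ (k + 1) := by positivity
    refine (setLIntegral_mono' (measurableSet_closedBall.diff measurableSet_ball)
      (g := fun ξ => ENNReal.ofReal (fourierSq μ ξ) *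
        ENNReal.ofReal (((2 : ℝ) ^ k)⁻¹ ^ (1 / 2 : ℝ))) fun ξ hξ => ?_).trans ?_
    · refine mul_le_mul_right ?_ _
      rw [← ENNReal.ofReal_rpow_of_nonneg (by positivity) (by norm_num)]
      refine ENNReal.rpow_le_rpow ?_ (by norm_num)
      rw [ENNReal.ofReal_inv_of_pos (by positivity), ENNReal.inv_le_inv, edist_dist]
      refine ENNReal.ofReal_le_ofReal ?_
      rw [dist_comm]
      exact not_lt.1 fun hlt => hξ.2 (mem_ball.2 hlt)
    rw [lintegral_mul_const' _ _ ENNReal.ofReal_ne_top]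
    refine (mul_le_mul_left ((lintegral_mono_set Set.sdiff_subset).trans
      (lintegral_fourierSq_closedBall_le μ hs4 hC h hR)) _).trans_eq ?_
    rw [← ENNReal.ofReal_mul' (by positivity)]
    congr 1
    rw [hD, hq, Real.div_rpow zero_le_two hR.le, ← Real.rpow_natCast 2 (k + 1),
      ← Real.rpow_natCast 2 k, ← Real.rpow_neg zero_le_two, ← Real.rpow_mul zero_le_two,
      ← Real.rpow_natCast (2 ^ (3 / 2 - s)) k, ← Real.rpow_mul zero_le_two,
      ← Real.rpow_two, ← Real.rpow_mul zero_le_two, ← Real.rpow_mul zero_le_two]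
    push_cast
    have e : (2 : ℝ) ^ (((k : ℝ) + 1) * 2) * (2 ^ (-(k : ℝ) * (1 / 2))) /
        2 ^ (((k : ℝ) + 1) * s) = 2 ^ (2 - s) * 2 ^ ((3 / 2 - s) * k) := by
      rw [← Real.rpow_add two_pos, ← Real.rpow_sub two_pos, ← Real.rpow_add two_pos]
      ring_nf
    linear_combination (Real.exp 1 * π * (32 * C / (1 - 2 ^ s / 16)) * 2 ^ s) * e
  rw [← ENNReal.ofReal_tsum_of_nonneg (fun k => by positivity)
    ((summable_geometric_of_lt_one hq0 hq').mul_left _)]
  exact ENNReal.ofReal_lt_top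

theorem inner_circle (t θ : ℝ) (ξ : ℂ) :
    inner ℝ ((t : ℂ) * Complex.exp (θ * Complex.I)) ξ = t * planeProj θ ξ := by
  rw [Complex.inner, planeProj]
  simp [Complex.mul_re, Complex.exp_ofReal_mul_I_re, Complex.exp_ofReal_mul_I_im]
  ring

/-- On the annulus of radius `t` and width `ε` the circular average of a Gaussian is large. -/
theorem le_integral_exp_circle {t ε : ℝ} (hε : 0 < ε) (hεt : ε ≤ t) {z : ℂ}
    (hz : |‖z‖ - t| ≤ ε) : 2 * ε / t * Real.exp (-4) ≤ ∫ θ in -(2 * π)..2 * π,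
      Real.exp (-(‖z - (t : ℂ) * Complex.exp (θ * Complex.I)‖ ^ 2 / ε ^ 2)) := by
  have ht : 0 < t := hε.trans_le hεt
  have hπ := Real.two_le_pi
  have h1 : ε / t ≤ 1 := (div_le_one ht).2 hεt
  have h0 : 0 ≤ ε / t := by positivity
  have ha := Complex.neg_pi_lt_arg z
  have hb := Complex.arg_le_pi z
  set f := fun θ : ℝ => Real.exp (-(‖z - (t : ℂ) * Complex.exp (θ * Complex.I)‖ ^ 2 / ε ^ 2))
  have hf : Continuous f := by fun_prop
  calc 2 * ε / t * Real.exp (-4) = ∫ _θ in z.arg - ε / t..z.arg + ε / t, Real.exp (-4) := by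
        rw [intervalIntegral.integral_const, smul_eq_mul]; ring
    _ ≤ ∫ θ in z.arg - ε / t..z.arg + ε / t, f θ := by
        refine intervalIntegral.integral_mono_on (by linarith)
          intervalIntegrable_const (hf.intervalIntegrable _ _) fun θ hθ => ?_
        have hd : |θ - z.arg| ≤ ε / t := abs_le.2 ⟨by linarith [hθ.1], by linarith [hθ.2]⟩
        have hn : ‖z - (t : ℂ) * Complex.exp (θ * Complex.I)‖ ≤ 2 * ε := by
          have e : z - (t : ℂ) * Complex.exp (θ * Complex.I) =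
              (((‖z‖ - t : ℝ) : ℂ)) * Complex.exp (z.arg * Complex.I) -
                (t : ℂ) * Complex.exp (z.arg * Complex.I) *
                  (Complex.exp (Complex.I * (θ - z.arg : ℝ)) - 1) := by
            conv_lhs => rw [← Complex.norm_mul_exp_arg_mul_I z]
            rw [mul_sub, mul_assoc (t : ℂ), ← Complex.exp_add,
              show (z.arg : ℂ) * Complex.I + Complex.I * ((θ - z.arg : ℝ) : ℂ) =
                (θ : ℂ) * Complex.I by push_cast; ring, Complex.ofReal_sub]
            ring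
          rw [e]
          refine (norm_sub_le _ _).trans ?_
          rw [norm_mul, norm_mul, norm_mul, Complex.norm_exp_ofReal_mul_I, Complex.norm_real,
            Complex.norm_real, mul_one, mul_one, Real.norm_eq_abs, Real.norm_of_nonneg ht.le,
            two_mul]
          refine add_le_add hz ?_
          calc t * ‖Complex.exp (Complex.I * (θ - z.arg : ℝ)) - 1‖ ≤ t * (ε / t) := by
                gcongr; exact Real.norm_exp_I_mul_ofReal_sub_one_le.trans hd
            _ = ε := by field_simp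
        refine Real.exp_le_exp.2 (neg_le_neg ?_)
        rw [div_le_iff₀ (by positivity)]
        calc _ ≤ (2 * ε) ^ 2 := by gcongr
          _ = _ := by ring
    _ ≤ ∫ θ in -(2 * π)..2 * π, f θ :=
        intervalIntegral.integral_mono_interval (by linarith) (by linarith) (by linarith)
          (Eventually.of_forall fun θ => Real.exp_nonneg _) (hf.intervalIntegrable _ _)

/-- The `μ × μ` mass of an annulus of radius `t` and width `ε` is `O(√t ε)`. -/
theorem measureReal_annulus_le (μ : Measure ℂ) [IsProbabilityMeasure μ]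
    (hE : circleEnergy μ < ⊤) {t ε : ℝ} (hε : 0 < ε) (hεt : ε ≤ t) :
    (μ.prod μ).real {p | |dist p.1 p.2 - t| ≤ ε} ≤
      Real.exp 4 * (1 + π) / π * (circleEnergy μ).toReal * √t * ε := by
  have ht : 0 < t := hε.trans_le hεt
  have hπ := Real.pi_pos
  set P := μ.prod μ
  set S := {p : ℂ × ℂ | |dist p.1 p.2 - t| ≤ ε} with hS
  have hSm : MeasurableSet S := (isClosed_le
    ((continuous_fst.dist continuous_snd).sub continuous_const).abs continuous_const).measurableSet
  set c : ℝ → ℂ := fun θ => (t : ℂ) * Complex.exp (θ * Complex.I) with hc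
  set I : Set ℝ := Set.Ioc (-(2 * π)) (2 * π)
  have hfi : Integrable (Function.uncurry fun (p : ℂ × ℂ) θ =>
      Real.exp (-(‖p.1 - p.2 - c θ‖ ^ 2 / ε ^ 2))) (P.prod (volume.restrict I)) := by
    refine Integrable.of_bound (by fun_prop : Continuous _).aestronglyMeasurable 1
      (Eventually.of_forall fun q => ?_)
    rw [Function.uncurry_def, Real.norm_eq_abs, Real.abs_exp, Real.exp_le_one_iff, neg_nonpos]
    positivity
  have h1 : 2 * ε / t * Real.exp (-4) * P.real S ≤
      ∫ p, ∫ θ in I, Real.exp (-(‖p.1 - p.2 - c θ‖ ^ 2 / ε ^ 2)) ∂volume ∂P := by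
    rw [mul_comm, ← smul_eq_mul, ← integral_indicator_const _ hSm]
    refine integral_mono ((integrable_const _).indicator hSm) hfi.integral_prod_left fun p => ?_
    by_cases hp : p ∈ S
    · rw [Set.indicator_of_mem hp, ← intervalIntegral.integral_of_le (by linarith)]
      exact le_integral_exp_circle hε hεt (by rw [← dist_eq_norm]; exact hp)
    · rw [Set.indicator_of_notMem hp]
      exact integral_nonneg fun θ => Real.exp_nonneg _
  set G := fun ξ : ℂ => Real.exp (-(ε ^ 2 / 4 * ‖ξ‖ ^ 2)) with hG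
  have hgi : Integrable (Function.uncurry fun (θ : ℝ) (ξ : ℂ) =>
      G ξ * (fourierSq μ ξ * Real.cos (inner ℝ (c θ) ξ))) ((volume.restrict I).prod volume) := by
    refine Integrable.mono' (((integrable_exp_neg_sq hε).mul_const 2).comp_snd (volume.restrict I))
      ((by fun_prop : Continuous fun q : ℝ × ℂ => G q.2).mul
        (((continuous_fourierSq μ).comp continuous_snd).mul
          (by fun_prop : Continuous fun q : ℝ × ℂ => Real.cos (inner ℝ (c q.1) q.2)))
        ).aestronglyMeasurable (Eventually.of_forall fun q => ?_)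
    rw [Function.uncurry_def, Real.norm_eq_abs, abs_mul, abs_mul, Real.abs_exp,
      abs_of_nonneg (fourierSq_nonneg μ _)]
    exact mul_le_mul_of_nonneg_left ((mul_le_of_le_one_right (fourierSq_nonneg μ _)
      (Real.abs_cos_le_one _)).trans (fourierSq_le_two μ _)) (Real.exp_nonneg _)
  set T := ∫ ξ : ℂ, G ξ * (fourierSq μ ξ * ∫ θ in I, Real.cos (inner ℝ (c θ) ξ)) with hT
  have h2 : ∫ p, ∫ θ in I, Real.exp (-(‖p.1 - p.2 - c θ‖ ^ 2 / ε ^ 2)) ∂volume ∂P =
      ε ^ 2 / (4 * π) * T := by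
    rw [integral_integral_swap hfi]
    simp_rw [P, integral_exp_neg_sq_sub μ hε, integral_const_mul]
    rw [integral_integral_swap hgi]
    simp_rw [integral_const_mul]
    rfl
  set B := 8 * (1 + π) / √t with hB
  have hB0 : 0 ≤ B := by positivity
  have h3 : T ≤ B * (circleEnergy μ).toReal := by
    refine (le_abs_self T).trans ?_
    have h := enorm_integral_le_lintegral_enorm
      (fun ξ : ℂ => G ξ * (fourierSq μ ξ * ∫ θ in I, Real.cos (inner ℝ (c θ) ξ))) (μ := volume)
    rw [← hT, Real.enorm_eq_ofReal_abs] at h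
    have hle : ENNReal.ofReal |T| ≤ ENNReal.ofReal B * circleEnergy μ := by
      refine h.trans ((lintegral_mono_ae ?_).trans_eq
        (lintegral_const_mul' _ _ ENNReal.ofReal_ne_top))
      filter_upwards [Measure.ae_ne volume (0 : ℂ)] with ξ hξ
      have hn : 0 < ‖ξ‖ := norm_pos_iff.2 hξ
      rw [edist_dist, dist_zero_left, ← ENNReal.ofReal_inv_of_pos hn,
        ENNReal.ofReal_rpow_of_nonneg (inv_nonneg.2 hn.le) (by norm_num),
        ← ENNReal.ofReal_mul (fourierSq_nonneg μ ξ), ← ENNReal.ofReal_mul hB0,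
        Real.enorm_eq_ofReal_abs]
      refine ENNReal.ofReal_le_ofReal ?_
      rw [abs_mul, abs_mul, hG, Real.abs_exp, abs_of_nonneg (fourierSq_nonneg μ ξ)]
      refine (mul_le_of_le_one_left
        (mul_nonneg (fourierSq_nonneg μ ξ) (abs_nonneg _)) ?_).trans ?_
      · rw [Real.exp_le_one_iff, neg_nonpos]; positivity
      rw [mul_left_comm B]
      refine mul_le_mul_of_nonneg_left ?_ (fourierSq_nonneg μ ξ)
      simp only [hc, inner_circle]
      rw [← intervalIntegral.integral_of_le (by linarith)]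
      refine (abs_integral_cos_planeProj_le ht hξ).trans_eq ?_
      rw [hB, ← Real.sqrt_eq_rpow, Real.sqrt_inv, Real.sqrt_mul ht.le]
      ring
    have := ENNReal.toReal_mono (ENNReal.mul_ne_top ENNReal.ofReal_ne_top hE.ne) hle
    rwa [ENNReal.toReal_ofReal (abs_nonneg _), ENNReal.toReal_mul,
      ENNReal.toReal_ofReal hB0] at this
  have h4 := h1.trans_eq h2
  have h5 : 2 * ε / t * Real.exp (-4) * P.real S ≤
      ε ^ 2 / (4 * π) * (B * (circleEnergy μ).toReal) :=
    h4.trans (mul_le_mul_of_nonneg_left h3 (by positivity))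
  rw [← mul_le_mul_iff_right₀ (by positivity : 0 < 2 * ε / t * Real.exp (-4))]
  refine h5.trans_eq ?_
  rw [hB, Real.exp_neg]
  field_simp
  rw [Real.sq_sqrt ht.le]
  ring

/-- Away from `0` the law of the distance has bounded density. -/
theorem restrict_distLaw_le (μ : Measure ℂ) [IsProbabilityMeasure μ] {s C : ℝ}
    (hs : 3 / 2 < s) (hs4 : s < 4) (hC : 0 < C)
    (h : ∀ (x : ℂ) (r : ℝ), 0 < r → μ (closedBall x r) ≤ ENNReal.ofReal (C * r ^ s))
    {a b : ℝ} (ha : 0 < a) :
    ∃ D : ℝ, ((μ.prod μ).map fun p => dist p.1 p.2).restrict (Set.Icc a b) ≤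
      ENNReal.ofReal D • volume := by
  have hE := circleEnergy_lt_top μ hs hs4 hC h
  set M := max (Real.exp 4 * (1 + π) / π * (circleEnergy μ).toReal * √b) a⁻¹ with hM
  have hM0 : 0 ≤ M := le_max_of_le_right (by positivity)
  refine ⟨M, BernoulliConvolution.measure_le_smul_volume _ hM0 fun u v huv => ?_⟩
  rw [Measure.restrict_apply measurableSet_Ioc,
    Measure.map_apply (continuous_fst.dist continuous_snd).measurable
      (measurableSet_Ioc.inter measurableSet_Icc)]
  rcases huv.eq_or_lt with rfl | huv'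
  · simp
  rcases lt_or_ge (min v b) (max u a) with he | he
  · refine (measure_mono (t := ∅) fun p hp => ?_).trans (by simp)
    obtain ⟨⟨h1, h2⟩, h3, h4⟩ := hp
    exact absurd ((max_le h1.le h3).trans (le_min h2 h4)) (not_le.2 he)
  set ε := (v - u) / 2 with hεd
  set t := (max u a + min v b) / 2 with htd
  have hε : 0 < ε := by rw [hεd]; linarith
  have hta : a ≤ t := by
    rw [htd]; linarith [le_max_right u a]
  have htb : t ≤ b := by rw [htd]; linarith [min_le_right v b]
  have ha' : 0 < a⁻¹ := by positivity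
  rw [← ENNReal.ofReal_toReal (measure_ne_top (μ.prod μ) _)]
  refine ENNReal.ofReal_le_ofReal ?_
  change (μ.prod μ).real _ ≤ _
  rcases le_or_gt ε t with het | het
  · refine ((measureReal_mono fun p hp => ?_).trans (measureReal_annulus_le μ hE hε het)).trans ?_
    · obtain ⟨⟨h1, h2⟩, h3, h4⟩ := hp
      rw [Set.mem_ofPred_eq, abs_le]
      have := max_le h1.le h3
      have := le_min h2 h4
      have := le_max_left u a
      have := min_le_left v b
      constructor <;> linarith
    calc Real.exp 4 * (1 + π) / π * (circleEnergy μ).toReal * √t * ε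
        ≤ Real.exp 4 * (1 + π) / π * (circleEnergy μ).toReal * √b * ε := by gcongr
      _ ≤ M * (v - u) := mul_le_mul (le_max_left _ _) (by rw [hεd]; linarith) hε.le hM0
  · refine (measureReal_mono (Set.subset_univ _)).trans ?_
    rw [probReal_univ]
    calc (1 : ℝ) = a⁻¹ * a := (inv_mul_cancel₀ ha.ne').symm
      _ ≤ M * (v - u) := mul_le_mul (le_max_right _ _) (by rw [hεd] at het; linarith) ha.le hM0

/-- A compact set of dimension above `3 / 2` carries a measure for which the distance of two random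
points has bounded density away from `0` and is almost surely nonzero. -/
theorem exists_bounded_distance_density {K : Set ℂ} (hK : IsCompact K) (hd : 3 / 2 < dimH K) :
    ∃ μ : Measure ℂ, IsProbabilityMeasure μ ∧ μ Kᶜ = 0 ∧ μ.prod μ {p | p.1 = p.2} = 0 ∧
      ∀ a b : ℝ, 0 < a → ∃ D : ℝ,
        ((μ.prod μ).map fun p => dist p.1 p.2).restrict (Set.Icc a b) ≤
          ENNReal.ofReal D • volume := by
  have h2 : (3 / 2 : ℝ≥0∞) < min (dimH K) 2 := lt_min hd (by
    rw [ENNReal.div_lt_iff (by norm_num) (by norm_num)]; norm_num)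
  obtain ⟨s, hs1, hsd⟩ := exists_between h2
  lift s to ℝ≥0 using hsd.ne_top
  rw [lt_min_iff] at hsd
  have hs : (3 / 2 : ℝ) < s := by
    have : ((3 / 2 : ℝ≥0) : ℝ≥0∞) < s := by rw [ENNReal.coe_div two_ne_zero]; simpa using hs1
    exact_mod_cast this
  have hs2 : (s : ℝ) < 2 := by
    have : s < 2 := by exact_mod_cast hsd.2
    exact_mod_cast this
  obtain ⟨μ, hμ, hμK, C, hC, hball⟩ :=
    exists_frostman_map_subtype hK (NNReal.coe_pos.1 (by linarith)) hsd.1
  refine ⟨μ, hμ, hμK, ?_, fun a b ha => restrict_distLaw_le μ hs (by linarith) hC hball ha⟩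
  have hat : ∀ x, μ {x} = 0 := fun x => by
    have hlim : Tendsto (fun r : ℝ => ENNReal.ofReal (C * r ^ (s : ℝ))) (𝓝[>] 0) (𝓝 0) := by
      have hc : ContinuousAt (fun r : ℝ => C * r ^ (s : ℝ)) 0 :=
        (continuousAt_id.rpow_const (Or.inr (by linarith))).const_mul C
      have := (ENNReal.tendsto_ofReal hc.tendsto).mono_left
        (nhdsWithin_le_nhds : 𝓝[>] (0 : ℝ) ≤ 𝓝 0)
      simpa [Real.zero_rpow (by linarith : (s : ℝ) ≠ 0)] using this
    refine le_antisymm (ge_of_tendsto hlim ?_) (zero_le)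
    filter_upwards [self_mem_nhdsWithin] with r (hr : 0 < r)
    exact (measure_mono (Set.singleton_subset_iff.2 (mem_closedBall_self hr.le))).trans
      (hball x r hr)
  rw [Measure.prod_apply (isClosed_eq continuous_fst continuous_snd).measurableSet]
  simp [Set.preimage, hat]

/-- **Falconer's distance set theorem.** -/
theorem volume_distanceSet_pos {K : Set ℂ} (hK : IsCompact K) (hd : 3 / 2 < dimH K) :
    0 < volume (Set.image2 dist K K) := by
  obtain ⟨μ, hμ, hμK, hdiag, hD⟩ := exists_bounded_distance_density hK hd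
  refine pos_iff_ne_zero.2 fun h0 => ?_
  set ν := (μ.prod μ).map fun p => dist p.1 p.2
  have hm : Measurable fun p : ℂ × ℂ => dist p.1 p.2 :=
    (continuous_fst.dist continuous_snd).measurable
  have hS : MeasurableSet (Set.image2 dist K K) :=
    (Set.image_prod (f := (dist : ℂ → ℂ → ℝ)) (s := K) (t := K) ▸
      ((hK.prod hK).image continuous_dist).isClosed.measurableSet)
  have hcov : Set.image2 dist K K ∩ Set.Ioi 0 ⊆
      ⋃ n : ℕ, Set.image2 dist K K ∩ Set.Icc (1 / (n + 1 : ℝ)) (n + 1) := fun x hx => by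
    obtain ⟨n, hn⟩ := exists_nat_ge (max x x⁻¹)
    refine Set.mem_iUnion.2 ⟨n, hx.1, ?_, by linarith [le_max_left x x⁻¹]⟩
    rw [div_le_iff₀ (by positivity)]
    calc (1 : ℝ) = x * x⁻¹ := (mul_inv_cancel₀ (ne_of_gt hx.2)).symm
      _ ≤ x * (n + 1) := mul_le_mul_of_nonneg_left (by linarith [le_max_right x x⁻¹])
          (le_of_lt hx.2)
  have hnull : ν (Set.image2 dist K K ∩ Set.Ioi 0) = 0 := by
    refine measure_mono_null hcov (measure_iUnion_null fun n => ?_)
    obtain ⟨D, hle⟩ := hD (1 / (n + 1)) (n + 1) (by positivity)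
    have := hle (Set.image2 dist K K)
    rw [Measure.restrict_apply hS, Measure.smul_apply, h0, smul_zero] at this
    exact le_antisymm this (zero_le)
  have hKK : μ.prod μ (K ×ˢ K) = 1 := by
    rw [Measure.prod_prod, (prob_compl_eq_zero_iff hK.isClosed.measurableSet).1 hμK, mul_one]
  rw [Measure.map_apply hm (hS.inter measurableSet_Ioi)] at hnull
  have : μ.prod μ (K ×ˢ K) ≤ 0 := by
    refine (measure_mono (t := (fun p : ℂ × ℂ => dist p.1 p.2) ⁻¹'
      (Set.image2 dist K K ∩ Set.Ioi 0) ∪ {p | p.1 = p.2}) fun p hp => ?_).trans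
      ((measure_union_le _ _).trans_eq (by rw [hnull, hdiag, add_zero]))
    by_cases he : p.1 = p.2
    · exact Or.inr he
    · exact Or.inl ⟨Set.mem_image2_of_mem hp.1 hp.2, dist_pos.2 he⟩
  rw [hKK] at this
  exact absurd this (not_le.2 zero_lt_one)

end FA.Frostman
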