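import Fermat.Agent.Frostman.CircleTransform
import Fermat.Agent.Frostman.Energy
import Mathlib.Analysis.SpecialFunctions.Gaussian.FourierTransform
import Mathlib.Analysis.SpecialFunctions.Gaussian.GaussianIntegral
import Mathlib.LinearAlgebra.Complex.FiniteDimensional
import Mathlib.MeasureTheory.Constructions.HaarToSphere
import Mathlib.MeasureTheory.Measure.CharacteristicFunction.Basic

/-!
# The Fourier dimension

The Fourier dimension of a set is the supremum of the `β` at most the dimension of the space for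
which a probability measure on the set has transform `O(‖ξ‖ ^ (-β / 2))`. It is at most the
Hausdorff dimension. It vanishes on a hyperplane and equals `1` on the circle.
-/

set_option autoImplicit false

noncomputable section

open MeasureTheory Filter Topology Metric
open scoped ENNReal NNReal Real

namespace FA.Frostman

variable {E : Type*} [NormedAddCommGroup E] [InnerProductSpace ℝ E] [FiniteDimensional ℝ E]
  [MeasurableSpace E] [BorelSpace E]

/-- A probability measure on `K` has transform `O(‖ξ‖ ^ (-β / 2))`. -/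
def HasFourierDecay (K : Set E) (β : ℝ≥0) : Prop :=
  ∃ μ : Measure E, IsProbabilityMeasure μ ∧ μ Kᶜ = 0 ∧
    ∃ C : ℝ, ∀ ξ : E, ξ ≠ 0 → ‖charFun μ ξ‖ ≤ C * ‖ξ‖ ^ (-(β : ℝ) / 2)

/-- The Fourier dimension. -/
def fourierDim (K : Set E) : ℝ≥0∞ :=
  ⨆ (β : ℝ≥0) (_ : β ≤ Module.finrank ℝ E ∧ HasFourierDecay K β), (β : ℝ≥0∞)

omit [FiniteDimensional ℝ E] [BorelSpace E] in
theorem le_fourierDim {K : Set E} {β : ℝ≥0} (h1 : β ≤ Module.finrank ℝ E)
    (h2 : HasFourierDecay K β) : (β : ℝ≥0∞) ≤ fourierDim K :=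
  le_iSup₂ (f := fun (β : ℝ≥0) (_ : β ≤ Module.finrank ℝ E ∧ HasFourierDecay K β) =>
    (β : ℝ≥0∞)) β ⟨h1, h2⟩

/-- The Gaussian energy of a measure on the Fourier side. -/
theorem integral_exp_neg_sq_sub_eq (μ : Measure E) [IsProbabilityMeasure μ] {ε : ℝ} (hε : 0 < ε) :
    (4 * π / ε ^ 2) ^ (Module.finrank ℝ E / 2 : ℝ) *
        ∫ p, Real.exp (-(‖p.1 - p.2‖ ^ 2 / ε ^ 2)) ∂μ.prod μ =
      ∫ ξ, Real.exp (-(ε ^ 2 / 4 * ‖ξ‖ ^ 2)) * ‖charFun μ ξ‖ ^ 2 := by
  set b : ℂ := ((ε ^ 2 / 4 : ℝ) : ℂ) with hbdef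
  have hb : 0 < b.re := by rw [hbdef, Complex.ofReal_re]; positivity
  have hgauss : Integrable fun ξ : E => Real.exp (-(ε ^ 2 / 4 * ‖ξ‖ ^ 2)) :=
    (GaussianFourier.integrable_cexp_neg_mul_sq_norm_add hb 0 (0 : E)).norm.congr
      (Eventually.of_forall fun ξ => by simp [hbdef, Complex.norm_exp, pow_two])
  have hint : Integrable (Function.uncurry fun (p : E × E) (ξ : E) =>
      Complex.exp (-b * (‖ξ‖ : ℂ) ^ 2 + Complex.I * (inner ℝ (p.1 - p.2) ξ : ℝ)))
      ((μ.prod μ).prod volume) := by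
    refine Integrable.mono' (hgauss.comp_snd (μ.prod μ))
      (by fun_prop : Continuous _).aestronglyMeasurable (Eventually.of_forall fun q => le_of_eq ?_)
    simp [Function.uncurry_def, hbdef, Complex.norm_exp, pow_two]
  have h := integral_integral_swap hint
  have e1 : ∀ p : E × E, ∫ ξ : E, Complex.exp (-b * (‖ξ‖ : ℂ) ^ 2 +
      Complex.I * (inner ℝ (p.1 - p.2) ξ : ℝ)) =
      (((4 * π / ε ^ 2) ^ (Module.finrank ℝ E / 2 : ℝ) *
        Real.exp (-(‖p.1 - p.2‖ ^ 2 / ε ^ 2)) : ℝ) : ℂ) := fun p => by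
    have e2 : (π : ℂ) / b = ((4 * π / ε ^ 2 : ℝ) : ℂ) := by
      have : (ε : ℂ) ≠ 0 := by exact_mod_cast hε.ne'
      rw [hbdef]
      push_cast
      field_simp
    have e3 : Complex.I ^ 2 * (‖p.1 - p.2‖ : ℂ) ^ 2 / (4 * b) =
        ((-(‖p.1 - p.2‖ ^ 2 / ε ^ 2) : ℝ) : ℂ) := by
      rw [Complex.I_sq, hbdef]
      push_cast
      field_simp
    rw [GaussianFourier.integral_cexp_neg_mul_sq_norm_add hb, e2, e3, Complex.ofReal_mul,
      Complex.ofReal_exp, Complex.ofReal_cpow (by positivity)]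
    simp
  have e4 : ∀ ξ : E, ∫ p, Complex.exp (-b * (‖ξ‖ : ℂ) ^ 2 +
      Complex.I * (inner ℝ (p.1 - p.2) ξ : ℝ)) ∂μ.prod μ =
      ((Real.exp (-(ε ^ 2 / 4 * ‖ξ‖ ^ 2)) * ‖charFun μ ξ‖ ^ 2 : ℝ) : ℂ) := fun ξ => by
    have e5 : ∀ p : E × E, Complex.exp (-b * (‖ξ‖ : ℂ) ^ 2 +
        Complex.I * (inner ℝ (p.1 - p.2) ξ : ℝ)) = Complex.exp (-b * (‖ξ‖ : ℂ) ^ 2) *
          (Complex.exp ((inner ℝ p.1 ξ : ℝ) * Complex.I) *
            Complex.exp ((inner ℝ p.2 (-ξ) : ℝ) * Complex.I)) := fun p => by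
      rw [← Complex.exp_add, ← Complex.exp_add, inner_sub_left, inner_neg_right]
      push_cast
      ring_nf
    simp_rw [e5]
    rw [integral_const_mul,
      integral_prod_mul (fun x : E => Complex.exp ((inner ℝ x ξ : ℝ) * Complex.I))
        (fun y : E => Complex.exp ((inner ℝ y (-ξ) : ℝ) * Complex.I)),
      ← charFun_apply, ← charFun_apply, charFun_neg,
      Complex.mul_conj', Complex.ofReal_mul, Complex.ofReal_exp, Complex.ofReal_pow, hbdef]
    push_cast
    ring_nf
  simp_rw [e1, e4] at h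
  rw [integral_complex_ofReal, integral_complex_ofReal, Complex.ofReal_inj, integral_const_mul] at h
  exact h

/-- Fourier decay of order above `t` bounds the mass of the pairs at distance at most `r`. -/
theorem exists_prod_dist_le (μ : Measure E) [IsProbabilityMeasure μ] {β t C : ℝ} (ht : 0 < t)
    (htd : t < Module.finrank ℝ E) (htβ : t ≤ β)
    (hdecay : ∀ ξ : E, ξ ≠ 0 → ‖charFun μ ξ‖ ≤ C * ‖ξ‖ ^ (-β / 2)) :
    ∃ D : ℝ, 0 ≤ D ∧ ∀ r : ℝ, 0 < r →
      μ.prod μ {p | dist p.1 p.2 ≤ r} ≤ ENNReal.ofReal (D * r ^ t) := by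
  set d := Module.finrank ℝ E with hd
  have hd0 : 0 < d := by
    rcases Nat.eq_zero_or_pos d with h0 | h0
    · rw [h0, Nat.cast_zero] at htd; linarith
    · exact h0
  have : Nontrivial E := Module.nontrivial_of_finrank_pos hd0
  set g : E → ℝ := fun η => ‖η‖ ^ (-t) * Real.exp (-(‖η‖ ^ 2 / 4)) with hg
  have hgi : Integrable g := by
    refine (integrable_fun_norm_addHaar volume
      (f := fun y : ℝ => y ^ (-t) * Real.exp (-(y ^ 2 / 4)))).2 ?_
    refine (integrableOn_rpow_mul_exp_neg_mul_sq (b := 1 / 4) (by norm_num)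
      (s := ((d - 1 : ℕ) : ℝ) + -t) ?_).congr_fun (fun y hy => ?_) measurableSet_Ioi
    · rw [Nat.cast_sub hd0, Nat.cast_one]; linarith
    · simp only [Real.rpow_add hy, Real.rpow_natCast, smul_eq_mul, hd]
      ring_nf
  set C' := max (C ^ 2) 1 with hC'
  have hbound : ∀ ξ : E, ξ ≠ 0 → ‖charFun μ ξ‖ ^ 2 ≤ C' * ‖ξ‖ ^ (-t) := fun ξ hξ => by
    have hn : 0 < ‖ξ‖ := norm_pos_iff.2 hξ
    rcases le_or_gt 1 ‖ξ‖ with h1 | h1
    · calc ‖charFun μ ξ‖ ^ 2 ≤ (C * ‖ξ‖ ^ (-β / 2)) ^ 2 :=
            pow_le_pow_left₀ (norm_nonneg _) (hdecay ξ hξ) 2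
        _ = C ^ 2 * ‖ξ‖ ^ (-β) := by
            rw [mul_pow, ← Real.rpow_natCast (‖ξ‖ ^ (-β / 2)) 2, ← Real.rpow_mul hn.le]
            norm_num
        _ ≤ C' * ‖ξ‖ ^ (-t) := mul_le_mul (le_max_left _ _)
            (Real.rpow_le_rpow_of_exponent_le h1 (by linarith)) (by positivity) (by positivity)
    · calc ‖charFun μ ξ‖ ^ 2 ≤ 1 * 1 := by
            rw [one_mul]; exact pow_le_one₀ (norm_nonneg _) (norm_charFun_le_one ξ)
        _ ≤ C' * ‖ξ‖ ^ (-t) := mul_le_mul (le_max_right _ _)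
            (Real.one_le_rpow_of_pos_of_le_one_of_nonpos hn h1.le (by linarith)) zero_le_one
            (by positivity)
  set G := ∫ η, g η with hG
  have hG0 : 0 ≤ G := integral_nonneg fun η => by positivity
  set c := (4 * π) ^ (d / 2 : ℝ) with hc
  have hc0 : 0 < c := by positivity
  refine ⟨Real.exp 1 * (C' * G / c), by positivity, fun r hr => ?_⟩
  have hsmul : ∀ ξ : E, ‖r • ξ‖ = r * ‖ξ‖ := fun ξ => by rw [norm_smul, Real.norm_of_nonneg hr.le]
  have hi2 : Integrable fun ξ : E => C' * r ^ t * g (r • ξ) :=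
    (hgi.comp_smul hr.ne').const_mul _
  have hI : ∫ ξ, Real.exp (-(r ^ 2 / 4 * ‖ξ‖ ^ 2)) * ‖charFun μ ξ‖ ^ 2 ≤
      C' * r ^ t * ((r ^ d)⁻¹ * G) := by
    refine (integral_mono_of_nonneg (Eventually.of_forall fun ξ => by positivity) hi2 ?_).trans_eq
      (by rw [integral_const_mul, Measure.integral_comp_smul_of_nonneg volume g r (hR := hr.le),
        smul_eq_mul])
    filter_upwards [Measure.ae_ne volume (0 : E)] with ξ hξ
    calc Real.exp (-(r ^ 2 / 4 * ‖ξ‖ ^ 2)) * ‖charFun μ ξ‖ ^ 2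
        ≤ Real.exp (-(r ^ 2 / 4 * ‖ξ‖ ^ 2)) * (C' * ‖ξ‖ ^ (-t)) :=
          mul_le_mul_of_nonneg_left (hbound ξ hξ) (Real.exp_nonneg _)
      _ = C' * r ^ t * g (r • ξ) := by
          simp only [hg, hsmul]
          rw [Real.mul_rpow hr.le (norm_nonneg _), Real.rpow_neg hr.le]
          field_simp
  have hcst : (4 * π / r ^ 2) ^ (d / 2 : ℝ) = c / r ^ d := by
    rw [Real.div_rpow (by positivity) (by positivity), ← hc, ← Real.rpow_natCast r 2,
      ← Real.rpow_mul hr.le, show ((2 : ℕ) : ℝ) * ((d : ℝ) / 2) = (d : ℝ) by push_cast; ring,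
      Real.rpow_natCast]
  rw [← integral_exp_neg_sq_sub_eq μ hr, ← hd, hcst] at hI
  set J := ∫ p, Real.exp (-(‖p.1 - p.2‖ ^ 2 / r ^ 2)) ∂μ.prod μ with hJ
  have hJle : J ≤ C' * G / c * r ^ t := by
    rw [← mul_le_mul_iff_right₀ (by positivity : 0 < c / r ^ d)]
    refine hI.trans_eq ?_
    field_simp
  have hSm : MeasurableSet {p : E × E | dist p.1 p.2 ≤ r} :=
    (isClosed_le (continuous_fst.dist continuous_snd) continuous_const).measurableSet
  rw [← ENNReal.ofReal_toReal (measure_ne_top (μ.prod μ) _)]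
  refine ENNReal.ofReal_le_ofReal ?_
  change (μ.prod μ).real _ ≤ _
  have hmk : (μ.prod μ).real {p : E × E | dist p.1 p.2 ≤ r} * Real.exp (-1) ≤ J := by
    rw [← smul_eq_mul, ← integral_indicator_const _ hSm]
    refine integral_mono ((integrable_const _).indicator hSm) ?_ fun p => ?_
    · exact Integrable.of_bound (by fun_prop : Continuous _).aestronglyMeasurable 1
        (Eventually.of_forall fun p => by
          rw [Real.norm_eq_abs, Real.abs_exp, Real.exp_le_one_iff, neg_nonpos]; positivity)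
    by_cases hp : p ∈ {p : E × E | dist p.1 p.2 ≤ r}
    · rw [Set.indicator_of_mem hp]
      refine Real.exp_le_exp.2 (neg_le_neg ?_)
      rw [div_le_one (by positivity), ← dist_eq_norm]
      exact pow_le_pow_left₀ dist_nonneg hp 2
    · rw [Set.indicator_of_notMem hp]
      positivity
  rw [Real.exp_neg, ← div_eq_mul_inv, div_le_iff₀ (Real.exp_pos _)] at hmk
  calc _ ≤ J * Real.exp 1 := hmk
    _ ≤ C' * G / c * r ^ t * Real.exp 1 := mul_le_mul_of_nonneg_right hJle (Real.exp_nonneg _)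
    _ = _ := by ring

theorem le_dimH_of_hasFourierDecay {K : Set E} (hK : MeasurableSet K) {β : ℝ≥0}
    (hβ : β ≤ Module.finrank ℝ E) (h : HasFourierDecay K β) : (β : ℝ≥0∞) ≤ dimH K := by
  obtain ⟨μ, hμ, hμK, C, hC⟩ := h
  refine ENNReal.le_of_forall_nnreal_lt fun t ht => ?_
  rw [ENNReal.coe_lt_coe] at ht
  rcases eq_zero_or_pos t with rfl | ht0
  · simp
  have htβ : (t : ℝ) < β := by exact_mod_cast ht
  have hβd : (β : ℝ) ≤ Module.finrank ℝ E := by exact_mod_cast hβ
  obtain ⟨u, htu, huβ⟩ := exists_between htβ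
  have hu : 0 < u := (NNReal.coe_pos.2 ht0).trans htu
  obtain ⟨D, hD, hball⟩ := exists_prod_dist_le μ hu (huβ.trans_le hβd) huβ.le hC
  exact le_dimH_of_energy hK μ hμK ht0 ((lintegral_prod_inv_edist_rpow_le μ
    (NNReal.coe_pos.2 ht0) htu hD hball).trans_lt
      (ENNReal.add_lt_top.2 ⟨ENNReal.one_lt_top, ENNReal.ofReal_lt_top⟩))

/-- **The Fourier dimension is at most the Hausdorff dimension.** -/
theorem fourierDim_le_dimH {K : Set E} (hK : MeasurableSet K) : fourierDim K ≤ dimH K :=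
  iSup₂_le fun _ h => le_dimH_of_hasFourierDecay hK h.1 h.2

omit [FiniteDimensional ℝ E] [BorelSpace E] in
/-- A set in an affine hyperplane has Fourier dimension `0`. -/
theorem fourierDim_eq_zero_of_subset_hyperplane {K : Set E} {v : E} (hv : v ≠ 0) {c : ℝ}
    (hK : K ⊆ {x | inner ℝ x v = c}) : fourierDim K = 0 := by
  refine le_antisymm (iSup₂_le fun β hβ => ?_) zero_le
  rw [nonpos_iff_eq_zero, ENNReal.coe_eq_zero]
  obtain ⟨-, μ, hμ, hμK, C, hC⟩ := hβ
  by_contra hb
  have hβ0 : 0 < β := pos_of_ne_zero hb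
  have hone : ∀ R : ℝ, ‖charFun μ (R • v)‖ = 1 := fun R => by
    have hae : ∀ᵐ x ∂μ, Complex.exp ((inner ℝ x (R • v) : ℝ) * Complex.I) =
        Complex.exp ((R * c : ℝ) * Complex.I) := by
      filter_upwards [measure_eq_zero_iff_ae_notMem.1 hμK] with x hx
      rw [inner_smul_right, hK (not_not.1 hx)]
    rw [charFun_apply, integral_congr_ae hae, integral_const, probReal_univ, one_smul,
      Complex.norm_exp_ofReal_mul_I]
  have hn : 0 < ‖v‖ := norm_pos_iff.2 hv
  have hlim : Tendsto (fun R : ℝ => C * (R * ‖v‖) ^ (-(β : ℝ) / 2)) atTop (𝓝 0) := by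
    have := ((tendsto_rpow_neg_atTop (y := (β : ℝ) / 2) (by positivity)).comp
      (tendsto_id.atTop_mul_const hn)).const_mul C
    simpa [Function.comp_def, neg_div] using this
  obtain ⟨R, hR, hlt⟩ :=
    ((eventually_gt_atTop (0 : ℝ)).and (hlim.eventually_lt_const zero_lt_one)).exists
  have := hC (R • v) (smul_ne_zero hR.ne' hv)
  rw [hone, norm_smul, Real.norm_of_nonneg hR.le] at this
  linarith

omit [BorelSpace E] in
theorem fourierDim_segment (hd : 2 ≤ Module.finrank ℝ E) (x y : E) :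
    fourierDim (segment ℝ x y) = 0 := by
  obtain ⟨v, hv, hv0⟩ := (Submodule.ne_bot_iff _).1
    (show (ℝ ∙ (y - x))ᗮ ≠ ⊥ by
      intro h
      have h1 := Submodule.finrank_add_finrank_orthogonal (ℝ ∙ (y - x))
      rw [h, finrank_bot, add_zero] at h1
      have h2 := finrank_span_le_card (R := ℝ) ({y - x} : Set E)
      simp only [Set.toFinset_singleton, Finset.card_singleton] at h2
      omega)
  refine fourierDim_eq_zero_of_subset_hyperplane hv0 (c := inner ℝ x v) fun z hz => ?_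
  obtain ⟨a, b, -, -, hab, rfl⟩ := hz
  have h0 := Submodule.mem_orthogonal_singleton_iff_inner_right.1 hv
  rw [inner_sub_left, sub_eq_zero] at h0
  rw [Set.mem_ofPred_eq, inner_add_left, inner_smul_left, inner_smul_left, h0, ← add_mul]
  simp [hab]

/-- The circle is a Lipschitz image of the line. -/
theorem lipschitzWith_exp_mul_I : LipschitzWith 1 fun θ : ℝ => Complex.exp (θ * Complex.I) := by
  set f : ℝ → ℂ := fun θ => Complex.exp (θ * Complex.I) with hf
  have hLip : LipschitzWith 1 f := LipschitzWith.of_dist_le_mul fun a b => by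
    rw [NNReal.coe_one, one_mul, dist_eq_norm, dist_eq_norm]
    have e : f a - f b = f b * (Complex.exp (Complex.I * (a - b : ℝ)) - 1) := by
      simp only [hf, mul_sub, mul_one, ← Complex.exp_add]
      push_cast
      ring_nf
    rw [e, norm_mul, hf, Complex.norm_exp_ofReal_mul_I, one_mul]
    exact Real.norm_exp_I_mul_ofReal_sub_one_le
  exact hLip

theorem dimH_circle_le : dimH (sphere (0 : ℂ) 1) ≤ 1 := by
  set f : ℝ → ℂ := fun θ => Complex.exp (θ * Complex.I) with hf
  have hsub : sphere (0 : ℂ) 1 ⊆ Set.range f := fun z hz => ⟨z.arg, by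
    have := Complex.norm_mul_exp_arg_mul_I z
    rwa [mem_sphere_zero_iff_norm.1 hz, Complex.ofReal_one, one_mul] at this⟩
  exact ((dimH_mono hsub).trans lipschitzWith_exp_mul_I.dimH_range_le).trans_eq Real.dimH_univ

/-- The circle has Fourier dimension `1`. -/
theorem fourierDim_circle : fourierDim (sphere (0 : ℂ) 1) = 1 := by
  set f : ℝ → ℂ := fun θ => Complex.exp (θ * Complex.I) with hf
  have hLip : LipschitzWith 1 f := lipschitzWith_exp_mul_I
  refine le_antisymm ((fourierDim_le_dimH isClosed_sphere.measurableSet).trans dimH_circle_le) ?_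
  refine le_fourierDim (β := 1) (by rw [Complex.finrank_real_complex]; norm_num) ?_
  have hπ := Real.pi_pos
  set I : Set ℝ := Set.Ioc (-(2 * π)) (2 * π) with hI
  set m : Measure ℝ := (ENNReal.ofReal (4 * π))⁻¹ • volume.restrict I with hm
  have hmp : IsProbabilityMeasure m := ⟨by
    rw [hm, Measure.smul_apply, Measure.restrict_apply_univ, hI, Real.volume_Ioc, smul_eq_mul,
      show 2 * π - -(2 * π) = 4 * π by ring,
      ENNReal.inv_mul_cancel (ENNReal.ofReal_pos.2 (by positivity)).ne' ENNReal.ofReal_ne_top]⟩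
  have hfm : Measurable f := hLip.continuous.measurable
  refine ⟨m.map f, Measure.isProbabilityMeasure_map hfm.aemeasurable, ?_,
    2 * (1 + π) / π, fun ξ hξ => ?_⟩
  · rw [Measure.map_apply hfm isClosed_sphere.measurableSet.compl]
    refine measure_mono_null (fun θ hθ => hθ ?_) measure_empty
    simp [hf]
  have hn : 0 < ‖ξ‖ := norm_pos_iff.2 hξ
  set u : ℝ → ℝ := fun θ => planeProj θ ξ with hu
  have hinn : ∀ θ, inner ℝ (f θ) ξ = u θ := fun θ => by
    simp only [hu, planeProj, Complex.inner]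
    simp [hf, Complex.mul_re, Complex.exp_ofReal_mul_I_re, Complex.exp_ofReal_mul_I_im]
  have huc : Continuous u := by rw [hu]; unfold planeProj; fun_prop
  have hsin : ∫ θ in -(2 * π)..2 * π, Real.sin (u θ) = 0 := by
    have hanti : ∀ θ, Real.sin (u (θ + π)) = -Real.sin (u θ) := fun θ => by
      rw [← Real.sin_neg]
      congr 1
      simp only [hu, planeProj, Real.cos_add_pi, Real.sin_add_pi]
      ring
    have hper : Function.Periodic (fun θ => Real.sin (u θ)) (2 * π) := fun θ => by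
      simp only [show θ + 2 * π = θ + π + π by ring, hanti, neg_neg]
    have hc : Continuous fun θ => Real.sin (u θ) := by fun_prop
    have h2 := intervalIntegral.integral_comp_add_right (fun θ => Real.sin (u θ)) π
      (a := 0) (b := π)
    simp only [hanti, intervalIntegral.integral_neg, zero_add, ← two_mul] at h2
    have h4 := hper.intervalIntegral_add_zsmul_eq 2 (-(2 * π))
      fun a b => hc.intervalIntegrable a b
    rw [show -(2 * π) + (2 : ℤ) • (2 * π) = 2 * π by rw [zsmul_eq_mul]; push_cast; ring] at h4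
    rw [h4, hper.intervalIntegral_add_eq _ 0, zero_add,
      ← intervalIntegral.integral_add_adjacent_intervals (hc.intervalIntegrable 0 π)
        (hc.intervalIntegrable π (2 * π)), ← h2, add_neg_cancel, smul_zero]
  have e : charFun (m.map f) ξ =
      (((4 * π)⁻¹ * ∫ θ in -(2 * π)..2 * π, Real.cos (u θ) : ℝ) : ℂ) := by
    rw [charFun_apply, integral_map hfm.aemeasurable
      (by fun_prop : Continuous fun x : ℂ =>
        Complex.exp ((inner ℝ x ξ : ℝ) * Complex.I)).aestronglyMeasurable, hm,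
      integral_smul_measure, ENNReal.toReal_inv, ENNReal.toReal_ofReal (by positivity)]
    have hci : IntegrableOn (fun θ => ((Real.cos (u θ) : ℝ) : ℂ)) I :=
      (by fun_prop : Continuous fun θ => ((Real.cos (u θ) : ℝ) : ℂ)).integrableOn_Ioc
    have hsi : IntegrableOn (fun θ => ((Real.sin (u θ) : ℝ) : ℂ) * Complex.I) I :=
      (by fun_prop : Continuous fun θ =>
        ((Real.sin (u θ) : ℝ) : ℂ) * Complex.I).integrableOn_Ioc
    simp_rw [hinn, Complex.exp_mul_I, ← Complex.ofReal_cos, ← Complex.ofReal_sin]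
    rw [integral_add hci hsi, integral_mul_const, integral_complex_ofReal,
      integral_complex_ofReal,
      intervalIntegral.integral_of_le (by linarith)]
    rw [intervalIntegral.integral_of_le (by linarith)] at hsin
    rw [hsin]
    simp [hI, Complex.real_smul]
  rw [e, Complex.norm_real, Real.norm_eq_abs, abs_mul, abs_of_pos (by positivity)]
  have h := abs_integral_cos_planeProj_le one_pos hξ
  simp only [one_mul] at h
  refine (mul_le_mul_of_nonneg_left h (by positivity)).trans_eq ?_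
  rw [NNReal.coe_one, neg_div, Real.rpow_neg hn.le, ← Real.sqrt_eq_rpow]
  field_simp
  ring

end FA.Frostman
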