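import Fermat.Agent.Frostman.Dimension
import Mathlib.Analysis.SpecialFunctions.Trigonometric.ArctanDeriv
import Mathlib.LinearAlgebra.Complex.FiniteDimensional
import Mathlib.MeasureTheory.Function.Jacobian

/-!
# Davies's theorem on plane Kakeya sets

A compact plane set with a unit segment in every direction has dimension `2` (Davies 1971). The
lines `y = a x + b` of the set over a fixed interval of abscissae form a compact set of `(a, b)` of
dimension at least `1`; the vertical section at `x` contains a projection of it, so has dimension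
`1` for almost every `x`; and the sections bound the dimension of the set below.
-/

set_option autoImplicit false

noncomputable section

open MeasureTheory Filter Topology Metric
open scoped ENNReal NNReal Real

namespace FA.Frostman

/-- A set with a unit segment in every direction. -/
def IsKakeyaSet (K : Set ℂ) : Prop :=
  ∀ θ : ℝ, ∃ z : ℂ, ∀ t ∈ Set.Icc (0 : ℝ) 1,
    (⟨z.re + t * Real.cos θ, z.im + t * Real.sin θ⟩ : ℂ) ∈ K

/-- The vertical section at `x`. -/
def verticalSlice (K : Set ℂ) (x : ℝ) : Set ℝ := {y | (⟨x, y⟩ : ℂ) ∈ K}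

/-- **Slices.** A set of `s`-dimensional measure `0`, `s > 1`, has almost every section of
`(s - 1)`-dimensional measure `0`. -/
theorem ae_hausdorffMeasure_slice_eq_zero {K : Set ℂ} {s : ℝ} (hs : 1 < s) (h : μH[s] K = 0) :
    ∀ᵐ x ∂(volume : Measure ℝ), μH[s - 1] (verticalSlice K x) = 0 := by
  set ε : ℕ → ℝ≥0∞ := fun k => ENNReal.ofReal (1 / ((k : ℝ) + 1)) with hε
  have hε0 : ∀ k, 0 < ε k := fun k => ENNReal.ofReal_pos.2 (by positivity)
  have hεt : Tendsto ε atTop (𝓝 0) := by
    rw [← ENNReal.ofReal_zero]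
    exact ENNReal.tendsto_ofReal tendsto_one_div_add_atTop_nhds_zero_nat
  rw [Measure.hausdorffMeasure_apply] at h
  simp only [ENNReal.iSup_eq_zero] at h
  have hcov : ∀ k, ∃ t : ℕ → Set ℂ, K ⊆ ⋃ n, t n ∧ (∀ n, ediam (t n) ≤ ε k) ∧
      ∑' n, ediam (t n) ^ s ≤ ε k := fun k => by
    have hlt := (h (ε k) (hε0 k)).trans_lt (hε0 k)
    simp only [iInf_lt_iff] at hlt
    obtain ⟨t, ht1, ht2, ht3⟩ := hlt
    refine ⟨t, ht1, ht2, le_trans (ENNReal.tsum_le_tsum fun n => ?_) ht3.le⟩
    rcases (t n).eq_empty_or_nonempty with h0 | hne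
    · simp [h0, ENNReal.zero_rpow_of_pos (zero_lt_one.trans hs)]
    · exact le_iSup_of_le hne le_rfl
  choose t htK htd hts using hcov
  have htop : ∀ k n, ediam (t k n) ≠ ∞ := fun k n =>
    ne_top_of_le_ne_top ENNReal.ofReal_ne_top (htd k n)
  set c : ℕ → ℕ → ℂ := fun k n => Classical.epsilon (· ∈ t k n)
  set d : ℕ → ℕ → ℝ := fun k n => (ediam (t k n)).toReal
  have hd : ∀ k n z, z ∈ t k n → z.re ∈ closedBall (c k n).re (d k n) := fun k n z hz => by
    have hc : c k n ∈ t k n := Classical.epsilon_spec (p := (· ∈ t k n)) ⟨z, hz⟩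
    rw [mem_closedBall, Real.dist_eq, ← Complex.sub_re]
    refine (Complex.abs_re_le_norm _).trans ?_
    rw [← dist_eq_norm, dist_edist]
    exact ENNReal.toReal_mono (htop k n) (edist_le_ediam_of_mem hz hc)
  set f : ℕ → ℝ → ℝ≥0∞ := fun k x => ∑' n,
    (closedBall (c k n).re (d k n)).indicator (fun _ => ediam (t k n) ^ (s - 1)) x
  have hf : ∀ k, Measurable (f k) := fun k => Measurable.tsum fun n =>
    measurable_const.indicator isClosed_closedBall.measurableSet
  have hint : ∀ k, ∫⁻ x, f k x ≤ 2 * ε k := fun k => by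
    refine le_trans ?_ (mul_le_mul_right (hts k) _)
    rw [lintegral_tsum fun n =>
      (measurable_const.indicator isClosed_closedBall.measurableSet).aemeasurable,
      ← ENNReal.tsum_mul_left]
    refine ENNReal.tsum_le_tsum fun n => ?_
    rw [lintegral_indicator_const isClosed_closedBall.measurableSet, Real.volume_closedBall,
      ENNReal.ofReal_mul zero_le_two, ENNReal.ofReal_ofNat, ENNReal.ofReal_toReal (htop k n),
      mul_comm, mul_assoc]
    gcongr
    rcases eq_or_ne (ediam (t k n)) 0 with h0 | h0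
    · simp [h0, ENNReal.zero_rpow_of_pos (by linarith : 0 < s - 1),
        ENNReal.zero_rpow_of_pos (zero_lt_one.trans hs)]
    · rw [mul_comm, ← ENNReal.rpow_one (ediam (t k n)), ← ENNReal.rpow_mul, 
        ← ENNReal.rpow_add _ _ h0
        (htop k n), ← ENNReal.rpow_mul]
      exact le_of_eq (by ring_nf)
  have hlim : ∀ᵐ x ∂(volume : Measure ℝ), liminf (fun k => f k x) atTop = 0 := by
    refine (lintegral_eq_zero_iff (Measurable.liminf hf)).1 (le_antisymm ?_ zero_le)
    refine (lintegral_liminf_le hf).trans ((liminf_le_liminf (Eventually.of_forall hint)).trans ?_)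
    exact (by simpa using ENNReal.Tendsto.const_mul hεt (Or.inr ENNReal.ofNat_ne_top) :
      Tendsto (fun k => 2 * ε k) atTop (𝓝 0)).liminf_eq.le
  filter_upwards [hlim] with x hx
  refine le_antisymm ?_ zero_le
  refine le_trans ?_ hx.le
  refine (Measure.hausdorffMeasure_le_liminf_tsum (s - 1) _ ε hεt
    (fun k n => verticalSlice (t k n) x) (Eventually.of_forall fun k n => ?_)
    (Eventually.of_forall fun k y hy => ?_)).trans (liminf_le_liminf (Eventually.of_forall fun k =>
      ENNReal.tsum_le_tsum fun n => ?_))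
  · refine le_trans ?_ (htd k n)
    refine ediam_le fun y hy y' hy' => ?_
    refine le_trans (le_of_eq ?_) (edist_le_ediam_of_mem hy hy')
    simp [edist_dist, Real.dist_eq, Complex.dist_eq_re_im, Real.sqrt_sq_eq_abs]
  · obtain ⟨n, hn⟩ := Set.mem_iUnion.1 (htK k (show (⟨x, y⟩ : ℂ) ∈ K from hy))
    exact Set.mem_iUnion.2 ⟨n, hn⟩
  · rcases (verticalSlice (t k n) x).eq_empty_or_nonempty with h0 | ⟨y, hy⟩
    · simp [h0, ENNReal.zero_rpow_of_pos (by linarith : 0 < s - 1)]
    · rw [Set.indicator_of_mem (hd k n ⟨x, y⟩ hy)]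
      refine ENNReal.rpow_le_rpow (ediam_le fun u hu v hv => ?_) (by linarith)
      refine le_trans (le_of_eq ?_) (edist_le_ediam_of_mem hu hv)
      simp [edist_dist, Real.dist_eq, Complex.dist_eq_re_im, Real.sqrt_sq_eq_abs]

/-- The lines of `K` over the abscissae in `[p, q]`. -/
def lineSet (K : Set ℂ) (p q : ℝ) : Set ℂ :=
  {w | |w.re| ≤ 1 ∧ ∀ x ∈ Set.Icc p q, (⟨x, w.re * x + w.im⟩ : ℂ) ∈ K}

theorem isCompact_lineSet {K : Set ℂ} (hK : IsCompact K) {p q : ℝ} (hpq : p ≤ q) :
    IsCompact (lineSet K p q) := by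
  obtain ⟨R, hR⟩ := hK.isBounded.subset_closedBall 0
  have hclosed : IsClosed (lineSet K p q) := by
    rw [lineSet, Set.ofPred_and, Set.ofPred_forall]
    refine (isClosed_le (by fun_prop) continuous_const).inter (isClosed_iInter fun x => ?_)
    rw [Set.ofPred_forall]
    refine isClosed_iInter fun _ => hK.isClosed.preimage ?_
    exact Complex.equivRealProdCLM.symm.continuous.comp
      (continuous_const.prodMk ((Complex.continuous_re.mul continuous_const).add
        Complex.continuous_im))
  refine Metric.isCompact_of_isClosed_isBounded hclosed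
    ((Metric.isBounded_closedBall (x := (0 : ℂ)) (r := 1 + (R + |p|))).subset fun w hw => ?_)
  rw [mem_closedBall, dist_zero_right]
  refine (Complex.norm_le_abs_re_add_abs_im w).trans (add_le_add hw.1 ?_)
  have hmem := hR (hw.2 p ⟨le_rfl, hpq⟩)
  rw [mem_closedBall, dist_zero_right] at hmem
  have h1 : |w.re * p + w.im| ≤ R := (Complex.abs_im_le_norm _).trans hmem
  have h2 : |w.re * p| ≤ |p| := by
    rw [abs_mul]
    exact mul_le_of_le_one_left (abs_nonneg p) hw.1
  calc |w.im| = |(w.re * p + w.im) - w.re * p| := by ring_nf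
    _ ≤ _ := (abs_sub _ _).trans (add_le_add h1 h2)

/-- Some interval of abscissae carries lines of a set of slopes of positive length. -/
theorem exists_one_le_dimH_lineSet {K : Set ℂ} (hK : IsKakeyaSet K) :
    ∃ p q : ℝ, p < q ∧ 1 ≤ dimH (lineSet K p q) := by
  have hsub : Set.Icc (-1 : ℝ) 1 ⊆
      ⋃ p : ℚ, ⋃ q : ℚ, ⋃ _ : p < q, Complex.re '' lineSet K p q := by
    intro a ha
    obtain ⟨z, hz⟩ := hK (Real.arctan a)
    have hc := Real.cos_arctan_pos a
    obtain ⟨p, hp1, hp2⟩ := exists_rat_btwn (lt_add_of_pos_right z.re hc)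
    obtain ⟨q, hq1, hq2⟩ := exists_rat_btwn hp2
    refine Set.mem_iUnion.2 ⟨p, Set.mem_iUnion.2 ⟨q, Set.mem_iUnion.2
      ⟨by exact_mod_cast hq1, ⟨a, z.im - a * z.re⟩, ⟨abs_le.2 ⟨ha.1, ha.2⟩, fun x hx => ?_⟩, rfl⟩⟩⟩
    have hmem := hz ((x - z.re) / Real.cos (Real.arctan a))
      ⟨div_nonneg (by linarith [hx.1]) hc.le, (div_le_one hc).2 (by linarith [hx.2])⟩
    convert hmem using 2
    · rw [div_mul_cancel₀ _ hc.ne']
      ring
    · have hs : Real.sin (Real.arctan a) = a * Real.cos (Real.arctan a) := by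
        rw [Real.sin_arctan, Real.cos_arctan]; ring
      rw [hs, mul_left_comm, div_mul_cancel₀ _ hc.ne']
      ring
  have hpos : ¬ ∀ p : ℚ, ∀ q : ℚ, p < q → volume (Complex.re '' lineSet K p q) = 0 := fun h => by
    have h0 := measure_mono_null hsub (measure_iUnion_null fun p => measure_iUnion_null fun q =>
      measure_iUnion_null fun hpq => h p q hpq)
    simp [Real.volume_Icc] at h0
    norm_num at h0
  push Not at hpos
  obtain ⟨p, q, hpq, hvol⟩ := hpos
  refine ⟨p, q, by exact_mod_cast hpq, ?_⟩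
  have hre : LipschitzWith 1 Complex.re := LipschitzWith.of_dist_le_mul fun z w => by
    rw [NNReal.coe_one, one_mul, Real.dist_eq, dist_eq_norm, ← Complex.sub_re]
    exact Complex.abs_re_le_norm _
  refine le_trans ?_ (hre.dimH_image_le _)
  rw [← ENNReal.coe_one]
  refine le_dimH_of_hausdorffMeasure_ne_zero ?_
  rwa [NNReal.coe_one, hausdorffMeasure_real]

/-- Almost every abscissa gives a section of dimension at least `1`. -/
theorem ae_one_le_dimH_slice {K : Set ℂ} (hK : IsCompact K) {p q : ℝ} (hpq : p ≤ q)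
    (h : 1 ≤ dimH (lineSet K p q)) :
    ∀ᵐ x ∂(volume : Measure ℝ), x ∈ Set.Icc p q → 1 ≤ dimH (verticalSlice K x) := by
  have hM := ae_dimH_planeProj (isCompact_lineSet hK hpq)
  rw [ae_iff] at hM ⊢
  refine measure_mono_null (t := (fun θ => Real.cos θ / Real.sin θ) ''
    ({θ | ¬ dimH (planeProj θ '' lineSet K p q) = min (dimH (lineSet K p q)) 1} ∩
      Set.Ioo 0 π)) ?_ ?_
  · intro x hx
    rw [Set.mem_ofPred_eq, Classical.not_imp] at hx
    have hsq : 0 < √(1 + x ^ 2) := by positivity
    have hcos : Real.cos (π / 2 - Real.arctan x) = x / √(1 + x ^ 2) := by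
      rw [Real.cos_pi_div_two_sub, Real.sin_arctan]
    have hsin : Real.sin (π / 2 - Real.arctan x) = 1 / √(1 + x ^ 2) := by
      rw [Real.sin_pi_div_two_sub, Real.cos_arctan]
    refine ⟨π / 2 - Real.arctan x, ⟨fun heq => hx.2 ?_,
      by linarith [Real.arctan_lt_pi_div_two x], by linarith [Real.neg_pi_div_two_lt_arctan x]⟩, ?_⟩
    · rw [min_eq_right h] at heq
      rw [← heq]
      have hl : LipschitzWith (1 / √(1 + x ^ 2)).toNNReal fun y => y / √(1 + x ^ 2) :=
        LipschitzWith.of_dist_le_mul fun y y' => by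
          rw [Real.coe_toNNReal _ (by positivity), Real.dist_eq, Real.dist_eq, ← sub_div, abs_div,
            abs_of_pos hsq, one_div_mul_eq_div]
      refine le_trans (dimH_mono ?_) (hl.dimH_image_le (verticalSlice K x))
      rintro _ ⟨w, hw, rfl⟩
      refine ⟨w.re * x + w.im, hw.2 x hx.1, ?_⟩
      rw [planeProj, hcos, hsin]
      ring
    · simp only [hcos, hsin]
      field_simp
  · refine addHaar_image_eq_zero_of_differentiableOn_of_addHaar_eq_zero volume (fun θ hθ => ?_)
      (measure_mono_null Set.inter_subset_left hM)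
    exact (Real.differentiable_cos.differentiableAt.div Real.differentiable_sin.differentiableAt
      (Real.sin_pos_of_mem_Ioo hθ.2).ne').differentiableWithinAt

/-- **Davies's theorem.** -/
theorem dimH_kakeya {K : Set ℂ} (hK : IsCompact K) (h : IsKakeyaSet K) : dimH K = 2 := by
  refine le_antisymm ((dimH_mono (Set.subset_univ _)).trans_eq ?_) (not_lt.1 fun hlt => ?_)
  · rw [Real.dimH_univ_eq_finrank, Complex.finrank_real_complex]
    norm_num
  obtain ⟨s, hs1, hs2⟩ := exists_between (max_lt hlt (by norm_num : (1 : ℝ≥0∞) < 2))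
  lift s to ℝ≥0 using hs2.ne_top
  rw [max_lt_iff] at hs1
  have hs : (1 : ℝ) < s := by exact_mod_cast hs1.2
  have hs' : (s : ℝ) < 2 := by exact_mod_cast hs2
  obtain ⟨p, q, hpq, hE⟩ := exists_one_le_dimH_lineSet h
  have hsl := ae_hausdorffMeasure_slice_eq_zero hs (hausdorffMeasure_of_dimH_lt hs1.1)
  have hbad : ∀ᵐ x ∂(volume : Measure ℝ), x ∉ Set.Icc p q := by
    filter_upwards [hsl, ae_one_le_dimH_slice hK hpq.le hE] with x h0 h1 hx
    have hd : dimH (verticalSlice K x) ≤ ((s - 1 : ℝ≥0) : ℝ≥0∞) := by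
      refine dimH_le_of_hausdorffMeasure_ne_top ?_
      rw [NNReal.coe_sub (by exact_mod_cast hs.le), NNReal.coe_one, h0]
      exact ENNReal.zero_ne_top
    have hlt1 : ((s - 1 : ℝ≥0) : ℝ) < 1 := by
      rw [NNReal.coe_sub (by exact_mod_cast hs.le), NNReal.coe_one]
      linarith
    exact absurd ((h1 hx).trans hd) (not_le.2 (by exact_mod_cast hlt1))
  rw [ae_iff] at hbad
  simp only [not_not] at hbad
  rw [show {x | x ∈ Set.Icc p q} = Set.Icc p q from rfl, Real.volume_Icc,
    ENNReal.ofReal_eq_zero] at hbad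
  linarith

end FA.Frostman

end
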