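import Fermat.Agent.Frostman.Dimension

/-!
# Kaufman's exceptional directions

If `t` is below the dimension of a compact plane set, the compact sets of angles whose projections
all have dimension below `t` have dimension at most `t` (Kaufman 1968): otherwise such a set
carries a Frostman measure of exponent above `t`, for which `|cos| ^ (-t)` is integrable, and some
projection has dimension `t`. The product of two Frostman measures gives
`dimH A + dimH B ≤ dimH (A ×ˢ B)`.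
-/

set_option autoImplicit false

noncomputable section

open MeasureTheory Filter Topology Metric
open scoped ENNReal NNReal Real

namespace FA.Frostman

/-- A Frostman measure of angles gives small mass to the near zeros of a cosine. -/
theorem exists_measure_abs_cos_le {Θ : Set ℝ} (hΘ : IsCompact Θ) (ρ : Measure Θ) {s C : ℝ}
    (hC : 0 < C)
    (h : ∀ (x : Θ) (r : ℝ), 0 < r → ρ (closedBall x r) ≤ ENNReal.ofReal (C * r ^ s)) :
    ∃ D : ℝ, 0 < D ∧ ∀ φ ∈ Set.Ioc (-π) π, ∀ ε : ℝ, 0 < ε →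
      ρ {θ : Θ | |Real.cos ((θ : ℝ) - φ)| ≤ ε} ≤ ENNReal.ofReal (D * ε ^ s) := by
  obtain ⟨R, hR⟩ := hΘ.isBounded.subset_closedBall 0
  obtain ⟨M, hM⟩ := exists_nat_gt ((|R| + π) / π + 1)
  refine ⟨((Finset.Icc (-(M : ℤ)) M).card + 1) * (C * 4 ^ s), by positivity, fun φ hφ ε hε => ?_⟩
  have hπ := Real.pi_pos
  refine (measure_mono (t := ⋃ m ∈ Finset.Icc (-(M : ℤ)) M,
    {θ : Θ | |(θ : ℝ) - (φ + (m * π + π / 2))| ≤ 2 * ε}) fun θ hθ => ?_).trans
      ((measure_biUnion_finset_le _ _).trans ?_)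
  · set u := (θ : ℝ) - φ with hu
    set m := ⌊u / π⌋ with hm
    have h1 : (m : ℝ) ≤ u / π := Int.floor_le _
    have h2 : u / π < m + 1 := Int.lt_floor_add_one _
    have hub : |u| ≤ |R| + π := by
      have hθR := hR θ.2
      rw [mem_closedBall, Real.dist_eq, sub_zero] at hθR
      exact (abs_sub _ _).trans (add_le_add (hθR.trans (le_abs_self R))
        (abs_le.2 ⟨hφ.1.le, hφ.2⟩))
    have hud : |u / π| ≤ (|R| + π) / π := by
      rw [abs_div, abs_of_pos hπ]
      gcongr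
    have hmI : m ∈ Finset.Icc (-(M : ℤ)) M := by
      rw [Finset.mem_Icc, ← Int.cast_le (R := ℝ), ← Int.cast_le (R := ℝ) (m := m)]
      obtain ⟨h3, h4⟩ := abs_le.1 hud
      push_cast
      constructor <;> linarith
    refine Set.mem_biUnion hmI ?_
    rw [le_div_iff₀ hπ] at h1
    rw [div_lt_iff₀ hπ] at h2
    have hnear : |u - (m * π + π / 2)| ≤ π / 2 * ε := abs_sub_le_of_abs_cos_le (m := m)
      (abs_le.2 ⟨by linarith, by linarith⟩) hθ
    show |(θ : ℝ) - (φ + (m * π + π / 2))| ≤ 2 * ε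
    rw [show (θ : ℝ) - (φ + (m * π + π / 2)) = u - (m * π + π / 2) by rw [hu]; ring]
    exact hnear.trans (mul_le_mul_of_nonneg_right (by linarith [Real.pi_le_four]) hε.le)
  have hball : ∀ c : ℝ,
      ρ {θ : Θ | |(θ : ℝ) - c| ≤ 2 * ε} ≤ ENNReal.ofReal (C * (4 * ε) ^ s) := fun c => by
    rcases {θ : Θ | |(θ : ℝ) - c| ≤ 2 * ε}.eq_empty_or_nonempty with h0 | ⟨y, hy⟩
    · simp [h0]
    · refine (measure_mono fun θ hθ => ?_).trans (h y (4 * ε) (by linarith))
      rw [Set.mem_ofPred_eq] at hθ hy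
      rw [mem_closedBall, Subtype.dist_eq, Real.dist_eq]
      linarith [abs_sub_le (θ : ℝ) c y, abs_sub_comm c (y : ℝ)]
  refine (Finset.sum_le_sum fun m _ => hball _).trans ?_
  rw [Finset.sum_const, nsmul_eq_mul, ← ENNReal.ofReal_natCast,
    ← ENNReal.ofReal_mul (Nat.cast_nonneg _), Real.mul_rpow (by norm_num) hε.le]
  refine ENNReal.ofReal_le_ofReal ?_
  nlinarith [mul_nonneg hC.le (mul_nonneg (Real.rpow_nonneg (by norm_num : (0 : ℝ) ≤ 4) s)
    (Real.rpow_nonneg hε.le s))]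

/-- `|cos| ^ (-t)` is uniformly integrable for a Frostman measure of exponent above `t`. -/
theorem exists_lintegral_planeProj_frostman {Θ : Set ℝ} (hΘ : IsCompact Θ) (ρ : Measure Θ)
    [IsProbabilityMeasure ρ] {t s C : ℝ} (ht : 0 < t) (hts : t < s) (hC : 0 < C)
    (h : ∀ (x : Θ) (r : ℝ), 0 < r → ρ (closedBall x r) ≤ ENNReal.ofReal (C * r ^ s)) :
    ∃ c : ℝ, 0 < c ∧ ∀ z : ℂ,
      ∫⁻ θ : Θ, (edist (planeProj θ z) 0)⁻¹ ^ t ∂ρ ≤ ENNReal.ofReal c * (edist z 0)⁻¹ ^ t := by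
  obtain ⟨D, hD, hDb⟩ := exists_measure_abs_cos_le hΘ ρ hC h
  have hq : (0 : ℝ) ≤ 2 ^ (t - s) := Real.rpow_nonneg zero_le_two _
  have hq1 : (2 : ℝ) ^ (t - s) < 1 := Real.rpow_lt_one_of_one_lt_of_neg one_lt_two (by linarith)
  have hsum : 0 ≤ 2 ^ t * D * (1 - (2 : ℝ) ^ (t - s))⁻¹ :=
    mul_nonneg (by positivity) (inv_nonneg.2 (by linarith))
  refine ⟨1 + 2 ^ t * D * (1 - 2 ^ (t - s))⁻¹, by linarith, fun z => ?_⟩
  rcases eq_or_ne z 0 with rfl | hz
  · rw [edist_self, ENNReal.inv_zero, ENNReal.top_rpow_of_pos ht,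
      ENNReal.mul_top (ENNReal.ofReal_pos.2 (by linarith)).ne']
    exact le_top
  simp only [inv_edist_planeProj_rpow ht.le hz]
  rw [lintegral_const_mul' _ _ (ENNReal.rpow_ne_top_of_nonneg ht.le
    (ENNReal.inv_ne_top.2 (edist_pos.2 hz).ne')), mul_comm]
  gcongr
  have hmeas : ∀ k : ℕ, MeasurableSet {θ : Θ | |Real.cos ((θ : ℝ) - z.arg)| ≤ (2 : ℝ)⁻¹ ^ k} :=
    fun k => measurableSet_le (by fun_prop) measurable_const
  refine (lintegral_mono (g := fun θ : Θ => 1 + ∑' k : ℕ,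
    {u : Θ | |Real.cos ((u : ℝ) - z.arg)| ≤ (2 : ℝ)⁻¹ ^ k}.indicator
      (fun _ => ENNReal.ofReal (((2 : ℝ) ^ t) ^ (k + 1))) θ) fun θ => ?_).trans ?_
  · refine (inv_edist_rpow_le ht _ _).trans (le_of_eq (congrArg (1 + ·) (tsum_congr fun k => ?_)))
    by_cases hc : |Real.cos ((θ : ℝ) - z.arg)| ≤ (2 : ℝ)⁻¹ ^ k
    · rw [Set.indicator_of_mem (by simpa using hc), Set.indicator_of_mem
        (show θ ∈ {u : Θ | |Real.cos ((u : ℝ) - z.arg)| ≤ (2 : ℝ)⁻¹ ^ k} from hc)]
    · rw [Set.indicator_of_notMem (by simpa using hc), Set.indicator_of_notMem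
        (show θ ∉ {u : Θ | |Real.cos ((u : ℝ) - z.arg)| ≤ (2 : ℝ)⁻¹ ^ k} from hc)]
  rw [lintegral_add_left measurable_const, lintegral_one, measure_univ,
    lintegral_tsum fun k => (measurable_const.indicator (hmeas k)).aemeasurable,
    ENNReal.ofReal_add zero_le_one hsum, ENNReal.ofReal_one]
  gcongr
  rw [← tsum_geometric_of_lt_one hq hq1, ← tsum_mul_left,
    ENNReal.ofReal_tsum_of_nonneg (fun k => by positivity)
      ((summable_geometric_of_lt_one hq hq1).mul_left _)]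
  refine ENNReal.tsum_le_tsum fun k => ?_
  rw [lintegral_indicator_const (hmeas k)]
  refine (mul_le_mul_right (hDb _ (Complex.arg_mem_Ioc z) _ (by positivity)) _).trans_eq ?_
  rw [← ENNReal.ofReal_mul (by positivity)]
  congr 1
  rw [Real.rpow_sub two_pos, div_pow, inv_pow, Real.inv_rpow (by positivity),
    ← Real.rpow_pow_comm zero_le_two s, pow_succ]
  field_simp

/-- Some angle of a large compact set keeps the dimension `t`. -/
theorem exists_le_dimH_planeProj {K : Set ℂ} (hK : IsCompact K) {Θ : Set ℝ} (hΘ : IsCompact Θ)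
    {t : ℝ≥0} (ht : 0 < t) (htK : (t : ℝ≥0∞) < dimH K) (htΘ : (t : ℝ≥0∞) < dimH Θ) :
    ∃ θ ∈ Θ, (t : ℝ≥0∞) ≤ dimH (planeProj θ '' K) := by
  have : CompactSpace K := isCompact_iff_compactSpace.1 hK
  have : CompactSpace Θ := isCompact_iff_compactSpace.1 hΘ
  obtain ⟨s, hts, hsd⟩ := exists_between (lt_min htK htΘ)
  lift s to ℝ≥0 using hsd.ne_top
  rw [lt_min_iff] at hsd
  have hts' : (t : ℝ) < s := by exact_mod_cast hts
  have hHK : μH[(s : ℝ)] (Set.univ : Set K) ≠ 0 := by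
    rw [← (isometry_subtype_coe : Isometry ((↑) : K → ℂ)).hausdorffMeasure_image
      (Or.inl (by positivity)), Subtype.coe_image_univ, hausdorffMeasure_of_lt_dimH hsd.1]
    exact ENNReal.top_ne_zero
  have hHΘ : μH[(s : ℝ)] (Set.univ : Set Θ) ≠ 0 := by
    rw [← (isometry_subtype_coe : Isometry ((↑) : Θ → ℝ)).hausdorffMeasure_image
      (Or.inl (by positivity)), Subtype.coe_image_univ, hausdorffMeasure_of_lt_dimH hsd.2]
    exact ENNReal.top_ne_zero
  have hs0 : (0 : ℝ) < s := (NNReal.coe_pos.2 ht).trans hts'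
  obtain ⟨μ, hμ, C, hC, hball⟩ := exists_frostman_measure hs0 hHK
  obtain ⟨ρ, hρ, C', hC', hball'⟩ := exists_frostman_measure hs0 hHΘ
  obtain ⟨c, hc, hcb⟩ := exists_lintegral_planeProj_frostman hΘ ρ (NNReal.coe_pos.2 ht) hts' hC'
    hball'
  have hm : Measurable fun p : (Θ × K) × K =>
      (edist (planeProj p.1.1 (p.1.2 : ℂ)) (planeProj p.1.1 (p.2 : ℂ)))⁻¹ ^ (t : ℝ) := by
    unfold planeProj
    exact (Continuous.measurable (by fun_prop)).inv.pow_const _
  set G : Θ → ℝ≥0∞ := fun θ =>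
    ∫⁻ x, ∫⁻ y, (edist (planeProj θ (x : ℂ)) (planeProj θ (y : ℂ)))⁻¹ ^ (t : ℝ) ∂μ ∂μ
  have hG : Measurable G := hm.lintegral_prod_right'.lintegral_prod_right'
  have hle : ∫⁻ θ, G θ ∂ρ ≤ ENNReal.ofReal c *
      (1 + ENNReal.ofReal ((2 : ℝ) ^ (t : ℝ) * C / (1 - 2 ^ ((t : ℝ) - s)))) := by
    rw [lintegral_lintegral_swap hm.lintegral_prod_right'.aemeasurable]
    refine (lintegral_mono fun x => ?_).trans_eq (by rw [lintegral_const, measure_univ, mul_one])
    have hx : AEMeasurable (Function.uncurry fun (θ : Θ) (y : K) =>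
        (edist (planeProj θ (x : ℂ)) (planeProj θ (y : ℂ)))⁻¹ ^ (t : ℝ)) (ρ.prod μ) :=
      (hm.comp ((measurable_fst.prodMk (measurable_const (a := x))).prodMk
        measurable_snd)).aemeasurable
    rw [lintegral_lintegral_swap hx]
    refine (lintegral_mono fun y => ?_).trans
      ((lintegral_const_mul' _ _ ENNReal.ofReal_ne_top).le.trans (mul_le_mul_right
        (lintegral_inv_edist_rpow_le μ (NNReal.coe_pos.2 ht) hts' hC hball x) _))
    have e : edist ((x : ℂ) - y) 0 = edist x y := by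
      rw [Subtype.edist_eq, edist_dist, edist_dist, dist_zero_right, dist_eq_norm]
    rw [← e]
    refine le_trans (le_of_eq (lintegral_congr fun θ => ?_)) (hcb _)
    congr 2
    rw [edist_dist, edist_dist, dist_zero_right, dist_eq_norm]
    congr 2
    simp only [planeProj, Complex.sub_re, Complex.sub_im]
    ring
  obtain ⟨θ, hθ⟩ := (ae_lt_top hG (ne_top_of_le_ne_top (ENNReal.mul_ne_top ENNReal.ofReal_ne_top
    (ENNReal.add_ne_top.2 ⟨ENNReal.one_ne_top, ENNReal.ofReal_ne_top⟩)) hle)).exists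
  exact ⟨θ, θ.2, le_dimH_planeProj_of_energy μ ht hθ⟩

/-- **Kaufman's theorem.** -/
theorem dimH_exceptional_le {K : Set ℂ} (hK : IsCompact K) {Θ : Set ℝ} (hΘ : IsCompact Θ) {t : ℝ≥0}
    (htK : (t : ℝ≥0∞) < dimH K) (h : ∀ θ ∈ Θ, dimH (planeProj θ '' K) < t) :
    dimH Θ ≤ t := by
  by_contra hlt
  rw [not_le] at hlt
  rcases eq_or_ne t 0 with rfl | ht
  · rcases Θ.eq_empty_or_nonempty with rfl | ⟨θ, hθ⟩
    · simp at hlt
    · exact absurd (h θ hθ) (by simp)
  obtain ⟨θ, hθ, hle⟩ := exists_le_dimH_planeProj hK hΘ (pos_iff_ne_zero.2 ht) htK hlt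
  exact absurd (h θ hθ) (not_lt.2 hle)

/-- **The product inequality.** -/
theorem dimH_add_le_prod {X Y : Type*} [MetricSpace X] [MetricSpace Y] {A : Set X} {B : Set Y}
    (hA : IsCompact A) (hB : IsCompact B) (hA0 : A.Nonempty) (hB0 : B.Nonempty) :
    dimH A + dimH B ≤ dimH (A ×ˢ B) := by
  have hfst : dimH A ≤ dimH (A ×ˢ B) := by
    have h := LipschitzWith.prod_fst.dimH_image_le (A ×ˢ B)
    rwa [Set.fst_image_prod A hB0] at h
  have hsnd : dimH B ≤ dimH (A ×ˢ B) := by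
    have h := LipschitzWith.prod_snd.dimH_image_le (A ×ˢ B)
    rwa [Set.snd_image_prod hA0 B] at h
  rcases eq_zero_or_pos (dimH A) with hA' | hA'
  · rw [hA', zero_add]; exact hsnd
  rcases eq_zero_or_pos (dimH B) with hB' | hB'
  · rw [hB', add_zero]; exact hfst
  refine le_of_forall_lt fun d hd => ?_
  obtain ⟨a', ha', b', hb', hd'⟩ := ENNReal.exists_lt_add_of_lt_add hd hA'.ne' hB'.ne'
  obtain ⟨a, ha1, ha2⟩ := exists_between (max_lt ha' hA')
  obtain ⟨b, hb1, hb2⟩ := exists_between (max_lt hb' hB')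
  lift a to ℝ≥0 using ha2.ne_top
  lift b to ℝ≥0 using hb2.ne_top
  rw [max_lt_iff] at ha1 hb1
  refine (hd'.trans_le (add_le_add ha1.1.le hb1.1.le)).trans_le ?_
  have hapos : (0 : ℝ) < a := by exact_mod_cast ha1.2
  have hbpos : (0 : ℝ) < b := by exact_mod_cast hb1.2
  borelize X Y
  have : CompactSpace A := isCompact_iff_compactSpace.1 hA
  have : CompactSpace B := isCompact_iff_compactSpace.1 hB
  have hHA : μH[(a : ℝ)] (Set.univ : Set A) ≠ 0 := by
    rw [← (isometry_subtype_coe : Isometry ((↑) : A → X)).hausdorffMeasure_image (Or.inl hapos.le),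
      Subtype.coe_image_univ, hausdorffMeasure_of_lt_dimH ha2]
    exact ENNReal.top_ne_zero
  have hHB : μH[(b : ℝ)] (Set.univ : Set B) ≠ 0 := by
    rw [← (isometry_subtype_coe : Isometry ((↑) : B → Y)).hausdorffMeasure_image (Or.inl hbpos.le),
      Subtype.coe_image_univ, hausdorffMeasure_of_lt_dimH hb2]
    exact ENNReal.top_ne_zero
  obtain ⟨μ, hμ, C, hC, hball⟩ := exists_frostman_measure hapos hHA
  obtain ⟨ν, hν, C', hC', hball'⟩ := exists_frostman_measure hbpos hHB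
  let : MeasurableSpace (X × Y) := borel (X × Y)
  have : BorelSpace (X × Y) := ⟨rfl⟩
  rw [← ENNReal.coe_add]
  refine le_dimH_of_hausdorffMeasure_ne_zero (SelfSimilar.hausdorffMeasure_ne_zero_of_mass
    (μ.prod ν) (fun p : A × B => ((p.1 : X), (p.2 : Y))) (C := C * C')
    (by push_cast; linarith) (mul_pos hC hC') (by simp) (fun p => ⟨p.1.2, p.2.2⟩)
    fun T δ hδ _ hT => ?_)
  rcases ((fun p : A × B => ((p.1 : X), (p.2 : Y))) ⁻¹' T).eq_empty_or_nonempty with h0 | ⟨p, hp⟩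
  · simp [h0]
  refine (measure_mono (t := closedBall p.1 δ ×ˢ closedBall p.2 δ) fun q hq => ?_).trans ?_
  · have := hT _ hq _ hp
    rw [Prod.dist_eq, max_le_iff] at this
    exact ⟨mem_closedBall.2 this.1, mem_closedBall.2 this.2⟩
  rw [Measure.prod_prod]
  refine (mul_le_mul' (hball _ δ hδ) (hball' _ δ hδ)).trans_eq ?_
  rw [← ENNReal.ofReal_mul (by positivity), NNReal.coe_add, Real.rpow_add hδ]
  ring_nf

end FA.Frostman

end
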