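import Mathlib.Analysis.Convex.Cone.Extension
import Mathlib.MeasureTheory.Covering.Vitali
import Mathlib.MeasureTheory.Integral.RieszMarkovKakutani.Real
import Mathlib.MeasureTheory.Measure.Hausdorff
import Mathlib.Topology.UrysohnsLemma

/-!
# Frostman's lemma

A compact space of positive `s`-dimensional Hausdorff measure carries a nonzero measure with
`μ (closedBall x r) ≤ C r ^ s`. A weighted covering by balls costs as much as a covering: a
covering of multiplicity `m` contains, by Vitali, `m` coverings by enlarged balls. So the least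
cost of a weighted covering is a sublinear functional positive at `1`, and the theorem of Hahn and
Banach with that of Riesz, Markov and Kakutani gives the measure.
-/

set_option autoImplicit false

noncomputable section

open MeasureTheory Filter Topology Metric
open scoped ENNReal NNReal BigOperators CompactlySupported

namespace FA.Frostman

/-- A covering of total cost below every positive number makes the Hausdorff measure vanish. -/
theorem exists_pos_le_sum_rpow {X : Type*} [MetricSpace X] [MeasurableSpace X] [BorelSpace X]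
    {s : ℝ} (hs : 0 < s) (h : μH[s] (Set.univ : Set X) ≠ 0) :
    ∃ δ : ℝ, 0 < δ ∧ ∀ (N : ℕ) (x : Fin N → X) (r : Fin N → ℝ), (∀ i, 0 ≤ r i) →
      (∀ y, ∃ i, y ∈ closedBall (x i) (4 * r i)) → δ ≤ ∑ i, r i ^ s := by
  by_contra hcon
  push Not at hcon
  choose N x r hr hcov hlt using fun k : ℕ => hcon (1 / ((k : ℝ) + 1)) (by positivity)
  refine h (le_antisymm ?_ zero_le)
  have hε : Tendsto (fun k : ℕ => 1 / ((k : ℝ) + 1)) atTop (𝓝 0) :=
    tendsto_one_div_add_atTop_nhds_zero_nat
  have hrad : ∀ k i, r k i ≤ (1 / ((k : ℝ) + 1)) ^ s⁻¹ := fun k i => by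
    rw [← Real.rpow_rpow_inv (hr k i) hs.ne']
    refine Real.rpow_le_rpow (Real.rpow_nonneg (hr k i) s) ?_ (by positivity)
    exact (Finset.single_le_sum (f := fun i => r k i ^ s) (fun i _ => Real.rpow_nonneg (hr k i) s)
      (Finset.mem_univ i)).trans (hlt k).le
  have hd : ∀ k i, ediam (closedBall (x k i) (4 * r k i)) ≤ ENNReal.ofReal (8 * r k i) :=
    fun k i => by
    refine ediam_le fun y hy z hz => ?_
    rw [edist_dist]
    refine ENNReal.ofReal_le_ofReal ?_
    linarith [dist_triangle_right y z (x k i), mem_closedBall.1 hy, mem_closedBall.1 hz]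
  refine (Measure.hausdorffMeasure_le_liminf_sum s Set.univ (l := atTop)
    (fun k : ℕ => ENNReal.ofReal (8 * (1 / ((k : ℝ) + 1)) ^ s⁻¹)) ?_
    (fun k i => closedBall (x k i) (4 * r k i)) (Eventually.of_forall fun k i => ?_)
    (Eventually.of_forall fun k y _ => Set.mem_iUnion.2 (hcov k y))).trans ?_
  · rw [← ENNReal.ofReal_zero]
    refine ENNReal.tendsto_ofReal ?_
    simpa [Real.zero_rpow (inv_ne_zero hs.ne')] using
      ((Real.continuousAt_rpow_const 0 s⁻¹ (Or.inr (by positivity))).tendsto.comp hε).const_mul 8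
  · exact (hd k i).trans (ENNReal.ofReal_le_ofReal (by linarith [hrad k i]))
  · have hlim : Tendsto (fun k : ℕ => ENNReal.ofReal ((8 : ℝ) ^ s * (1 / ((k : ℝ) + 1)))) atTop
        (𝓝 0) := by
      rw [← ENNReal.ofReal_zero]
      exact ENNReal.tendsto_ofReal (by simpa using hε.const_mul ((8 : ℝ) ^ s))
    refine (liminf_le_liminf (Eventually.of_forall fun k => ?_)).trans_eq hlim.liminf_eq
    refine (Finset.sum_le_sum fun i _ => ENNReal.rpow_le_rpow (hd k i) hs.le).trans ?_
    simp only [ENNReal.ofReal_rpow_of_nonneg (mul_nonneg (by norm_num : (0 : ℝ) ≤ 8)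
      (hr k _)) hs.le]
    rw [← ENNReal.ofReal_sum_of_nonneg fun i _ => Real.rpow_nonneg (by linarith [hr k i]) s]
    refine ENNReal.ofReal_le_ofReal ?_
    simp only [Real.mul_rpow (by norm_num : (0 : ℝ) ≤ 8) (hr k _), ← Finset.mul_sum]
    exact mul_le_mul_of_nonneg_left (hlt k).le (Real.rpow_nonneg (by norm_num) s)

/-- **Multiple coverings.** -/
theorem mul_le_sum_of_multiplicity {X : Type*} [MetricSpace X] {s δ : ℝ}
    (hδ : ∀ (N : ℕ) (x : Fin N → X) (r : Fin N → ℝ), (∀ i, 0 ≤ r i) →
      (∀ y, ∃ i, y ∈ closedBall (x i) (4 * r i)) → δ ≤ ∑ i, r i ^ s)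
    {N : ℕ} (x : Fin N → X) (r : Fin N → ℝ) (hr : ∀ i, 0 ≤ r i) :
    ∀ (m : ℕ) (n : Fin N → ℕ),
      (∀ y, m ≤ ∑ i, (closedBall (x i) (r i)).indicator (fun _ => n i) y) →
      (m : ℝ) * δ ≤ ∑ i, (n i : ℝ) * r i ^ s := by
  classical
  intro m
  induction m with
  | zero =>
    intro n _
    simpa using Finset.sum_nonneg fun i _ =>
      mul_nonneg (Nat.cast_nonneg (α := ℝ) (n i)) (Real.rpow_nonneg (hr i) s)
  | succ m ih =>
    intro n hn
    obtain ⟨u, hut, hdisj, hcov⟩ := Vitali.exists_disjoint_subfamily_covering_enlargement_closedBall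
      {i : Fin N | 0 < n i} x r (∑ i, r i)
      (fun i _ => Finset.single_le_sum (fun j _ => hr j) (Finset.mem_univ i)) 4 (by norm_num)
    set U := Finset.univ.filter (· ∈ u) with hU
    have hUmem : ∀ i, i ∈ U ↔ i ∈ u := fun i => by simp [hU]
    have hcost : δ ≤ ∑ i ∈ U, r i ^ s := by
      have := hδ U.card (fun j => x (U.equivFin.symm j)) (fun j => r (U.equivFin.symm j))
        (fun j => hr _) fun y => ?_
      · rwa [← U.equivFin.sum_comp (fun j => r (U.equivFin.symm j) ^ s),
          Finset.sum_congr rfl fun i _ => by rw [Equiv.symm_apply_apply],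
          Finset.sum_coe_sort U fun i => r i ^ s] at this
      · obtain ⟨i, -, hi⟩ := Finset.exists_ne_zero_of_sum_ne_zero (f := fun i =>
          (closedBall (x i) (r i)).indicator (fun _ => n i) y) (s := Finset.univ)
          (by have := hn y; omega)
        have hiy : y ∈ closedBall (x i) (r i) := Set.mem_of_indicator_ne_zero hi
        rw [Set.indicator_of_mem hiy] at hi
        obtain ⟨j, hju, hsub⟩ := hcov i (Nat.pos_of_ne_zero hi)
        exact ⟨U.equivFin ⟨j, (hUmem j).2 hju⟩, by simpa using hsub hiy⟩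
    have hn1 : ∀ i ∈ U, 1 ≤ n i := fun i hi => hut ((hUmem i).1 hi)
    have hsplit : ∀ i, n i = (n i - if i ∈ U then 1 else 0) + if i ∈ U then 1 else 0 := fun i => by
      split_ifs with hi
      · have := hn1 i hi; omega
      · simp
    have hn' : ∀ y,
        m ≤ ∑ i, (closedBall (x i) (r i)).indicator (fun _ => n i - if i ∈ U then 1 else 0) y :=
      fun y => by
      have h1 : ∑ i, (closedBall (x i) (r i)).indicator (fun _ => n i) y =
          ∑ i, (closedBall (x i) (r i)).indicator (fun _ => n i - if i ∈ U then 1 else 0) y +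
          (U.filter fun i => y ∈ closedBall (x i) (r i)).card := by
        rw [Finset.card_filter, ← Finset.sum_filter_add_sum_filter_not Finset.univ (· ∈ U)
          (fun i => (closedBall (x i) (r i)).indicator (fun _ => n i) y),
          ← Finset.sum_filter_add_sum_filter_not Finset.univ (· ∈ U)
          (fun i => (closedBall (x i) (r i)).indicator
            (fun _ => n i - if i ∈ U then 1 else 0) y),
          Finset.filter_univ_mem, add_right_comm, ← Finset.sum_add_distrib]
        congr 1
        · refine Finset.sum_congr rfl fun i hi => ?_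
          by_cases hy : y ∈ closedBall (x i) (r i)
          · simp only [Set.indicator_of_mem hy, if_pos hi, if_pos hy]
            have := hn1 i hi
            omega
          · simp [hy]
        · refine Finset.sum_congr rfl fun i hi => ?_
          simp [(Finset.mem_filter.1 hi).2]
      have h2 : (U.filter fun i => y ∈ closedBall (x i) (r i)).card ≤ 1 :=
        Finset.card_le_one.2 fun i hi j hj => by
          rw [Finset.mem_filter] at hi hj
          by_contra hij
          exact Set.disjoint_left.1 (hdisj ((hUmem i).1 hi.1) ((hUmem j).1 hj.1) hij) hi.2 hj.2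
      have := hn y
      omega
    have := ih _ hn'
    have e : ∑ i, (n i : ℝ) * r i ^ s =
        ∑ i, ((n i - if i ∈ U then 1 else 0 : ℕ) : ℝ) * r i ^ s + ∑ i ∈ U, r i ^ s := by
      rw [← Finset.filter_univ_mem U, Finset.sum_filter, ← Finset.sum_add_distrib]
      refine Finset.sum_congr rfl fun i _ => ?_
      rw [Finset.filter_univ_mem]
      conv_lhs => rw [hsplit i]
      split_ifs with hi <;> simp [add_mul]
    rw [e]
    push_cast
    linarith

/-- The costs of the weighted coverings of a function by balls. -/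
def coverCosts {X : Type*} [MetricSpace X] (s : ℝ) (f : X → ℝ) : Set ℝ :=
  {A | ∃ (N : ℕ) (c : Fin N → ℝ) (x : Fin N → X) (r : Fin N → ℝ), (∀ i, 0 ≤ c i) ∧
    (∀ i, 0 < r i) ∧ (∀ y, f y ≤ ∑ i, (closedBall (x i) (r i)).indicator (fun _ => c i) y) ∧
    A = ∑ i, c i * r i ^ s}

theorem nonneg_of_mem_coverCosts {X : Type*} [MetricSpace X] {s : ℝ} {f : X → ℝ} {A : ℝ}
    (h : A ∈ coverCosts s f) : 0 ≤ A := by
  obtain ⟨N, c, x, r, hc, hr, -, rfl⟩ := h
  exact Finset.sum_nonneg fun i _ => mul_nonneg (hc i) (Real.rpow_nonneg (hr i).le s)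

/-- The least cost of a weighted covering. -/
def leastCost {X : Type*} [MetricSpace X] (s : ℝ) (f : X → ℝ) : ℝ := sInf (coverCosts s f)

theorem leastCost_le {X : Type*} [MetricSpace X] {s : ℝ} {f : X → ℝ} {A : ℝ}
    (h : A ∈ coverCosts s f) : leastCost s f ≤ A :=
  csInf_le ⟨0, fun _ => nonneg_of_mem_coverCosts⟩ h

theorem coverCosts_nonempty {X : Type*} [MetricSpace X] [CompactSpace X] [Nonempty X] (s : ℝ)
    (f : C(X, ℝ)) : (coverCosts s f).Nonempty := by
  refine ⟨_, 1, fun _ => ‖f‖, fun _ => Classical.arbitrary X,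
    fun _ => Metric.diam (Set.univ : Set X) + 1, fun _ => norm_nonneg f,
    fun _ => by linarith [Metric.diam_nonneg (s := (Set.univ : Set X))], fun y => ?_, rfl⟩
  rw [Fin.sum_univ_one, Set.indicator_of_mem (mem_closedBall.2 ((dist_le_diam_of_mem
    isCompact_univ.isBounded (Set.mem_univ y) (Set.mem_univ _)).trans (le_add_of_nonneg_right
    zero_le_one)))]
  exact (le_abs_self _).trans (f.norm_coe_le_norm y)

theorem leastCost_nonneg {X : Type*} [MetricSpace X] (s : ℝ) (f : X → ℝ) : 0 ≤ leastCost s f :=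
  Real.sInf_nonneg fun _ => nonneg_of_mem_coverCosts

/-- **Frostman's lemma.** -/
theorem exists_frostman_measure {X : Type*} [MetricSpace X] [CompactSpace X] [MeasurableSpace X]
    [BorelSpace X] {s : ℝ} (hs : 0 < s) (h : μH[s] (Set.univ : Set X) ≠ 0) :
    ∃ μ : Measure X, IsProbabilityMeasure μ ∧ ∃ C : ℝ, 0 < C ∧
      ∀ (x : X) (r : ℝ), 0 < r → μ (closedBall x r) ≤ ENNReal.ofReal (C * r ^ s) := by
  have : Nonempty X := by
    by_contra hX
    rw [not_nonempty_iff] at hX
    exact h (by rw [Set.univ_eq_empty_iff.2 hX, measure_empty])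
  obtain ⟨δ, hδ0, hδ⟩ := exists_pos_le_sum_rpow hs h
  set p : C(X, ℝ) → ℝ := fun f => leastCost s f with hp
  have hp1 : δ ≤ p 1 := by
    refine le_csInf (coverCosts_nonempty s 1) fun A hA => ?_
    obtain ⟨N, c, x, r, hc, hr, hcov, rfl⟩ := hA
    set B := ∑ i, r i ^ s
    have hB : 0 ≤ B := Finset.sum_nonneg fun i _ => Real.rpow_nonneg (hr i).le s
    have key : ∀ m : ℕ, (m : ℝ) * δ ≤ m * ∑ i, c i * r i ^ s + B := fun m => by
      refine (mul_le_sum_of_multiplicity hδ x r (fun i => (hr i).le) m
        (fun i => ⌈(m : ℝ) * c i⌉₊) fun y => ?_).trans ?_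
      · have hy : (1 : ℝ) ≤ ∑ i, (closedBall (x i) (r i)).indicator (fun _ => c i) y := hcov y
        rw [← Nat.cast_le (α := ℝ), Nat.cast_sum]
        calc (m : ℝ) = m * 1 := (mul_one _).symm
          _ ≤ m * ∑ i, (closedBall (x i) (r i)).indicator (fun _ => c i) y := by gcongr
          _ ≤ _ := by
            rw [Finset.mul_sum]
            refine Finset.sum_le_sum fun i _ => ?_
            by_cases hy' : y ∈ closedBall (x i) (r i)
            · rw [Set.indicator_of_mem hy', Set.indicator_of_mem hy']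
              exact Nat.le_ceil _
            · simp [hy']
      · rw [Finset.mul_sum, ← Finset.sum_add_distrib]
        refine Finset.sum_le_sum fun i _ => ?_
        have := Nat.ceil_lt_add_one (mul_nonneg (Nat.cast_nonneg (α := ℝ) m) (hc i))
        nlinarith [Real.rpow_nonneg (hr i).le s]
    by_contra hlt
    rw [not_le] at hlt
    obtain ⟨m, hm⟩ := exists_nat_gt (B / (δ - ∑ i, c i * r i ^ s))
    rw [div_lt_iff₀ (by linarith)] at hm
    linarith [key m]
  have hsmul : ∀ c : ℝ, 0 < c → ∀ f, p (c • f) ≤ c * p f := fun c hc f => by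
    rw [← div_le_iff₀' hc]
    refine le_csInf (coverCosts_nonempty s f) fun A hA => ?_
    obtain ⟨N, w, x, r, hw, hr, hcov, rfl⟩ := hA
    rw [div_le_iff₀' hc, Finset.mul_sum]
    refine leastCost_le ⟨N, fun i => c * w i, x, r, fun i => mul_nonneg hc.le (hw i), hr,
      fun y => ?_, Finset.sum_congr rfl fun i _ => (mul_assoc _ _ _).symm⟩
    calc (c • f) y = c * f y := rfl
      _ ≤ c * ∑ i, (closedBall (x i) (r i)).indicator (fun _ => w i) y := by
          gcongr
          exact hcov y
      _ = _ := by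
          rw [Finset.mul_sum]
          refine Finset.sum_congr rfl fun i _ => ?_
          by_cases hy : y ∈ closedBall (x i) (r i) <;> simp [hy]
  have N_hom : ∀ c : ℝ, 0 < c → ∀ f, p (c • f) = c * p f := fun c hc f => by
    refine le_antisymm (hsmul c hc f) ?_
    have := hsmul c⁻¹ (inv_pos.2 hc) (c • f)
    rw [inv_smul_smul₀ hc.ne', le_inv_mul_iff₀ hc] at this
    exact this
  have N_add : ∀ f g, p (f + g) ≤ p f + p g := fun f g => by
    rw [← sub_le_iff_le_add]
    refine le_csInf (coverCosts_nonempty s f) fun A hA => ?_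
    rw [sub_le_comm]
    refine le_csInf (coverCosts_nonempty s g) fun A' hA' => ?_
    rw [sub_le_iff_le_add']
    obtain ⟨N, w, x, r, hw, hr, hcov, rfl⟩ := hA
    obtain ⟨N', w', x', r', hw', hr', hcov', rfl⟩ := hA'
    refine leastCost_le ⟨N + N', Fin.append w w', Fin.append x x', Fin.append r r', ?_, ?_,
      fun y => ?_, ?_⟩
    · exact Fin.addCases (fun i => by simp [hw i]) fun i => by simp [hw' i]
    · exact Fin.addCases (fun i => by simp [hr i]) fun i => by simp [hr' i]
    · rw [Fin.sum_univ_add]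
      simp only [Fin.append_left, Fin.append_right]
      exact add_le_add (hcov y) (hcov' y)
    · rw [Fin.sum_univ_add]
      simp only [Fin.append_left, Fin.append_right]
  have hone : (1 : C(X, ℝ)) ≠ 0 := fun e => one_ne_zero (α := ℝ)
    (DFunLike.congr_fun e (Classical.arbitrary X))
  obtain ⟨g, hg1, hg⟩ := exists_extension_of_le_sublinear
    (LinearPMap.mkSpanSingleton (1 : C(X, ℝ)) (p 1) hone) p N_hom N_add (by
      rintro ⟨f, hf⟩
      obtain ⟨c, rfl⟩ := Submodule.mem_span_singleton.1 hf
      rw [show (LinearPMap.mkSpanSingleton (1 : C(X, ℝ)) (p 1) hone) ⟨c • 1, hf⟩ = c * p 1 from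
        LinearPMap.mkSpanSingleton'_apply _ _ _ c hf]
      rcases lt_or_ge 0 c with hc | hc
      · exact (N_hom c hc 1).ge
      · exact (mul_nonpos_of_nonpos_of_nonneg hc (hδ0.le.trans hp1)).trans (leastCost_nonneg s _))
  have hg1' : g 1 = p 1 :=
    (hg1 ⟨1, Submodule.mem_span_singleton_self _⟩).trans (LinearPMap.mkSpanSingleton_apply ℝ ℝ _ _)
  have hgpos : ∀ f : C(X, ℝ), 0 ≤ f → 0 ≤ g f := fun f hf => by
    have h0 : p (-f) ≤ 0 := leastCost_le ⟨0, Fin.elim0, Fin.elim0, Fin.elim0,
      fun i => i.elim0, fun i => i.elim0, fun y => by simpa using hf y, by simp⟩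
    have := (hg (-f)).trans h0
    rw [map_neg] at this
    linarith
  set Λ : C_c(X, ℝ) →ₚ[ℝ] ℝ := PositiveLinearMap.mk₀
    { toFun := fun f => g f.toContinuousMap
      map_add' := fun f₁ f₂ => by rw [← map_add]; rfl
      map_smul' := fun c f => by rw [RingHom.id_apply, ← map_smul]; rfl }
    (fun f hf => hgpos _ hf) with hΛ
  set μ := RealRMK.rieszMeasure Λ with hμ
  have : IsFiniteMeasure μ := ⟨isCompact_univ.measure_lt_top⟩
  have hle : ∀ (x : X) (r : ℝ), 0 < r → μ.real (closedBall x r) ≤ (2 * r) ^ s := fun x r hr => by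
    obtain ⟨f, hf1, hf0, hfc, hf01⟩ := exists_continuous_one_zero_of_isCompact
      (isClosed_closedBall.isCompact (s := closedBall x r)) (t := (ball x (2 * r))ᶜ)
      isOpen_ball.isClosed_compl (Set.disjoint_left.2 fun y hy hy' => hy'
        (closedBall_subset_ball (by linarith) hy))
    have hint := RealRMK.integral_rieszMeasure Λ ⟨f, hfc⟩
    have hgf : g f ≤ (2 * r) ^ s := by
      refine (hg f).trans (leastCost_le ⟨1, fun _ => 1, fun _ => x, fun _ => 2 * r,
        fun _ => zero_le_one, fun _ => by linarith, fun y => ?_, by simp⟩)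
      rw [Fin.sum_univ_one]
      by_cases hy : y ∈ closedBall x (2 * r)
      · rw [Set.indicator_of_mem hy]
        exact (hf01 y).2
      · rw [Set.indicator_of_notMem hy]
        exact le_of_eq (hf0 fun hy' => hy (ball_subset_closedBall hy'))
    refine le_trans ?_ ((show ∫ y, f y ∂μ = g f from hint).trans_le hgf)
    rw [← integral_indicator_one isClosed_closedBall.measurableSet]
    refine integral_mono ((integrable_const 1).indicator isClosed_closedBall.measurableSet)
      (f.continuous.integrable_of_hasCompactSupport hfc) fun y => ?_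
    by_cases hy : y ∈ closedBall x r
    · rw [Set.indicator_of_mem hy, Pi.one_apply, hf1 hy, Pi.one_apply]
    · rw [Set.indicator_of_notMem hy]
      exact (hf01 y).1
  have htot : μ.real Set.univ = p 1 := by
    have hint := RealRMK.integral_rieszMeasure Λ ⟨1, HasCompactSupport.of_compactSpace _⟩
    rw [← hg1']
    refine Eq.trans ?_ hint
    simp [μ]
  have hm : 0 < μ.real Set.univ := htot ▸ hδ0.trans_le hp1
  have : NeZero μ := ⟨fun e => by simp [e] at hm⟩
  refine ⟨(μ Set.univ)⁻¹ • μ, isProbabilityMeasureSMul, (μ.real Set.univ)⁻¹ * 2 ^ s,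
    mul_pos (inv_pos.2 hm) (Real.rpow_pos_of_pos two_pos s), fun x r hr => ?_⟩
  rw [Measure.smul_apply, smul_eq_mul, mul_assoc, ENNReal.ofReal_mul (inv_nonneg.2 hm.le),
    ENNReal.ofReal_inv_of_pos hm, ofReal_measureReal, ← Real.mul_rpow zero_le_two hr.le]
  gcongr
  rw [← ofReal_measureReal]
  exact ENNReal.ofReal_le_ofReal (hle x r hr)

end FA.Frostman

end
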