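import Fermat.Agent.BernoulliConvolution.Criterion
import Fermat.Agent.Frostman.Main
import Mathlib.Analysis.SpecialFunctions.Complex.Arg
import Mathlib.Analysis.SpecialFunctions.Trigonometric.Bounds
import Mathlib.MeasureTheory.Measure.Lebesgue.Complex
import Mathlib.Topology.MetricSpace.HausdorffDimension

/-!
# Marstrand's projection theorem

A compact plane set of dimension above `1` projects to a set of positive length in almost every
direction (Marstrand 1954). A Frostman measure of exponent `s > 1` has finite energy of order `1`,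
and two points are within `r` after projection for a set of directions of measure `O(r / d)`, so
almost every projected measure is absolutely continuous.
-/

set_option autoImplicit false

noncomputable section

open MeasureTheory Filter Topology Metric
open scoped ENNReal NNReal Real

namespace FA.Frostman

/-- The projection on the direction `θ`. -/
def planeProj (θ : ℝ) (z : ℂ) : ℝ := z.re * Real.cos θ + z.im * Real.sin θ

theorem planeProj_eq (θ : ℝ) (z : ℂ) : planeProj θ z = ‖z‖ * Real.cos (θ - z.arg) := by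
  rw [planeProj, Real.cos_sub]
  linear_combination (-Real.cos θ) * Complex.norm_mul_cos_arg z -
    Real.sin θ * Complex.norm_mul_sin_arg z

theorem continuous_planeProj (θ : ℝ) : Continuous (planeProj θ) := by
  unfold planeProj; fun_prop

theorem abs_sub_le_of_abs_cos_le {m : ℤ} {t ε : ℝ} (ht : |t - (m * π + π / 2)| ≤ π / 2)
    (hc : |Real.cos t| ≤ ε) : |t - (m * π + π / 2)| ≤ π / 2 * ε := by
  have h := Real.mul_abs_le_abs_sin ht
  have e : |Real.sin (t - (m * π + π / 2))| = |Real.cos t| := by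
    rw [show t - (m * π + π / 2) = t - m * π - π / 2 by ring, Real.sin_sub_pi_div_two, abs_neg,
      Real.cos_sub_int_mul_pi, abs_mul, abs_zpow, abs_neg, abs_one, one_zpow, one_mul]
  rw [e] at h
  calc |t - (m * π + π / 2)| = π / 2 * (2 / π * |t - (m * π + π / 2)|) := by field_simp
    _ ≤ π / 2 * ε := by gcongr; exact h.trans hc

theorem volume_abs_cos_le (c ε : ℝ) :
    volume {t ∈ Set.Icc c (c + π) | |Real.cos t| ≤ ε} ≤ ENNReal.ofReal (2 * π * ε) := by
  rcases lt_or_ge ε 0 with hε | hε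
  · rw [show {t ∈ Set.Icc c (c + π) | |Real.cos t| ≤ ε} = ∅ from
      Set.eq_empty_of_forall_notMem fun t ht => by linarith [abs_nonneg (Real.cos t), ht.2]]
    simp
  have hπ := Real.pi_pos
  set n := ⌊c / π⌋ with hn
  have hn1 : (n : ℝ) * π ≤ c := (le_div_iff₀ hπ).1 (Int.floor_le _)
  have hn2 : c < ((n : ℝ) + 1) * π := (div_lt_iff₀ hπ).1 (Int.lt_floor_add_one _)
  have near := fun (m : ℤ) (t : ℝ) => abs_sub_le_of_abs_cos_le (m := m) (t := t) (ε := ε)
  refine (measure_mono (t := Set.Icc ((n : ℝ) * π + π / 2 - π / 2 * ε) (n * π + π / 2 + π / 2 * ε) ∪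
    Set.Icc (((n + 1 : ℤ) : ℝ) * π + π / 2 - π / 2 * ε) ((n + 1 : ℤ) * π + π / 2 + π / 2 * ε))
    fun t ht => ?_).trans ((measure_union_le _ _).trans_eq ?_)
  · obtain ⟨⟨h1, h2⟩, h3⟩ := ht
    rcases le_total t (((n : ℝ) + 1) * π) with h | h
    · have := abs_le.1 (near n t (abs_le.2 ⟨by linarith, by linarith⟩) h3)
      exact Or.inl ⟨by linarith [this.1], by linarith [this.2]⟩
    · have := abs_le.1
        (near (n + 1) t (abs_le.2 ⟨by push_cast; linarith, by push_cast; linarith⟩) h3)
      exact Or.inr ⟨by linarith [this.1], by linarith [this.2]⟩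
  · rw [Real.volume_Icc, Real.volume_Icc, ← ENNReal.ofReal_add (by linarith [mul_nonneg hπ.le hε])
      (by linarith [mul_nonneg hπ.le hε])]
    congr 1
    ring

theorem volume_planeProj_le {r : ℝ} (hr : 0 < r) (a : ℝ) (z : ℂ) :
    volume {θ ∈ Set.Icc a (a + π) | |planeProj θ z| ≤ r} ≤
      ENNReal.ofReal (2 * π * r) * (edist z 0)⁻¹ := by
  rcases eq_or_ne z 0 with rfl | hz
  · rw [edist_self, ENNReal.inv_zero, ENNReal.mul_top (ENNReal.ofReal_pos.2 (by positivity)).ne']
    exact le_top
  have hz0 : 0 < ‖z‖ := norm_pos_iff.2 hz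
  rw [edist_dist, dist_zero_right, ← ENNReal.ofReal_inv_of_pos hz0,
    ← ENNReal.ofReal_mul (by positivity)]
  refine le_trans ?_ ((volume_abs_cos_le (a - z.arg) (r / ‖z‖)).trans_eq (by congr 1; ring))
  rw [← measure_preimage_add_right volume (-z.arg)
    {t ∈ Set.Icc (a - z.arg) (a - z.arg + π) | |Real.cos t| ≤ r / ‖z‖}]
  refine measure_mono fun θ hθ => ?_
  obtain ⟨⟨h1, h2⟩, h3⟩ := hθ
  rw [planeProj_eq, abs_mul, abs_norm] at h3
  refine ⟨⟨by linarith, by linarith⟩, ?_⟩
  rw [le_div_iff₀' hz0]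
  simpa only [← sub_eq_add_neg] using h3

theorem inv_edist_rpow_le {X : Type*} [MetricSpace X] {t : ℝ} (ht : 0 < t) (x y : X) :
    (edist x y)⁻¹ ^ t ≤ 1 + ∑' k : ℕ, (closedBall x ((2 : ℝ)⁻¹ ^ k)).indicator
      (fun _ => ENNReal.ofReal (((2 : ℝ) ^ t) ^ (k + 1))) y := by
  rcases eq_or_ne x y with rfl | hxy
  · refine le_top.trans_eq ?_
    rw [eq_comm, ENNReal.add_eq_top]
    refine Or.inr (top_le_iff.1 ?_)
    rw [← ENNReal.tsum_const_eq_top_of_ne_zero (α := ℕ) one_ne_zero]
    refine ENNReal.tsum_le_tsum fun k => ?_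
    rw [Set.indicator_of_mem (mem_closedBall_self (by positivity))]
    exact ENNReal.one_le_ofReal.2 (one_le_pow₀ (Real.one_le_rpow one_le_two ht.le))
  have hd : 0 < dist x y := dist_pos.2 hxy
  rw [edist_dist, ← ENNReal.ofReal_inv_of_pos hd,
    ENNReal.ofReal_rpow_of_nonneg (inv_nonneg.2 hd.le) ht.le]
  rcases lt_or_ge 1 (dist x y) with h1 | h1
  · exact (ENNReal.ofReal_le_one.2 (Real.rpow_le_one (inv_nonneg.2 hd.le)
      (inv_le_one_of_one_le₀ h1.le) ht.le)).trans le_self_add
  obtain ⟨k, hk1, hk2⟩ := exists_nat_pow_near_of_lt_one hd h1 (by norm_num : (0 : ℝ) < 2⁻¹)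
    (by norm_num : (2 : ℝ)⁻¹ < 1)
  refine le_trans ?_ ((ENNReal.le_tsum k).trans le_add_self)
  rw [Set.indicator_of_mem (mem_closedBall.2 (dist_comm x y ▸ hk2))]
  refine ENNReal.ofReal_le_ofReal ?_
  rw [Real.rpow_pow_comm zero_le_two]
  refine Real.rpow_le_rpow (inv_nonneg.2 hd.le) (inv_le_of_inv_le₀ (by positivity) ?_) ht.le
  rw [← inv_pow]
  exact hk1.le

theorem lintegral_inv_edist_rpow_le {X : Type*} [MetricSpace X] [MeasurableSpace X] [BorelSpace X]
    (μ : Measure X) [IsProbabilityMeasure μ] {t s C : ℝ} (ht : 0 < t) (hts : t < s) (hC : 0 < C)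
    (h : ∀ (x : X) (r : ℝ), 0 < r → μ (closedBall x r) ≤ ENNReal.ofReal (C * r ^ s)) (x : X) :
    ∫⁻ y, (edist x y)⁻¹ ^ t ∂μ ≤
      1 + ENNReal.ofReal ((2 : ℝ) ^ t * C / (1 - 2 ^ (t - s))) := by
  refine (lintegral_mono (inv_edist_rpow_le ht x)).trans ?_
  rw [lintegral_add_left measurable_const, lintegral_one, measure_univ]
  gcongr
  rw [lintegral_tsum fun k =>
    (measurable_const.indicator isClosed_closedBall.measurableSet).aemeasurable]
  have hq : (0 : ℝ) ≤ 2 ^ (t - s) := Real.rpow_nonneg zero_le_two _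
  have hq1 : (2 : ℝ) ^ (t - s) < 1 := Real.rpow_lt_one_of_one_lt_of_neg one_lt_two (by linarith)
  rw [div_eq_mul_inv, ← tsum_geometric_of_lt_one hq hq1, ← tsum_mul_left,
    ENNReal.ofReal_tsum_of_nonneg (fun k => by positivity)
      ((summable_geometric_of_lt_one hq hq1).mul_left _)]
  refine ENNReal.tsum_le_tsum fun k => ?_
  rw [lintegral_indicator_const isClosed_closedBall.measurableSet]
  refine (mul_le_mul_right (h x _ (by positivity)) _).trans_eq ?_
  rw [← ENNReal.ofReal_mul (by positivity)]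
  congr 1
  rw [Real.rpow_sub two_pos, div_pow, inv_pow, Real.inv_rpow (by positivity),
    ← Real.rpow_pow_comm zero_le_two s, pow_succ]
  field_simp

/-- Almost every projection of a Frostman measure of exponent above `1` is absolutely continuous. -/
theorem ae_absolutelyContinuous_planeProj {K : Set ℂ} (μ : Measure K) [IsProbabilityMeasure μ]
    {s C : ℝ} (hs : 1 < s) (hC : 0 < C)
    (h : ∀ (x : K) (r : ℝ), 0 < r → μ (closedBall x r) ≤ ENNReal.ofReal (C * r ^ s)) :
    ∀ᵐ θ ∂(volume : Measure ℝ), μ.map (fun z : K => planeProj θ z) ≪ volume := by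
  have hcover : (⋃ n : ℤ, Set.Icc ((n : ℝ) * π) (n * π + π)) = Set.univ :=
    Set.eq_univ_of_forall fun t => Set.mem_iUnion.2 ⟨⌊t / π⌋,
      (le_div_iff₀ Real.pi_pos).1 (Int.floor_le _),
      by linarith [(div_lt_iff₀ Real.pi_pos).1 (Int.lt_floor_add_one (t / π))]⟩
  suffices hI : ∀ᵐ θ ∂(volume : Measure ℝ).restrict (⋃ n : ℤ, Set.Icc ((n : ℝ) * π) (n * π + π)),
      μ.map (fun z : K => planeProj θ z) ≪ volume by
    rwa [hcover, Measure.restrict_univ] at hI
  rw [ae_restrict_iUnion_iff]
  intro n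
  set E := 1 + ENNReal.ofReal ((2 : ℝ) ^ (1 : ℝ) * C / (1 - 2 ^ (1 - s))) with hE
  refine BernoulliConvolution.ae_absolutelyContinuous_of_close (μ := μ)
    (S := fun θ (z : K) => planeProj θ z) ?_
    (volume.restrict (Set.Icc ((n : ℝ) * π) (n * π + π))) (C := 2 * π * E.toReal) fun r hr => ?_
  · exact (by unfold planeProj; fun_prop : Continuous fun p : ℝ × K => planeProj p.1 p.2).measurable
  have h2 : ∀ q : K × K, (volume.restrict (Set.Icc ((n : ℝ) * π) (n * π + π)))
      {θ | |planeProj θ q.1 - planeProj θ q.2| ≤ r} ≤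
        ENNReal.ofReal (2 * π * r) * (edist q.1 q.2)⁻¹ := fun q => by
    rw [Measure.restrict_apply' measurableSet_Icc]
    have e : edist ((q.1 : ℂ) - q.2) 0 = edist q.1 q.2 := by
      rw [Subtype.edist_eq, edist_dist, edist_dist, dist_zero_right, dist_eq_norm]
    rw [← e]
    refine (measure_mono fun θ hθ => ?_).trans (volume_planeProj_le hr ((n : ℝ) * π) _)
    refine ⟨hθ.2, ?_⟩
    have := hθ.1
    simp only [Set.mem_ofPred_eq, planeProj, Complex.sub_re, Complex.sub_im] at this ⊢
    convert this using 2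
    ring
  refine (lintegral_mono h2).trans ?_
  have hm : Measurable fun q : K × K => (edist q.1 q.2)⁻¹ :=
    ((continuous_fst.edist continuous_snd).measurable).inv
  rw [lintegral_const_mul _ hm, lintegral_prod _ hm.aemeasurable]
  refine (mul_le_mul_right ((lintegral_mono fun x => by
    simpa only [ENNReal.rpow_one] using lintegral_inv_edist_rpow_le μ one_pos hs hC h x).trans_eq
    (by rw [lintegral_const, measure_univ, mul_one])) _).trans_eq ?_
  rw [← hE, show 2 * π * E.toReal * r = 2 * π * r * E.toReal by ring,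
    ENNReal.ofReal_mul (by positivity : (0 : ℝ) ≤ 2 * π * r), ENNReal.ofReal_toReal]
  exact ENNReal.add_ne_top.2 ⟨ENNReal.one_ne_top, ENNReal.ofReal_ne_top⟩

/-- **Marstrand's projection theorem.** -/
theorem ae_volume_planeProj_pos {K : Set ℂ} (hK : IsCompact K) (hd : 1 < dimH K) :
    ∀ᵐ θ ∂(volume : Measure ℝ), 0 < volume (planeProj θ '' K) := by
  have : CompactSpace K := isCompact_iff_compactSpace.1 hK
  obtain ⟨s, hs1, hsd⟩ := exists_between hd
  lift s to ℝ≥0 using hsd.ne_top
  have hs : (1 : ℝ) < s := by exact_mod_cast hs1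
  have hH : μH[(s : ℝ)] (Set.univ : Set K) ≠ 0 := by
    rw [← (isometry_subtype_coe : Isometry ((↑) : K → ℂ)).hausdorffMeasure_image
      (Or.inl (by positivity)), Subtype.coe_image_univ, hausdorffMeasure_of_lt_dimH hsd]
    exact ENNReal.top_ne_zero
  obtain ⟨μ, hμ, C, hC, hball⟩ := exists_frostman_measure (zero_lt_one.trans hs) hH
  filter_upwards [ae_absolutelyContinuous_planeProj μ hs hC hball] with θ hθ
  refine pos_iff_ne_zero.2 fun h0 => ?_
  have hm : Measurable fun z : K => planeProj θ z :=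
    ((continuous_planeProj θ).comp continuous_subtype_val).measurable
  have h1 := hθ h0
  rw [Measure.map_apply hm (hK.image (continuous_planeProj θ)).measurableSet,
    Set.preimage_eq_univ_iff.2 (by rintro _ ⟨z, rfl⟩; exact ⟨z, z.2, rfl⟩), measure_univ] at h1
  exact one_ne_zero h1

end FA.Frostman

end
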