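import Fermat.Agent.Frostman.Projection
import Mathlib.MeasureTheory.Constructions.Pi
import Mathlib.MeasureTheory.Measure.Haar.NormedSpace

/-!
# The theorem of Edgar and Miller

A subring of `ℝ` that contains a compact set `F` of positive Hausdorff dimension is `ℝ`. A power of
a Frostman measure on `F` has exponent above `1`, so some linear form maps a power of `F` onto a
set of positive length, and the `σ`-compact ring generated by `F` gives `ℝ = ∑ c i • G`. With the
fewest summands the form is injective, so by Baire some interval lifts continuously into a power of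
`G`, and a coordinate of the lift fills an interval of `G`.
-/

set_option autoImplicit false

noncomputable section

open MeasureTheory Filter Topology Metric
open scoped ENNReal NNReal Pointwise

namespace FA.Frostman

/-- The compact layers of the ring generated by `F`. -/
def ringLayer (F : Set ℝ) : ℕ → Set ℝ
  | 0 => {0, 1, -1} ∪ F ∪ (-F)
  | n + 1 => ringLayer F n ∪ (ringLayer F n + ringLayer F n) ∪ (ringLayer F n * ringLayer F n)

theorem isCompact_ringLayer {F : Set ℝ} (hF : IsCompact F) : ∀ n, IsCompact (ringLayer F n)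
  | 0 => ((isCompact_singleton.insert _).insert _ |>.union hF).union hF.neg
  | n + 1 => ((isCompact_ringLayer hF n).union
      ((isCompact_ringLayer hF n).add (isCompact_ringLayer hF n))).union
        ((isCompact_ringLayer hF n).mul (isCompact_ringLayer hF n))

theorem monotone_ringLayer (F : Set ℝ) : Monotone (ringLayer F) :=
  monotone_nat_of_le_succ fun _ _ hx => Or.inl (Or.inl hx)

theorem neg_mem_ringLayer {F : Set ℝ} : ∀ (n : ℕ) {x : ℝ}, x ∈ ringLayer F n → -x ∈ ringLayer F n
  | 0, x, hx => by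
    rcases hx with ((rfl | rfl | hx) | hx) | hx
    · exact Or.inl (Or.inl (by simp))
    · exact Or.inl (Or.inl (by simp))
    · rw [Set.mem_singleton_iff] at hx
      exact Or.inl (Or.inl (by simp [hx]))
    · exact Or.inr (by simpa using hx)
    · exact Or.inl (Or.inr (by simpa using hx))
  | n + 1, x, hx => by
    rcases hx with (hx | ⟨a, ha, b, hb, rfl⟩) | ⟨a, ha, b, hb, rfl⟩
    · exact Or.inl (Or.inl (neg_mem_ringLayer n hx))
    · exact Or.inl (Or.inr ⟨-a, neg_mem_ringLayer n ha, -b, neg_mem_ringLayer n hb, by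
        show -a + -b = -(a + b); ring⟩)
    · exact Or.inr ⟨-a, neg_mem_ringLayer n ha, b, hb, by show -a * b = -(a * b); ring⟩

/-- The ring generated by `F`, as a union of layers. -/
def layerRing (F : Set ℝ) : Subring ℝ where
  carrier := ⋃ n, ringLayer F n
  mul_mem' := by
    rintro a b ha hb
    obtain ⟨m, hm⟩ := Set.mem_iUnion.1 ha
    obtain ⟨n, hn⟩ := Set.mem_iUnion.1 hb
    exact Set.mem_iUnion.2 ⟨max m n + 1, Or.inr ⟨a, monotone_ringLayer F (le_max_left m n) hm,
      b, monotone_ringLayer F (le_max_right m n) hn, rfl⟩⟩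
  one_mem' := Set.mem_iUnion.2 ⟨0, Or.inl (Or.inl (by simp))⟩
  add_mem' := by
    rintro a b ha hb
    obtain ⟨m, hm⟩ := Set.mem_iUnion.1 ha
    obtain ⟨n, hn⟩ := Set.mem_iUnion.1 hb
    exact Set.mem_iUnion.2 ⟨max m n + 1, Or.inl (Or.inr ⟨a,
      monotone_ringLayer F (le_max_left m n) hm, b,
      monotone_ringLayer F (le_max_right m n) hn, rfl⟩)⟩
  zero_mem' := Set.mem_iUnion.2 ⟨0, Or.inl (Or.inl (by simp))⟩
  neg_mem' := by
    intro a ha
    obtain ⟨m, hm⟩ := Set.mem_iUnion.1 ha
    exact Set.mem_iUnion.2 ⟨m, neg_mem_ringLayer m hm⟩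

theorem subset_layerRing (F : Set ℝ) : F ⊆ layerRing F :=
  fun _ hx => Set.mem_iUnion.2 ⟨0, Or.inl (Or.inr hx)⟩

theorem layerRing_le {F : Set ℝ} {R : Subring ℝ} (h : F ⊆ R) : layerRing F ≤ R := by
  intro x hx
  obtain ⟨n, hn⟩ := Set.mem_iUnion.1 hx
  induction n generalizing x with
  | zero =>
    rcases hn with ((rfl | rfl | hn) | hn) | hn
    · exact R.zero_mem
    · exact R.one_mem
    · rw [Set.mem_singleton_iff] at hn
      rw [hn]
      exact R.neg_mem R.one_mem
    · exact h hn
    · simpa using R.neg_mem (h hn)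
  | succ n ih =>
    rcases hn with (hn | ⟨a, ha, b, hb, rfl⟩) | ⟨a, ha, b, hb, rfl⟩
    · exact ih hx hn
    · exact R.add_mem (ih (Set.mem_iUnion.2 ⟨n, ha⟩) ha) (ih (Set.mem_iUnion.2 ⟨n, hb⟩) hb)
    · exact R.mul_mem (ih (Set.mem_iUnion.2 ⟨n, ha⟩) ha) (ih (Set.mem_iUnion.2 ⟨n, hb⟩) hb)

/-- The parameters at which a linear form is within `r` of zero at `u`. -/
theorem volume_linearForm_le {k : ℕ} (u : Fin (k + 1) → ℝ) {r : ℝ} (hr : 0 < r) :
    (volume : Measure (Fin (k + 1) → ℝ)).restrict (Set.univ.pi fun _ => Set.Icc 0 1)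
      {c | |∑ i, c i * u i| ≤ r} ≤ ENNReal.ofReal (2 * r) * (edist u 0)⁻¹ := by
  rcases eq_or_ne u 0 with rfl | hu
  · rw [edist_self, ENNReal.inv_zero, ENNReal.mul_top (ENNReal.ofReal_pos.2 (by linarith)).ne']
    exact le_top
  obtain ⟨j, -, hj⟩ := Finset.exists_max_image Finset.univ (fun i => |u i|) Finset.univ_nonempty
  have hnorm : ‖u‖ = |u j| := le_antisymm ((pi_norm_le_iff_of_nonneg (abs_nonneg _)).2
    fun i => hj i (Finset.mem_univ i)) (norm_le_pi_norm u j)
  have hu0 : 0 < |u j| := hnorm ▸ norm_pos_iff.2 hu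
  rw [edist_dist, dist_zero_right, hnorm, ← ENNReal.ofReal_inv_of_pos hu0,
    ← ENNReal.ofReal_mul (by linarith)]
  set e := MeasurableEquiv.piFinSuccAbove (fun _ : Fin (k + 1) => ℝ) j
  have hm : MeasurableSet {c : Fin (k + 1) → ℝ | |∑ i, c i * u i| ≤ r} :=
    measurableSet_le (by fun_prop) measurable_const
  have hbox : MeasurableSet (Set.univ.pi fun _ : Fin (k + 1) => Set.Icc (0 : ℝ) 1) :=
    MeasurableSet.univ_pi fun _ => measurableSet_Icc
  rw [Measure.restrict_apply hm,
    ← ((volume_preserving_piFinSuccAbove (fun _ : Fin (k + 1) => ℝ) j).symm e).measure_preimage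
      (hm.inter hbox).nullMeasurableSet, Measure.volume_eq_prod,
    Measure.prod_apply_symm (e.symm.measurable (hm.inter hbox))]
  refine (lintegral_mono (g := Set.indicator (Set.univ.pi fun _ : Fin k => Set.Icc (0 : ℝ) 1)
    fun _ => ENNReal.ofReal (2 * r * |u j|⁻¹)) fun c' => ?_).trans ?_
  · by_cases hc : c' ∈ Set.univ.pi fun _ : Fin k => Set.Icc (0 : ℝ) 1
    · rw [Set.indicator_of_mem hc]
      refine (measure_mono (t := closedBall (-(∑ i, c' i * u (j.succAbove i)) / u j) (r / |u j|))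
        fun x hx => ?_).trans_eq ?_
      · have h : |∑ i, e.symm (x, c') i * u i| ≤ r := hx.1
        rw [Fin.sum_univ_succAbove _ j] at h
        simp only [e, MeasurableEquiv.piFinSuccAbove_symm_apply, Fin.insertNthEquiv,
          Equiv.coe_fn_mk, Fin.insertNth_apply_same, Fin.insertNth_apply_succAbove] at h
        rw [mem_closedBall, Real.dist_eq, le_div_iff₀ hu0, ← abs_mul]
        rw [show (x - -(∑ i, c' i * u (j.succAbove i)) / u j) * u j =
          x * u j + ∑ i, c' i * u (j.succAbove i) by field_simp [abs_pos.1 hu0]; ring]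
        exact h
      · rw [Real.volume_closedBall]
        congr 1
        ring
    · rw [Set.indicator_of_notMem hc, nonpos_iff_eq_zero]
      refine measure_mono_null (fun x hx => hc fun i _ => ?_) measure_empty
      have h := hx.2 (j.succAbove i) (Set.mem_univ _)
      simpa only [e, MeasurableEquiv.piFinSuccAbove_symm_apply, Fin.insertNthEquiv,
        Equiv.coe_fn_mk, Fin.insertNth_apply_succAbove] using h
  rw [lintegral_indicator_const (MeasurableSet.univ_pi fun _ => measurableSet_Icc),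
    volume_pi_pi]
  simp

/-- Some linear form maps a power of a set of positive dimension to a set of positive length. -/
theorem exists_linearForm_pos {F : Set ℝ} (hF : IsCompact F) (hd : 0 < dimH F) :
    ∃ (k : ℕ) (c : Fin k → ℝ),
      0 < volume ((fun v : Fin k → ℝ => ∑ i, c i * v i) '' Set.univ.pi fun _ => F) := by
  have : CompactSpace F := isCompact_iff_compactSpace.1 hF
  obtain ⟨s, hs, hsd⟩ := exists_between hd
  lift s to ℝ≥0 using hsd.ne_top
  have hs0 : (0 : ℝ) < s := by exact_mod_cast hs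
  have hH : μH[(s : ℝ)] (Set.univ : Set F) ≠ 0 := by
    rw [← (isometry_subtype_coe : Isometry ((↑) : F → ℝ)).hausdorffMeasure_image
      (Or.inl (by positivity)), Subtype.coe_image_univ, hausdorffMeasure_of_lt_dimH hsd]
    exact ENNReal.top_ne_zero
  obtain ⟨μ, hμ, C, hC, hball⟩ := exists_frostman_measure hs0 hH
  obtain ⟨k, hk⟩ := exists_nat_gt (1 / (s : ℝ))
  have hk1 : (1 : ℝ) < s * (k + 1) := by
    rw [div_lt_iff₀ hs0] at hk
    nlinarith
  set P := Measure.pi fun _ : Fin (k + 1) => μ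
  have hP : ∀ (x : Fin (k + 1) → F) (r : ℝ), 0 < r →
      P (closedBall x r) ≤ ENNReal.ofReal
        (C ^ (k + 1) * r ^ ((s : ℝ) * (k + 1))) := fun x r hr => by
    rw [closedBall_pi x hr.le, Measure.pi_pi]
    refine (Finset.prod_le_prod' fun i _ => hball (x i) r hr).trans_eq ?_
    rw [Finset.prod_const, Finset.card_univ, Fintype.card_fin, ← ENNReal.ofReal_pow (by positivity),
      mul_pow, ← Real.rpow_natCast (r ^ (s : ℝ)), ← Real.rpow_mul hr.le]
    push_cast
    ring_nf
  set M := 1 + ENNReal.ofReal ((2 : ℝ) ^ (1 : ℝ) * C ^ (k + 1) /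
    (1 - 2 ^ (1 - (s : ℝ) * (k + 1))))
  have hS : Measurable fun p : (Fin (k + 1) → ℝ) × (Fin (k + 1) → F) =>
      ∑ i, p.1 i * (p.2 i : ℝ) := by fun_prop
  set I := (volume : Measure (Fin (k + 1) → ℝ)).restrict (Set.univ.pi fun _ => Set.Icc 0 1) with hI
  have main := BernoulliConvolution.ae_absolutelyContinuous_of_close (μ := P)
    (S := fun c v => ∑ i, c i * (v i : ℝ)) hS I (C := 2 * M.toReal) fun r hr => by
    refine (lintegral_mono fun q => ?_).trans ((lintegral_const_mul' (ENNReal.ofReal (2 * r))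
      (fun q : (Fin (k + 1) → F) × (Fin (k + 1) → F) => (edist q.1 q.2)⁻¹)
      ENNReal.ofReal_ne_top).le.trans ?_)
    · have e : edist (fun i => (q.1 i : ℝ) - q.2 i) 0 = edist q.1 q.2 := by
        rw [edist_pi_def, edist_pi_def]
        refine Finset.sup_congr rfl fun i _ => ?_
        rw [Subtype.edist_eq, Pi.zero_apply, edist_dist, edist_dist, dist_zero_right, dist_eq_norm]
      rw [← e]
      refine le_trans (le_of_eq ?_) (volume_linearForm_le _ hr)
      simp only [hI, mul_sub, Finset.sum_sub_distrib]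
    · rw [lintegral_prod (fun q : (Fin (k + 1) → F) × (Fin (k + 1) → F) => (edist q.1 q.2)⁻¹)
          ((continuous_fst.edist continuous_snd).measurable.inv).aemeasurable,
        show 2 * M.toReal * r = 2 * r * M.toReal by ring,
        ENNReal.ofReal_mul (p := 2 * r) (q := M.toReal) (by linarith),
        ENNReal.ofReal_toReal (ENNReal.add_ne_top.2 ⟨ENNReal.one_ne_top, ENNReal.ofReal_ne_top⟩)]
      refine mul_le_mul_right ((lintegral_mono fun x => ?_).trans_eq
        (by rw [lintegral_const, measure_univ, mul_one])) _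
      simpa only [ENNReal.rpow_one] using
        lintegral_inv_edist_rpow_le P one_pos hk1 (pow_pos hC _) hP x
  have : NeZero I := ⟨fun h => by
    have := congrArg (fun m : Measure (Fin (k + 1) → ℝ) => m Set.univ) h
    simp only [hI, Measure.restrict_apply_univ, volume_pi_pi, Real.volume_Icc] at this
    simp at this⟩
  obtain ⟨c, hc⟩ := main.exists
  refine ⟨k + 1, c, pos_iff_ne_zero.2 fun h0 => ?_⟩
  have h1 := hc h0
  have hSc : Measurable fun v : Fin (k + 1) → F => ∑ i, c i * (v i : ℝ) := by fun_prop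
  rw [Measure.map_apply hSc ((isCompact_univ_pi fun _ => hF).image
      (by fun_prop)).measurableSet,
    Set.preimage_eq_univ_iff.2 (by rintro _ ⟨v, rfl⟩; exact ⟨fun i => (v i : ℝ),
      fun i _ => (v i).2, rfl⟩), measure_univ] at h1
  exact one_ne_zero h1

theorem eq_top_of_Icc_subset {G : Subring ℝ} {a b : ℝ} (hab : a < b)
    (h : Set.Icc a b ⊆ (G : Set ℝ)) : G = ⊤ := by
  refine eq_top_iff.2 fun x _ => ?_
  obtain ⟨n, hn⟩ := exists_nat_gt (|x| / ((b - a) / 2))
  have hn0 : 0 < (n : ℝ) := lt_of_le_of_lt (by have := sub_pos.2 hab; positivity) hn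
  rw [div_lt_iff₀ (by linarith)] at hn
  have hmem : ∀ y : ℝ, |y| ≤ (b - a) / 2 → y ∈ G := fun y hy => by
    have h1 : (a + b) / 2 + y ∈ G :=
      h ⟨by linarith [(abs_le.1 hy).1], by linarith [(abs_le.1 hy).2]⟩
    simpa using G.sub_mem h1 (h ⟨by linarith, by linarith⟩ : (a + b) / 2 ∈ G)
  have : (n : ℕ) • (x / n) ∈ G := G.toAddSubgroup.nsmul_mem (hmem _ (by
    rw [abs_div, abs_of_pos hn0, div_le_iff₀ hn0]; linarith)) n
  rwa [nsmul_eq_mul, mul_div_cancel₀ _ hn0.ne'] at this

/-- Every real is a combination of `k` elements of the ring with coefficients `c`. -/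
def Spans (G : Subring ℝ) {k : ℕ} (c : Fin k → ℝ) : Prop :=
  ∀ x : ℝ, ∃ v : Fin k → ℝ, (∀ i, v i ∈ G) ∧ ∑ i, c i * v i = x

theorem exists_spans_layerRing {F : Set ℝ} (hF : IsCompact F) (hd : 0 < dimH F) :
    ∃ (k : ℕ) (c : Fin k → ℝ), Spans (layerRing F) c := by
  obtain ⟨k, c, hpos⟩ := exists_linearForm_pos hF hd
  set E := (fun v : Fin k → ℝ => ∑ i, c i * v i) '' Set.univ.pi fun _ => F
  have hEc : IsCompact E := (isCompact_univ_pi fun _ => hF).image (by fun_prop)
  have hnhds := Measure.sub_mem_nhds_zero_of_addHaar_pos_ne_top volume E hEc.measurableSet hpos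
    hEc.measure_lt_top.ne
  obtain ⟨η, hη, hball⟩ := Metric.mem_nhds_iff.1 hnhds
  refine ⟨k, c, fun x => ?_⟩
  obtain ⟨n, hn⟩ := exists_nat_gt (|x| / η)
  have hn0 : 0 < (n : ℝ) := lt_of_le_of_lt (by positivity) hn
  rw [div_lt_iff₀ hη] at hn
  obtain ⟨_, ⟨v, hv, rfl⟩, _, ⟨w, hw, rfl⟩, he⟩ := hball (show x / n ∈ ball (0 : ℝ) η by
    rw [mem_ball, dist_zero_right, Real.norm_eq_abs, abs_div, abs_of_pos hn0, div_lt_iff₀ hn0]
    linarith)
  refine ⟨fun i => n * (v i - w i), fun i => (layerRing F).mul_mem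
    (natCast_mem (layerRing F) n) ((layerRing F).sub_mem (subset_layerRing F (hv i trivial))
      (subset_layerRing F (hw i trivial))), ?_⟩
  simp only at he
  calc ∑ i, c i * (n * (v i - w i)) = n * (∑ i, c i * v i - ∑ i, c i * w i) := by
        rw [← Finset.sum_sub_distrib, Finset.mul_sum]
        exact Finset.sum_congr rfl fun i _ => by ring
    _ = x := by rw [he, mul_div_cancel₀ _ hn0.ne']

theorem layerRing_eq_top {F : Set ℝ} (hF : IsCompact F) (hd : 0 < dimH F) :
    layerRing F = ⊤ := by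
  classical
  have hex := exists_spans_layerRing hF hd
  obtain ⟨c, hc⟩ := Nat.find_spec hex
  rcases hk : Nat.find hex with _ | m
  · obtain ⟨v, -, hv⟩ := hc 1
    rw [Finset.sum_eq_zero fun i => absurd i.2 (by omega)] at hv
    exact absurd hv zero_ne_one
  revert c hc
  rw [hk]
  intro c hc
  by_cases hinj : ∀ v : Fin (m + 1) → ℝ, (∀ i, v i ∈ layerRing F) → ∑ i, c i * v i = 0 → v = 0
  · set L : (Fin (m + 1) → ℝ) → ℝ := fun v => ∑ i, c i * v i
    set T : ℕ → Set (Fin (m + 1) → ℝ) := fun n => Set.univ.pi fun _ => ringLayer F n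
    have hTc : ∀ n, IsCompact (T n) := fun n => isCompact_univ_pi fun _ => isCompact_ringLayer hF n
    have hLc : Continuous L := by fun_prop
    have hU : ⋃ n, L '' T n = Set.univ := Set.eq_univ_of_forall fun x => by
      obtain ⟨v, hv, hvx⟩ := hc x
      choose n hn using fun i => Set.mem_iUnion.1 (hv i)
      exact Set.mem_iUnion.2 ⟨Finset.univ.sup n, v, fun i _ =>
        monotone_ringLayer F (Finset.le_sup (Finset.mem_univ i)) (hn i), hvx⟩
    obtain ⟨n, x, hx⟩ := nonempty_interior_of_iUnion_of_closed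
      (fun n => ((hTc n).image hLc).isClosed) hU
    obtain ⟨η, hη, hball⟩ := Metric.isOpen_iff.1 isOpen_interior x hx
    have hIcc : Set.Icc x (x + η / 2) ⊆ L '' T n := fun y hy => interior_subset (hball (by
      rw [mem_ball, Real.dist_eq, abs_of_nonneg (by linarith [hy.1] : 0 ≤ y - x)]
      linarith [hy.2]))
    have : CompactSpace (T n) := isCompact_iff_compactSpace.1 (hTc n)
    have hTinj : Function.Injective fun v : T n => L v := fun v w hvw => by
      refine Subtype.ext (sub_eq_zero.1 (hinj _ (fun i => (layerRing F).sub_mem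
        (Set.mem_iUnion.2 ⟨n, v.2 i trivial⟩) (Set.mem_iUnion.2 ⟨n, w.2 i trivial⟩)) ?_))
      simp only [Pi.sub_apply, mul_sub, Finset.sum_sub_distrib]
      exact sub_eq_zero.2 hvw
    have hemb := ((hLc.comp continuous_subtype_val).isClosedEmbedding hTinj).isEmbedding
    have hsub : Set.Icc x (x + η / 2) ⊆ Set.range fun v : T n => L v := fun y hy => by
      obtain ⟨v, hv, rfl⟩ := hIcc hy
      exact ⟨⟨v, hv⟩, rfl⟩
    set Q : Set (T n) := (fun v : T n => L v) ⁻¹' Set.Icc x (x + η / 2)
    have hQ : IsPreconnected Q := by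
      rw [← hemb.isInducing.isPreconnected_image]
      show IsPreconnected ((fun v : T n => L v) '' Q)
      rw [show (fun v : T n => L v) '' Q = Set.Icc x (x + η / 2) from
        Set.image_preimage_eq_of_subset hsub]
      exact isPreconnected_Icc
    obtain ⟨v₀, hv₀⟩ := hsub (Set.left_mem_Icc.2 (by linarith : x ≤ x + η / 2))
    obtain ⟨v₁, hv₁⟩ := hsub (Set.right_mem_Icc.2 (by linarith : x ≤ x + η / 2))
    simp only at hv₀ hv₁
    obtain ⟨i, hi⟩ := Function.ne_iff.1 (fun h : (v₀ : Fin (m + 1) → ℝ) = v₁ => by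
      rw [h, hv₁] at hv₀; linarith)
    have hP : IsPreconnected ((fun v : T n => (v : Fin (m + 1) → ℝ) i) '' Q) :=
      hQ.image _ ((continuous_apply i).comp continuous_subtype_val).continuousOn
    have hm₀ : (v₀ : Fin (m + 1) → ℝ) i ∈ (fun v : T n => (v : Fin (m + 1) → ℝ) i) '' Q :=
      ⟨v₀, by
        show L v₀ ∈ Set.Icc x (x + η / 2)
        rw [hv₀]
        exact Set.left_mem_Icc.2 (by linarith), rfl⟩
    have hm₁ : (v₁ : Fin (m + 1) → ℝ) i ∈ (fun v : T n => (v : Fin (m + 1) → ℝ) i) '' Q :=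
      ⟨v₁, by
        show L v₁ ∈ Set.Icc x (x + η / 2)
        rw [hv₁]
        exact Set.right_mem_Icc.2 (by linarith), rfl⟩
    have hG : (fun v : T n => (v : Fin (m + 1) → ℝ) i) '' Q ⊆ (layerRing F : Set ℝ) := by
      rintro _ ⟨v, -, rfl⟩
      exact Set.mem_iUnion.2 ⟨n, v.2 i trivial⟩
    rcases lt_or_gt_of_ne hi with h | h
    · exact eq_top_of_Icc_subset h ((hP.Icc_subset hm₀ hm₁).trans hG)
    · exact eq_top_of_Icc_subset h ((hP.Icc_subset hm₁ hm₀).trans hG)
  · push Not at hinj
    obtain ⟨w, hw, hw0, hne⟩ := hinj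
    obtain ⟨j, hj⟩ := Function.ne_iff.1 hne
    rw [Pi.zero_apply] at hj
    refine absurd (Nat.find_min' hex ⟨c ∘ j.succAbove, fun x => ?_⟩) (by omega : ¬ Nat.find hex ≤ m)
    obtain ⟨u, hu, hux⟩ := hc (x / w j)
    refine ⟨fun i => u (j.succAbove i) * w j - u j * w (j.succAbove i), fun i =>
      (layerRing F).sub_mem ((layerRing F).mul_mem (hu _) (hw _))
        ((layerRing F).mul_mem (hu _) (hw _)), ?_⟩
    have h1 := Fin.sum_univ_succAbove (fun i => c i * (u i * w j - u j * w i)) j
    simp only [sub_self, mul_zero, zero_add] at h1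
    simp only [Function.comp_apply]
    rw [← h1]
    calc ∑ i, c i * (u i * w j - u j * w i)
        = w j * ∑ i, c i * u i - u j * ∑ i, c i * w i := by
          rw [Finset.mul_sum, Finset.mul_sum, ← Finset.sum_sub_distrib]
          exact Finset.sum_congr rfl fun i _ => by ring
      _ = x := by rw [hw0, hux, mul_zero, sub_zero, mul_div_cancel₀ _ hj]

/-- **The theorem of Edgar and Miller.** -/
theorem subring_eq_top_of_dimH_pos {R : Subring ℝ} {F : Set ℝ} (hF : IsCompact F)
    (hd : 0 < dimH F) (hFR : F ⊆ R) : R = ⊤ :=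
  eq_top_iff.2 (layerRing_eq_top hF hd ▸ layerRing_le hFR)

/-- A proper `σ`-compact subring has dimension `0`. -/
theorem dimH_eq_zero_of_isSigmaCompact {R : Subring ℝ} (hR : IsSigmaCompact (R : Set ℝ))
    (hne : R ≠ ⊤) : dimH (R : Set ℝ) = 0 := by
  obtain ⟨K, hK, hKR⟩ := hR
  rw [← hKR, dimH_iUnion, ENNReal.iSup_eq_zero]
  intro n
  by_contra h0
  exact hne (subring_eq_top_of_dimH_pos (hK n) (pos_iff_ne_zero.2 h0)
    (hKR ▸ Set.subset_iUnion K n))

end FA.Frostman

end
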